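/-
DS-C (Chebotarev), file 4: the class `DscCont` of functions on `(1, 2]` which extend continuously
to `[1, 2]`.
-/
import Mathlib

set_option autoImplicit false

namespace Fermat.Agent.DS

/-- `f` agrees on `(1, 2]` with a function which is continuous on `[1, 2]` -/
def DscCont {E : Type*} [TopologicalSpace E] (f : ℝ → E) : Prop :=
  ∃ g : ℝ → E, ContinuousOn g (Set.Icc 1 2) ∧ ∀ s ∈ Set.Ioc (1 : ℝ) 2, f s = g s

section

variable {E : Type*} [TopologicalSpace E]

lemma DscCont.of_continuousOn {f : ℝ → E} (h : ContinuousOn f (Set.Icc 1 2)) : DscCont f :=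
  ⟨f, h, fun _ _ => rfl⟩

lemma dscCont_const (c : E) : DscCont fun _ : ℝ => c :=
  DscCont.of_continuousOn continuousOn_const

lemma DscCont.congr {f f' : ℝ → E} (h : DscCont f) (hff' : ∀ s ∈ Set.Ioc (1 : ℝ) 2, f' s = f s) :
    DscCont f' := by
  obtain ⟨g, hg, hfg⟩ := h
  exact ⟨g, hg, fun s hs => (hff' s hs).trans (hfg s hs)⟩

lemma DscCont.comp {E' : Type*} [TopologicalSpace E'] {f : ℝ → E} (h : DscCont f) {φ : E → E'}
    (hφ : Continuous φ) : DscCont fun s => φ (f s) := by
  obtain ⟨g, hg, hfg⟩ := h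
  exact ⟨fun s => φ (g s), hφ.comp_continuousOn hg, fun s hs => by simp only [hfg s hs]⟩

variable [Ring E] [IsTopologicalRing E]

lemma DscCont.add {f f' : ℝ → E} (h : DscCont f) (h' : DscCont f') :
    DscCont fun s => f s + f' s := by
  obtain ⟨g, hg, hfg⟩ := h
  obtain ⟨g', hg', hfg'⟩ := h'
  exact ⟨fun s => g s + g' s, hg.add hg', fun s hs => by simp only [hfg s hs, hfg' s hs]⟩

lemma DscCont.neg {f : ℝ → E} (h : DscCont f) : DscCont fun s => -f s := by
  obtain ⟨g, hg, hfg⟩ := h
  exact ⟨fun s => -g s, hg.neg, fun s hs => by simp only [hfg s hs]⟩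

lemma DscCont.sub {f f' : ℝ → E} (h : DscCont f) (h' : DscCont f') :
    DscCont fun s => f s - f' s := by
  obtain ⟨g, hg, hfg⟩ := h
  obtain ⟨g', hg', hfg'⟩ := h'
  exact ⟨fun s => g s - g' s, hg.sub hg', fun s hs => by simp only [hfg s hs, hfg' s hs]⟩

lemma DscCont.mul {f f' : ℝ → E} (h : DscCont f) (h' : DscCont f') :
    DscCont fun s => f s * f' s := by
  obtain ⟨g, hg, hfg⟩ := h
  obtain ⟨g', hg', hfg'⟩ := h'
  exact ⟨fun s => g s * g' s, hg.mul hg', fun s hs => by simp only [hfg s hs, hfg' s hs]⟩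

lemma DscCont.const_mul {f : ℝ → E} (h : DscCont f) (c : E) : DscCont fun s => c * f s :=
  (dscCont_const c).mul h

lemma DscCont.mul_const {f : ℝ → E} (h : DscCont f) (c : E) : DscCont fun s => f s * c :=
  h.mul (dscCont_const c)

lemma DscCont.sum {ι : Type*} (t : Finset ι) {f : ι → ℝ → E} (h : ∀ i ∈ t, DscCont (f i)) :
    DscCont fun s => ∑ i ∈ t, f i s := by
  classical
  induction t using Finset.induction_on with
  | empty => simpa using dscCont_const (0 : E)
  | insert j t hj ih =>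
    have h1 := (h j (Finset.mem_insert_self j t)).add
      (ih fun i hi => h i (Finset.mem_insert_of_mem hi))
    refine h1.congr fun s _ => ?_
    rw [Finset.sum_insert hj]

end

lemma DscCont.ofReal {f : ℝ → ℝ} (h : DscCont f) : DscCont fun s => ((f s : ℝ) : ℂ) :=
  h.comp Complex.continuous_ofReal

end Fermat.Agent.DS
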