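/-
DS-C (Chebotarev), file 1: the hat function `t ↦ max 0 (1 - |t|)` and its products; they form a
Lipschitz partition of unity under integer translations.
-/
import Mathlib

set_option autoImplicit false

open Finset

namespace Fermat.Agent.DS

/-- the hat function -/
noncomputable def dscHat (t : ℝ) : ℝ := max 0 (1 - |t|)

lemma dscHat_nonneg (t : ℝ) : 0 ≤ dscHat t := le_max_left _ _

lemma dscHat_le_one (t : ℝ) : dscHat t ≤ 1 :=
  max_le zero_le_one (by linarith [abs_nonneg t])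

lemma dscHat_eq_zero {t : ℝ} (h : 1 ≤ |t|) : dscHat t = 0 :=
  max_eq_left (by linarith)

lemma dscHat_of_abs_le {t : ℝ} (h : |t| ≤ 1) : dscHat t = 1 - |t| :=
  max_eq_right (by linarith)

lemma abs_lt_one_of_dscHat_ne_zero {t : ℝ} (h : dscHat t ≠ 0) : |t| < 1 := by
  by_contra hcon
  exact h (dscHat_eq_zero (not_lt.mp hcon))

lemma dscHat_lipschitz (t u : ℝ) : |dscHat t - dscHat u| ≤ |t - u| := by
  have h1 : |max 0 (1 - |t|) - max 0 (1 - |u|)| ≤ |(1 - |t|) - (1 - |u|)| := by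
    have := abs_max_sub_max_le_abs (1 - |t|) (1 - |u|) (0 : ℝ)
    rwa [max_comm (1 - |t|), max_comm (1 - |u|)] at this
  refine h1.trans ?_
  have : (1 - |t|) - (1 - |u|) = |u| - |t| := by ring
  rw [this, abs_sub_comm t u]
  exact abs_abs_sub_abs_le_abs_sub u t

/-- the integer translates of the hat function sum to `1` -/
lemma dscHat_hasSum (t : ℝ) : HasSum (fun n : ℤ => dscHat (t + n)) 1 := by
  set k : ℤ := ⌊t⌋ with hk
  have hf0 : 0 ≤ t - k := by linarith [Int.floor_le t]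
  have hf1 : t - k < 1 := by linarith [Int.lt_floor_add_one t]
  have hne : (-k : ℤ) ≠ -k - 1 := by omega
  have hsum : ∑ n ∈ ({-k, -k - 1} : Finset ℤ), dscHat (t + n) = 1 := by
    rw [Finset.sum_pair hne]
    have h1 : dscHat (t + ((-k : ℤ) : ℝ)) = 1 - (t - k) := by
      rw [dscHat_of_abs_le]
      · push_cast
        rw [show t + -(k : ℝ) = t - k by ring, abs_of_nonneg hf0]
      · push_cast
        rw [show t + -(k : ℝ) = t - k by ring, abs_of_nonneg hf0]
        exact hf1.le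
    have h2 : dscHat (t + ((-k - 1 : ℤ) : ℝ)) = t - k := by
      have hneg : t + ((-k - 1 : ℤ) : ℝ) ≤ 0 := by push_cast; linarith
      have habs : |t + ((-k - 1 : ℤ) : ℝ)| = 1 - (t - k) := by
        rw [abs_of_nonpos hneg]; push_cast; ring
      rw [dscHat_of_abs_le (by rw [habs]; linarith), habs]
      ring
    rw [h1, h2]
    ring
  rw [← hsum]
  refine hasSum_sum_of_ne_finset_zero fun n hn => ?_
  rw [Finset.mem_insert, Finset.mem_singleton, not_or] at hn
  apply dscHat_eq_zero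
  have hn1 : n ≠ -k := hn.1
  have hn2 : n ≠ -k - 1 := hn.2
  rcases lt_or_gt_of_ne hn1 with h | h
  · have h' : n ≤ -k - 2 := by omega
    have : ((n : ℤ) : ℝ) ≤ -k - 2 := by exact_mod_cast h'
    rw [abs_of_nonpos (by linarith)]
    linarith
  · have h' : -k + 1 ≤ n := by omega
    have : (-k + 1 : ℝ) ≤ ((n : ℤ) : ℝ) := by exact_mod_cast h'
    rw [abs_of_nonneg (by linarith)]
    linarith

section Prod

variable {ι : Type*} [Fintype ι]

/-- product of hat functions -/
noncomputable def dscHatProd (c : ι → ℝ) : ℝ := ∏ i, dscHat (c i)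

lemma dscHatProd_nonneg (c : ι → ℝ) : 0 ≤ dscHatProd c :=
  Finset.prod_nonneg fun i _ => dscHat_nonneg (c i)

lemma dscHatProd_le_one (c : ι → ℝ) : dscHatProd c ≤ 1 :=
  Finset.prod_le_one (fun i _ => dscHat_nonneg (c i)) fun i _ => dscHat_le_one (c i)

lemma abs_lt_one_of_dscHatProd_ne_zero {c : ι → ℝ} (h : dscHatProd c ≠ 0) (i : ι) : |c i| < 1 :=
  abs_lt_one_of_dscHat_ne_zero (Finset.prod_ne_zero_iff.mp h i (Finset.mem_univ i))

omit [Fintype ι] in
/-- `|∏ a - ∏ b| ≤ ∑ |a - b|` for factors in `[0, 1]` -/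
lemma dsc_abs_prod_sub_prod_le (s : Finset ι) (a b : ι → ℝ)
    (ha0 : ∀ i, 0 ≤ a i) (ha1 : ∀ i, a i ≤ 1) (hb0 : ∀ i, 0 ≤ b i) (hb1 : ∀ i, b i ≤ 1) :
    |∏ i ∈ s, a i - ∏ i ∈ s, b i| ≤ ∑ i ∈ s, |a i - b i| := by
  classical
  induction s using Finset.induction_on with
  | empty => simp
  | insert j s hj ih =>
    rw [Finset.prod_insert hj, Finset.prod_insert hj, Finset.sum_insert hj]
    have hA0 : 0 ≤ ∏ i ∈ s, a i := Finset.prod_nonneg fun i _ => ha0 i
    have hA1 : ∏ i ∈ s, a i ≤ 1 := Finset.prod_le_one (fun i _ => ha0 i) fun i _ => ha1 i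
    have h : a j * ∏ i ∈ s, a i - b j * ∏ i ∈ s, b i =
        (a j - b j) * ∏ i ∈ s, a i + b j * (∏ i ∈ s, a i - ∏ i ∈ s, b i) := by ring
    rw [h]
    refine (abs_add_le _ _).trans (add_le_add ?_ ?_)
    · rw [abs_mul, abs_of_nonneg hA0]
      exact mul_le_of_le_one_right (abs_nonneg _) hA1
    · rw [abs_mul, abs_of_nonneg (hb0 j)]
      exact (mul_le_of_le_one_left (abs_nonneg _) (hb1 j)).trans ih

lemma dscHatProd_lipschitz (c c' : ι → ℝ) :
    |dscHatProd c - dscHatProd c'| ≤ ∑ i, |c i - c' i| :=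
  (dsc_abs_prod_sub_prod_le Finset.univ (fun i => dscHat (c i)) (fun i => dscHat (c' i))
    (fun _ => dscHat_nonneg _) (fun _ => dscHat_le_one _) (fun _ => dscHat_nonneg _)
    (fun _ => dscHat_le_one _)).trans
    (Finset.sum_le_sum fun i _ => dscHat_lipschitz (c i) (c' i))

/-- the integer translates of a product of hat functions sum to `1` -/
lemma dscHatProd_hasSum (c : ι → ℝ) :
    HasSum (fun n : ι → ℤ => dscHatProd (fun i => c i + n i)) 1 := by
  classical
  set S : Finset (ι → ℤ) := Fintype.piFinset fun i => ({-⌊c i⌋, -⌊c i⌋ - 1} : Finset ℤ) with hS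
  have hone : ∀ i, ∑ n ∈ ({-⌊c i⌋, -⌊c i⌋ - 1} : Finset ℤ), dscHat (c i + n) = 1 := by
    intro i
    have h := dscHat_hasSum (c i)
    have h2 : HasSum (fun n : ℤ => dscHat (c i + n))
        (∑ n ∈ ({-⌊c i⌋, -⌊c i⌋ - 1} : Finset ℤ), dscHat (c i + n)) := by
      refine hasSum_sum_of_ne_finset_zero fun n hn => ?_
      by_contra hne
      have hlt := abs_lt_one_of_dscHat_ne_zero hne
      rw [abs_lt] at hlt
      have h1 : (n : ℝ) < -⌊c i⌋ + 1 := by linarith [Int.floor_le (c i)]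
      have h2 : -(⌊c i⌋ : ℝ) - 2 < n := by linarith [Int.lt_floor_add_one (c i)]
      have h1' : n < -⌊c i⌋ + 1 := by exact_mod_cast h1
      have h2' : -⌊c i⌋ - 2 < n := by exact_mod_cast h2
      apply hn
      rw [Finset.mem_insert, Finset.mem_singleton]
      omega
    exact h2.unique h
  have hsum : ∑ n ∈ S, dscHatProd (fun i => c i + n i) = 1 := by
    simp only [dscHatProd]
    rw [hS, ← Finset.prod_univ_sum (fun i => ({-⌊c i⌋, -⌊c i⌋ - 1} : Finset ℤ))
      (fun i (n : ℤ) => dscHat (c i + n))]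
    exact Finset.prod_eq_one fun i _ => hone i
  rw [← hsum]
  refine hasSum_sum_of_ne_finset_zero fun n hn => ?_
  rw [hS, Fintype.mem_piFinset] at hn
  push Not at hn
  obtain ⟨i, hi⟩ := hn
  refine Finset.prod_eq_zero (Finset.mem_univ i) ?_
  by_contra hne
  have hlt := abs_lt_one_of_dscHat_ne_zero hne
  rw [abs_lt] at hlt
  have h1 : ((n i : ℤ) : ℝ) < -⌊c i⌋ + 1 := by linarith [Int.floor_le (c i)]
  have h2 : -(⌊c i⌋ : ℝ) - 2 < n i := by linarith [Int.lt_floor_add_one (c i)]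
  have h1' : n i < -⌊c i⌋ + 1 := by exact_mod_cast h1
  have h2' : -⌊c i⌋ - 2 < n i := by exact_mod_cast h2
  apply hi
  rw [Finset.mem_insert, Finset.mem_singleton]
  omega

end Prod

end Fermat.Agent.DS
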