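/-
DS-C (Chebotarev), file 2: a Lipschitz partition of unity for the action of the units of a number
field `K` on its mixed space: `dscW K x = dscW0 K (logMap x)` with `∑_{u ∈ (𝓞 K)ˣ} dscW K (u • x) =
torsionOrder K` whenever `norm x ≠ 0`.
-/
import Fermat.Agent.Lib.DS.Cheb.Hat

set_option autoImplicit false
set_option linter.unusedSectionVars false

open NumberField NumberField.mixedEmbedding NumberField.Units
  NumberField.Units.dirichletUnitTheorem NumberField.InfinitePlace Module

namespace Fermat.Agent.DS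

/-- summing a function of the quotient over the group -/
lemma dsc_hasSum_comp_mk {G : Type*} [Group G] (T : Subgroup G) [Finite T] (f : G ⧸ T → ℝ)
    (hf : ∀ q, 0 ≤ f q) {a : ℝ} (h : HasSum f a) :
    HasSum (fun g : G => f (QuotientGroup.mk g)) ((Nat.card T : ℝ) * a) := by
  classical
  let π : G → G ⧸ T := QuotientGroup.mk
  let e := Equiv.sigmaFiberEquiv π
  have hfibEquiv : ∀ q : G ⧸ T, Nonempty ({g : G // π g = q} ≃ T) := by
    intro q
    obtain ⟨g₀, rfl⟩ := QuotientGroup.mk_surjective q
    refine ⟨{ toFun := fun g => ⟨g₀⁻¹ * g.1, ?_⟩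
              invFun := fun t => ⟨g₀ * t.1, ?_⟩
              left_inv := fun g => by ext; simp
              right_inv := fun t => by ext; simp }⟩
    · have := g.2
      exact (QuotientGroup.eq (s := T)).mp this.symm
    · show (QuotientGroup.mk (g₀ * t.1) : G ⧸ T) = QuotientGroup.mk g₀
      rw [eq_comm, QuotientGroup.eq]
      simp
  have hfib : ∀ q : G ⧸ T, HasSum (fun c : {g : G // π g = q} => f (π (e ⟨q, c⟩)))
      ((Nat.card T : ℝ) * f q) := by
    intro q
    obtain ⟨eq⟩ := hfibEquiv q
    have : Finite {g : G // π g = q} := Finite.of_equiv _ eq.symm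
    have := Fintype.ofFinite {g : G // π g = q}
    have hconst : (fun c : {g : G // π g = q} => f (π (e ⟨q, c⟩))) = fun _ => f q := by
      funext c
      have : π (e ⟨q, c⟩) = q := c.2
      rw [this]
    rw [hconst]
    have := hasSum_fintype (fun _ : {g : G // π g = q} => f q)
    rw [Finset.sum_const, Finset.card_univ, nsmul_eq_mul, ← Nat.card_eq_fintype_card,
      Nat.card_congr eq] at this
    exact this
  rw [← e.hasSum_iff]
  refine HasSum.sigma_of_hasSum (h.mul_left _) hfib ?_
  refine (summable_sigma_of_nonneg (fun _ => hf _)).mpr ⟨fun q => (hfib q).summable, ?_⟩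
  have : (fun q : G ⧸ T => ∑' c : {g : G // π g = q}, f (π (e ⟨q, c⟩))) =
      fun q => (Nat.card T : ℝ) * f q := funext fun q => (hfib q).tsum_eq
  exact this ▸ (h.mul_left _).summable

variable (K : Type*) [Field K] [NumberField K]

open scoped Classical

/-- the real basis of the log space given by a system of fundamental units -/
noncomputable def dscLogBasis : Basis (Fin (rank K)) ℝ (logSpace K) :=
  (basisUnitLattice K).ofZLatticeBasis ℝ (unitLattice K)

/-- the weight on the log space -/
noncomputable def dscW0 (h : logSpace K) : ℝ := dscHatProd fun i => (dscLogBasis K).repr h i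

lemma dscW0_nonneg (h : logSpace K) : 0 ≤ dscW0 K h := dscHatProd_nonneg _

lemma dscW0_le_one (h : logSpace K) : dscW0 K h ≤ 1 := dscHatProd_le_one _

lemma dscLogBasis_repr_add_lattice (h : logSpace K) (l : unitLattice K) (i : Fin (rank K)) :
    (dscLogBasis K).repr (h + (l : logSpace K)) i =
      (dscLogBasis K).repr h i + (((basisUnitLattice K).repr l i : ℤ) : ℝ) := by
  rw [map_add, Finsupp.add_apply, dscLogBasis, Basis.ofZLatticeBasis_repr_apply]

/-- the translates of `dscW0` under the unit lattice sum to `1` -/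
lemma dscW0_hasSum (h : logSpace K) :
    HasSum (fun l : unitLattice K => dscW0 K (h + (l : logSpace K))) 1 := by
  have h1 := dscHatProd_hasSum (fun i => (dscLogBasis K).repr h i)
  rw [← (basisUnitLattice K).equivFun.toEquiv.hasSum_iff] at h1
  refine h1.congr_fun fun l => ?_
  simp only [Function.comp_apply, dscW0]
  congr 1
  funext i
  rw [dscLogBasis_repr_add_lattice]
  rfl

lemma dscW0_lipschitz : ∃ C : ℝ, 0 ≤ C ∧ ∀ h h' : logSpace K,
    |dscW0 K h - dscW0 K h'| ≤ C * ‖h - h'‖ := by
  set L := (dscLogBasis K).equivFunL with hL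
  refine ⟨(Fintype.card (Fin (rank K)) : ℝ) * ‖(L : logSpace K →L[ℝ] (Fin (rank K) → ℝ))‖,
    by positivity, fun h h' => ?_⟩
  refine (dscHatProd_lipschitz _ _).trans ?_
  have hle : ∀ i, |(dscLogBasis K).repr h i - (dscLogBasis K).repr h' i| ≤
      ‖(L : logSpace K →L[ℝ] (Fin (rank K) → ℝ))‖ * ‖h - h'‖ := by
    intro i
    have h1 : (dscLogBasis K).repr h i - (dscLogBasis K).repr h' i = L (h - h') i := by
      rw [map_sub]; rfl
    rw [h1, ← Real.norm_eq_abs]
    exact (norm_le_pi_norm _ i).trans
      ((L : logSpace K →L[ℝ] (Fin (rank K) → ℝ)).le_opNorm (h - h'))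
  calc ∑ i, |(dscLogBasis K).repr h i - (dscLogBasis K).repr h' i|
      ≤ ∑ _i : Fin (rank K), ‖(L : logSpace K →L[ℝ] (Fin (rank K) → ℝ))‖ * ‖h - h'‖ :=
        Finset.sum_le_sum fun i _ => hle i
    _ = _ := by rw [Finset.sum_const, Finset.card_univ, nsmul_eq_mul]; ring

lemma dscW0_support : ∃ A : ℝ, 0 ≤ A ∧ ∀ h : logSpace K, dscW0 K h ≠ 0 → ‖h‖ ≤ A := by
  refine ⟨∑ i, ‖dscLogBasis K i‖, Finset.sum_nonneg fun _ _ => norm_nonneg _, fun h hne => ?_⟩
  have hlt := abs_lt_one_of_dscHatProd_ne_zero hne
  conv_lhs => rw [← (dscLogBasis K).sum_repr h]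
  refine (norm_sum_le _ _).trans (Finset.sum_le_sum fun i _ => ?_)
  rw [_root_.norm_smul, Real.norm_eq_abs]
  exact mul_le_of_le_one_left (norm_nonneg _) (hlt i).le

/-- the weight on the mixed space -/
noncomputable def dscW (x : mixedSpace K) : ℝ :=
  if mixedEmbedding.norm x = 0 then 0 else dscW0 K (logMap x)

lemma dscW_nonneg (x : mixedSpace K) : 0 ≤ dscW K x := by
  unfold dscW
  split_ifs
  · exact le_rfl
  · exact dscW0_nonneg K _

lemma dscW_le_one (x : mixedSpace K) : dscW K x ≤ 1 := by
  unfold dscW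
  split_ifs
  · exact zero_le_one
  · exact dscW0_le_one K _

lemma dscW_of_norm_eq_zero {x : mixedSpace K} (h : mixedEmbedding.norm x = 0) : dscW K x = 0 :=
  if_pos h

lemma dscW_of_norm_ne_zero {x : mixedSpace K} (h : mixedEmbedding.norm x ≠ 0) :
    dscW K x = dscW0 K (logMap x) := if_neg h

lemma dscW_real_smul (x : mixedSpace K) {c : ℝ} (hc : c ≠ 0) : dscW K (c • x) = dscW K x := by
  by_cases hx : mixedEmbedding.norm x = 0
  · rw [dscW_of_norm_eq_zero K hx, dscW_of_norm_eq_zero K]
    rw [mixedEmbedding.norm_smul, hx, mul_zero]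
  · have hcx : mixedEmbedding.norm (c • x) ≠ 0 := by
      rw [mixedEmbedding.norm_smul]
      exact mul_ne_zero (pow_ne_zero _ (abs_ne_zero.mpr hc)) hx
    rw [dscW_of_norm_ne_zero K hx, dscW_of_norm_ne_zero K hcx, logMap_real_smul hx hc]

/-- **partition of unity**: the translates of `dscW` under the units sum to the number of roots of
unity -/
theorem dscW_hasSum_units {x : mixedSpace K} (hx : mixedEmbedding.norm x ≠ 0) :
    HasSum (fun u : (𝓞 K)ˣ => dscW K (u • x)) (torsionOrder K : ℝ) := by
  have h1 : HasSum (fun q : (𝓞 K)ˣ ⧸ torsion K =>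
      dscW0 K (logMap x + ((logEmbeddingEquiv K (Additive.ofMul q) : unitLattice K) :
        logSpace K))) 1 := by
    have h := dscW0_hasSum K (logMap x)
    let e : ((𝓞 K)ˣ ⧸ torsion K) ≃ unitLattice K :=
      Additive.ofMul.trans (logEmbeddingEquiv K).toEquiv
    rw [← e.hasSum_iff] at h
    exact h.congr_fun fun q => rfl
  have h2 := dsc_hasSum_comp_mk (torsion K) _ (fun q => dscW0_nonneg K _) h1
  rw [mul_one] at h2
  refine h2.congr_fun fun u => ?_
  have hux : mixedEmbedding.norm (u • x) ≠ 0 := by rwa [norm_unit_smul]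
  rw [dscW_of_norm_ne_zero K hux, logMap_unit_smul u hx, logEmbeddingEquiv_apply, add_comm]

end Fermat.Agent.DS
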