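/-
DS-C (Chebotarev), file 3: the function `dscG K s x = dscW K x * (norm x) ^ (-s)` on the mixed space
is homogeneous of degree `-(d s)` and Lipschitz away from the origin, uniformly in `s ∈ [1, 2]`:
`|dscG s x - dscG s y| ≤ C * ‖x - y‖ * r ^ (-(d s) - 1)` whenever `r ≤ ‖x‖, ‖y‖`.
-/
import Fermat.Agent.Lib.DS.Cheb.Weight

set_option autoImplicit false
set_option linter.unusedSectionVars false

open NumberField NumberField.mixedEmbedding NumberField.Units
  NumberField.Units.dirichletUnitTheorem NumberField.InfinitePlace Module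

namespace Fermat.Agent.DS

section Abstract

/-- if the "logarithmic direction" of a positive vector is bounded and one coordinate is `≥ 1`,
all coordinates are bounded below -/
lemma dsc_coord_lower_bound {ι : Type*} [Fintype ι] [DecidableEq ι] (μ : ι → ℝ)
    (hμ : ∀ i, 1 ≤ μ i) (i₀ : ι) (t : ι → ℝ) {A : ℝ} (hA0 : 0 ≤ A)
    (hA : ∀ i, i ≠ i₀ → |μ i * (t i - (∑ j, μ j * t j) * (∑ j, μ j)⁻¹)| ≤ A)
    (i₁ : ι) (h1 : 0 ≤ t i₁) (i : ι) : -(2 * (∑ j, μ j) * A) ≤ t i := by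
  set d : ℝ := ∑ j, μ j with hd
  set T : ℝ := ∑ j, μ j * t j with hT
  have hcard : (Fintype.card ι : ℝ) ≤ d := by
    rw [hd, ← Finset.card_univ, ← nsmul_one (Finset.univ : Finset ι).card, ← Finset.sum_const,
      ]
    exact Finset.sum_le_sum fun j _ => hμ j
  have hd1 : 1 ≤ d := by
    refine le_trans ?_ hcard
    have : 0 < Fintype.card ι := Fintype.card_pos_iff.mpr ⟨i⟩
    exact_mod_cast this
  have hd0 : 0 < d := by linarith
  set y : ι → ℝ := fun j => t j - T * d⁻¹ with hy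
  have hsum0 : ∑ j, μ j * y j = 0 := by
    simp only [hy, mul_sub, Finset.sum_sub_distrib]
    rw [← Finset.sum_mul, ← hd, ← hT]
    field_simp
    ring
  have hyA : ∀ j, j ≠ i₀ → |y j| ≤ A := by
    intro j hj
    have h := hA j hj
    rw [abs_mul, abs_of_nonneg (by linarith [hμ j])] at h
    have : |y j| ≤ μ j * |y j| := le_mul_of_one_le_left (abs_nonneg _) (hμ j)
    exact this.trans h
  have hy0 : |y i₀| ≤ d * A := by
    have h1 : μ i₀ * y i₀ = -∑ j ∈ Finset.univ.erase i₀, μ j * y j := by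
      have := Finset.add_sum_erase Finset.univ (fun j => μ j * y j) (Finset.mem_univ i₀)
      rw [hsum0] at this
      linarith
    have h2 : |μ i₀ * y i₀| ≤ ((Finset.univ.erase i₀).card : ℝ) * A := by
      rw [h1, abs_neg]
      refine (Finset.abs_sum_le_sum_abs _ _).trans ?_
      rw [← nsmul_eq_mul, ← Finset.sum_const]
      refine Finset.sum_le_sum fun j hj => ?_
      exact hA j (Finset.ne_of_mem_erase hj)
    have h3 : ((Finset.univ.erase i₀).card : ℝ) ≤ d := by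
      refine le_trans ?_ hcard
      exact_mod_cast Finset.card_le_univ _
    rw [abs_mul, abs_of_nonneg (by linarith [hμ i₀])] at h2
    have : |y i₀| ≤ μ i₀ * |y i₀| := le_mul_of_one_le_left (abs_nonneg _) (hμ i₀)
    exact this.trans (h2.trans (mul_le_mul_of_nonneg_right h3 hA0))
  have hall : ∀ j, |y j| ≤ d * A := by
    intro j
    by_cases hj : j = i₀
    · rw [hj]; exact hy0
    · exact (hyA j hj).trans (le_mul_of_one_le_left hA0 hd1)
  have hTd : -(d * A) ≤ T * d⁻¹ := by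
    have h2 := (abs_le.mp (hall i₁)).2
    simp only [hy] at h2
    linarith
  have h3 := (abs_le.mp (hall i)).1
  simp only [hy] at h3
  linarith

lemma dsc_abs_log_max_sub_le {c : ℝ} (hc : 0 < c) (a b : ℝ) :
    |Real.log (max a c) - Real.log (max b c)| ≤ |a - b| / c := by
  wlog hab : max b c ≤ max a c generalizing a b
  · rw [abs_sub_comm, abs_sub_comm a b]
    exact this b a (le_of_not_ge hab)
  have hb : 0 < max b c := lt_of_lt_of_le hc (le_max_right _ _)
  have ha : 0 < max a c := lt_of_lt_of_le hb hab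
  have hcb : c ≤ max b c := le_max_right _ _
  rw [abs_of_nonneg (sub_nonneg.mpr (Real.log_le_log hb hab)), ← Real.log_div ha.ne' hb.ne']
  have h1 : Real.log (max a c / max b c) ≤ max a c / max b c - 1 :=
    Real.log_le_sub_one_of_pos (div_pos ha hb)
  have h2 : max a c / max b c - 1 = (max a c - max b c) / max b c := by
    field_simp
  have h3 : max a c - max b c ≤ |a - b| := by
    have := abs_max_sub_max_le_abs a b c
    exact (le_abs_self _).trans this
  rw [h2] at h1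
  refine h1.trans ?_
  calc (max a c - max b c) / max b c ≤ |a - b| / max b c :=
        div_le_div_of_nonneg_right h3 hb.le
    _ ≤ |a - b| / c := div_le_div_of_nonneg_left (abs_nonneg _) hc hcb

lemma dsc_abs_exp_sub_le {u v B : ℝ} (hu : Real.exp u ≤ B) (hv : Real.exp v ≤ B) :
    |Real.exp u - Real.exp v| ≤ B * |u - v| := by
  wlog huv : v ≤ u generalizing u v
  · rw [abs_sub_comm, abs_sub_comm u v]
    exact this hv hu (le_of_not_ge huv)
  rw [abs_of_nonneg (sub_nonneg.mpr (Real.exp_le_exp.mpr huv)), abs_of_nonneg (sub_nonneg.mpr huv)]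
  have h1 : Real.exp u - Real.exp v = Real.exp u * (1 - Real.exp (v - u)) := by
    rw [mul_sub, mul_one, ← Real.exp_add]
    congr 2
    ring
  have h2 : 1 - Real.exp (v - u) ≤ u - v := by
    have := Real.add_one_le_exp (v - u)
    linarith
  rw [h1]
  have h3 : 0 ≤ 1 - Real.exp (v - u) := by
    have : Real.exp (v - u) ≤ 1 := Real.exp_le_one_iff.mpr (by linarith)
    linarith
  calc Real.exp u * (1 - Real.exp (v - u)) ≤ B * (1 - Real.exp (v - u)) :=
        mul_le_mul_of_nonneg_right hu h3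
    _ ≤ B * (u - v) := mul_le_mul_of_nonneg_left h2 ((Real.exp_pos u).le.trans hu)

end Abstract

variable (K : Type*) [Field K] [NumberField K]

open scoped Classical

/-- `g_s = w · N ^ (-s)` -/
noncomputable def dscG (s : ℝ) (x : mixedSpace K) : ℝ :=
  dscW K x * (mixedEmbedding.norm x) ^ (-s)

lemma dscG_nonneg (s : ℝ) (x : mixedSpace K) : 0 ≤ dscG K s x :=
  mul_nonneg (dscW_nonneg K x) (Real.rpow_nonneg (mixedEmbedding.norm_nonneg x) _)

lemma dscG_of_norm_eq_zero (s : ℝ) {x : mixedSpace K} (h : mixedEmbedding.norm x = 0) :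
    dscG K s x = 0 := by
  rw [dscG, dscW_of_norm_eq_zero K h, zero_mul]

/-- homogeneity -/
lemma dscG_smul (s : ℝ) (x : mixedSpace K) {t : ℝ} (ht : 0 < t) :
    dscG K s (t • x) = t ^ (-((finrank ℚ K : ℝ) * s)) * dscG K s x := by
  rw [dscG, dscG, dscW_real_smul K x ht.ne', mixedEmbedding.norm_smul, abs_of_pos ht,
    Real.mul_rpow (pow_nonneg ht.le _) (mixedEmbedding.norm_nonneg x), ← Real.rpow_natCast,
    ← Real.rpow_mul ht.le]
  rw [show (finrank ℚ K : ℝ) * -s = -((finrank ℚ K : ℝ) * s) by ring]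
  ring

/-- the linear map underlying `logMap` -/
noncomputable def dscLam (t : InfinitePlace K → ℝ) : logSpace K := fun w =>
  (mult w.1 : ℝ) * (t w.1 - (∑ v, (mult v : ℝ) * t v) * (finrank ℚ K : ℝ)⁻¹)

lemma dsc_log_norm {x : mixedSpace K} (hx : mixedEmbedding.norm x ≠ 0) :
    Real.log (mixedEmbedding.norm x) = ∑ v, (mult v : ℝ) * Real.log (normAtPlace v x) := by
  rw [mixedEmbedding.norm_apply, Real.log_prod]
  · exact Finset.sum_congr rfl fun v _ => Real.log_pow _ _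
  · intro v _
    exact pow_ne_zero _ (mixedEmbedding.norm_ne_zero_iff.mp hx v)

lemma dsc_logMap_eq {x : mixedSpace K} (hx : mixedEmbedding.norm x ≠ 0) :
    logMap x = dscLam K fun v => Real.log (normAtPlace v x) := by
  funext w
  rw [logMap_apply, dscLam, dsc_log_norm K hx]

lemma dsc_sum_mult : ∑ v : InfinitePlace K, (mult v : ℝ) = (finrank ℚ K : ℝ) := by
  rw [← Nat.cast_sum, sum_mult_eq]

lemma dsc_one_le_mult (v : InfinitePlace K) : (1 : ℝ) ≤ (mult v : ℝ) := by
  have : 1 ≤ mult v := by unfold mult; split_ifs <;> norm_num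
  exact_mod_cast this

lemma dsc_mult_le_two (v : InfinitePlace K) : (mult v : ℝ) ≤ 2 := by
  have : mult v ≤ 2 := by unfold mult; split_ifs <;> norm_num
  exact_mod_cast this

lemma dsc_finrank_pos : (0 : ℝ) < (finrank ℚ K : ℝ) := by
  exact_mod_cast (finrank_pos : 0 < finrank ℚ K)

lemma dscLam_sub_le (t t' : InfinitePlace K → ℝ) {δ : ℝ} (hδ : ∀ v, |t v - t' v| ≤ δ) :
    ‖dscLam K t - dscLam K t'‖ ≤ 4 * δ := by
  have hδ0 : 0 ≤ δ := (abs_nonneg _).trans (hδ (Classical.arbitrary _))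
  have hd := dsc_finrank_pos K
  rw [pi_norm_le_iff_of_nonneg (by linarith)]
  intro w
  rw [Pi.sub_apply, dscLam, dscLam, Real.norm_eq_abs, ← mul_sub, abs_mul,
    abs_of_nonneg (by linarith [dsc_one_le_mult K w.1])]
  have h1 : |∑ v, (mult v : ℝ) * t v - ∑ v, (mult v : ℝ) * t' v| ≤ (finrank ℚ K : ℝ) * δ := by
    rw [← Finset.sum_sub_distrib, ← dsc_sum_mult, Finset.sum_mul]
    refine (Finset.abs_sum_le_sum_abs _ _).trans (Finset.sum_le_sum fun v _ => ?_)
    rw [← mul_sub, abs_mul, abs_of_nonneg (by linarith [dsc_one_le_mult K v])]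
    exact mul_le_mul_of_nonneg_left (hδ v) (by linarith [dsc_one_le_mult K v])
  have h2 : |(t w.1 - (∑ v, (mult v : ℝ) * t v) * (finrank ℚ K : ℝ)⁻¹) -
      (t' w.1 - (∑ v, (mult v : ℝ) * t' v) * (finrank ℚ K : ℝ)⁻¹)| ≤ 2 * δ := by
    have e : (t w.1 - (∑ v, (mult v : ℝ) * t v) * (finrank ℚ K : ℝ)⁻¹) -
        (t' w.1 - (∑ v, (mult v : ℝ) * t' v) * (finrank ℚ K : ℝ)⁻¹) =
        (t w.1 - t' w.1) - (∑ v, (mult v : ℝ) * t v - ∑ v, (mult v : ℝ) * t' v) *
          (finrank ℚ K : ℝ)⁻¹ := by ring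
    rw [e]
    refine (abs_sub _ _).trans ?_
    rw [abs_mul, abs_of_pos (inv_pos.mpr hd)]
    have h3 : |∑ v, (mult v : ℝ) * t v - ∑ v, (mult v : ℝ) * t' v| * (finrank ℚ K : ℝ)⁻¹ ≤ δ := by
      rw [← div_eq_mul_inv, div_le_iff₀ hd]
      linarith
    linarith [hδ w.1]
  calc (mult w.1 : ℝ) * _ ≤ 2 * (2 * δ) :=
        mul_le_mul (dsc_mult_le_two K w.1) h2 (abs_nonneg _) (by norm_num)
    _ = 4 * δ := by ring

lemma dsc_normAtPlace_le_norm (v : InfinitePlace K) (x : mixedSpace K) :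
    normAtPlace v x ≤ ‖x‖ := by
  rw [norm_eq_sup'_normAtPlace]
  exact Finset.le_sup' (fun w => normAtPlace w x) (Finset.mem_univ v)

lemma dsc_exists_normAtPlace_eq_norm (x : mixedSpace K) : ∃ v, normAtPlace v x = ‖x‖ := by
  rw [norm_eq_sup'_normAtPlace]
  obtain ⟨v, -, hv⟩ := Finset.exists_mem_eq_sup' Finset.univ_nonempty
    (fun w => normAtPlace w x)
  exact ⟨v, hv.symm⟩

lemma dsc_abs_normAtPlace_sub_le (v : InfinitePlace K) (x y : mixedSpace K) :
    |normAtPlace v x - normAtPlace v y| ≤ ‖x - y‖ := by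
  have h1 : normAtPlace v x ≤ normAtPlace v (x - y) + normAtPlace v y := by
    have := normAtPlace_add_le v (x - y) y
    rwa [sub_add_cancel] at this
  have h2 : normAtPlace v y ≤ normAtPlace v (x - y) + normAtPlace v x := by
    have := normAtPlace_add_le v (y - x) x
    rwa [sub_add_cancel, ← neg_sub x y, normAtPlace_neg] at this
  have h3 := dsc_normAtPlace_le_norm K v (x - y)
  rw [abs_le]
  constructor <;> linarith

/-- truncated logarithmic coordinates -/
noncomputable def dscTlog (c : ℝ) (x : mixedSpace K) (v : InfinitePlace K) : ℝ :=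
  Real.log (max (normAtPlace v x) c)

/-- truncated logarithm of the norm -/
noncomputable def dscTN (c : ℝ) (x : mixedSpace K) : ℝ :=
  ∑ v, (mult v : ℝ) * dscTlog K c x v

/-- the truncated version of `dscG` -/
noncomputable def dscGt (c s : ℝ) (x : mixedSpace K) : ℝ :=
  dscW0 K (dscLam K (dscTlog K c x)) * Real.exp (-s * dscTN K c x)

lemma dscTlog_sub_le {c : ℝ} (hc : 0 < c) (x y : mixedSpace K) (v : InfinitePlace K) :
    |dscTlog K c x v - dscTlog K c y v| ≤ ‖x - y‖ / c :=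
  (dsc_abs_log_max_sub_le hc _ _).trans
    (div_le_div_of_nonneg_right (dsc_abs_normAtPlace_sub_le K v x y) hc.le)

lemma dscTN_sub_le {c : ℝ} (hc : 0 < c) (x y : mixedSpace K) :
    |dscTN K c x - dscTN K c y| ≤ (finrank ℚ K : ℝ) * (‖x - y‖ / c) := by
  rw [dscTN, dscTN, ← Finset.sum_sub_distrib, ← dsc_sum_mult, Finset.sum_mul]
  refine (Finset.abs_sum_le_sum_abs _ _).trans (Finset.sum_le_sum fun v _ => ?_)
  rw [← mul_sub, abs_mul, abs_of_nonneg (by linarith [dsc_one_le_mult K v])]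
  exact mul_le_mul_of_nonneg_left (dscTlog_sub_le K hc x y v) (by linarith [dsc_one_le_mult K v])

lemma dscTN_ge {c : ℝ} (hc : 0 < c) (x : mixedSpace K) :
    (finrank ℚ K : ℝ) * Real.log c ≤ dscTN K c x := by
  rw [dscTN, ← dsc_sum_mult, Finset.sum_mul]
  refine Finset.sum_le_sum fun v _ => ?_
  refine mul_le_mul_of_nonneg_left ?_ (by linarith [dsc_one_le_mult K v])
  exact Real.log_le_log hc (le_max_right _ _)

lemma dsc_exp_le {c : ℝ} (hc : 0 < c) (hc1 : c ≤ 1) {s : ℝ} (hs0 : 0 ≤ s) (hs : s ≤ 2)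
    (x : mixedSpace K) :
    Real.exp (-s * dscTN K c x) ≤ Real.exp (-2 * ((finrank ℚ K : ℝ) * Real.log c)) := by
  rw [Real.exp_le_exp]
  have h1 := dscTN_ge K hc x
  have h2 : (finrank ℚ K : ℝ) * Real.log c ≤ 0 :=
    mul_nonpos_of_nonneg_of_nonpos (dsc_finrank_pos K).le (Real.log_nonpos hc.le hc1)
  nlinarith

lemma dscGt_sub_le {c : ℝ} (hc : 0 < c) (hc1 : c ≤ 1) :
    ∃ C : ℝ, 0 ≤ C ∧ ∀ s : ℝ, 0 ≤ s → s ≤ 2 → ∀ x y : mixedSpace K,
      |dscGt K c s x - dscGt K c s y| ≤ C * ‖x - y‖ := by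
  obtain ⟨Cw, hCw0, hCw⟩ := dscW0_lipschitz K
  set B : ℝ := Real.exp (-2 * ((finrank ℚ K : ℝ) * Real.log c)) with hB
  have hB0 : 0 < B := Real.exp_pos _
  have hd := dsc_finrank_pos K
  refine ⟨Cw * (4 / c) * B + B * (2 * ((finrank ℚ K : ℝ) / c)), by positivity,
    fun s hs0 hs x y => ?_⟩
  have hEx := dsc_exp_le K hc hc1 hs0 hs x
  have hEy := dsc_exp_le K hc hc1 hs0 hs y
  rw [← hB] at hEx hEy
  set wx := dscW0 K (dscLam K (dscTlog K c x)) with hwx
  set wy := dscW0 K (dscLam K (dscTlog K c y)) with hwy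
  set ex := Real.exp (-s * dscTN K c x) with hex
  set ey := Real.exp (-s * dscTN K c y) with hey
  have hw : |wx - wy| ≤ Cw * (4 * (‖x - y‖ / c)) := by
    refine (hCw _ _).trans (mul_le_mul_of_nonneg_left ?_ hCw0)
    exact dscLam_sub_le K _ _ fun v => dscTlog_sub_le K hc x y v
  have he : |ex - ey| ≤ B * (2 * ((finrank ℚ K : ℝ) * (‖x - y‖ / c))) := by
    refine (dsc_abs_exp_sub_le hEx hEy).trans (mul_le_mul_of_nonneg_left ?_ hB0.le)
    rw [show -s * dscTN K c x - -s * dscTN K c y = -s * (dscTN K c x - dscTN K c y) by ring,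
      abs_mul, abs_neg, abs_of_nonneg hs0]
    exact mul_le_mul hs (dscTN_sub_le K hc x y) (abs_nonneg _) (by norm_num)
  have hwy1 : |wy| ≤ 1 := by
    rw [abs_of_nonneg (dscW0_nonneg K _)]; exact dscW0_le_one K _
  have hex0 : 0 ≤ ex := (Real.exp_pos _).le
  show |wx * ex - wy * ey| ≤ _
  have e : wx * ex - wy * ey = (wx - wy) * ex + wy * (ex - ey) := by ring
  rw [e]
  refine (abs_add_le _ _).trans ?_
  rw [abs_mul, abs_mul, abs_of_nonneg hex0]
  have h1 : |wx - wy| * ex ≤ Cw * (4 * (‖x - y‖ / c)) * B :=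
    mul_le_mul hw hEx hex0 (by positivity)
  have h2 : |wy| * |ex - ey| ≤ 1 * (B * (2 * ((finrank ℚ K : ℝ) * (‖x - y‖ / c)))) :=
    mul_le_mul hwy1 he (abs_nonneg _) zero_le_one
  have e2 : (Cw * (4 / c) * B + B * (2 * ((finrank ℚ K : ℝ) / c))) * ‖x - y‖ =
      Cw * (4 * (‖x - y‖ / c)) * B + 1 * (B * (2 * ((finrank ℚ K : ℝ) * (‖x - y‖ / c)))) := by
    ring
  rw [e2]
  exact add_le_add h1 h2

lemma dscGt_eq_dscG {c : ℝ} (hc : 0 < c) (s : ℝ) {x : mixedSpace K}
    (h : ∀ v, c ≤ normAtPlace v x) : dscGt K c s x = dscG K s x := by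
  have hne : mixedEmbedding.norm x ≠ 0 :=
    mixedEmbedding.norm_ne_zero_iff.mpr fun v => (lt_of_lt_of_le hc (h v)).ne'
  have hT : dscTlog K c x = fun v => Real.log (normAtPlace v x) := by
    funext v
    rw [dscTlog, max_eq_left (h v)]
  have hpos : 0 < mixedEmbedding.norm x := lt_of_le_of_ne (mixedEmbedding.norm_nonneg x) hne.symm
  rw [dscGt, dscG, dscW_of_norm_ne_zero K hne, dsc_logMap_eq K hne, hT, dscTN, hT,
    ← dsc_log_norm K hne, Real.rpow_def_of_pos hpos]
  congr 2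
  ring

/-- on the support of the weights, all coordinates are comparable to the norm -/
lemma dsc_support_aux {A : ℝ} (hA0 : 0 ≤ A) (r : InfinitePlace K → ℝ) (hr : ∀ v, 0 < r v)
    (hlam : ‖dscLam K fun v => Real.log (r v)‖ ≤ A) (v₁ : InfinitePlace K) (h1 : 1 ≤ r v₁)
    (v : InfinitePlace K) : Real.exp (-(2 * (finrank ℚ K : ℝ) * A)) ≤ r v := by
  have h := dsc_coord_lower_bound (fun v : InfinitePlace K => (mult v : ℝ)) (dsc_one_le_mult K)
    (w₀ : InfinitePlace K) (fun v => Real.log (r v)) hA0 ?_ v₁ (Real.log_nonneg h1) v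
  · rw [dsc_sum_mult] at h
    rw [← Real.log_le_log_iff (Real.exp_pos _) (hr v), Real.log_exp]
    exact h
  · intro i hi
    have := (pi_norm_le_iff_of_nonneg hA0).mp hlam ⟨i, hi⟩
    rw [dsc_sum_mult]
    rw [Real.norm_eq_abs] at this
    exact this

/-- the constant of truncation and the Lipschitz estimate far from the origin -/
theorem dscG_lipschitz_far : ∃ C : ℝ, 0 ≤ C ∧ ∀ s : ℝ, 0 ≤ s → s ≤ 2 → ∀ x y : mixedSpace K,
    1 ≤ ‖x‖ → 1 ≤ ‖y‖ → |dscG K s x - dscG K s y| ≤ C * ‖x - y‖ ∧ |dscG K s x| ≤ C := by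
  obtain ⟨A, hA0, hA⟩ := dscW0_support K
  set c₀ : ℝ := Real.exp (-(2 * (finrank ℚ K : ℝ) * A)) with hc₀
  have hc₀0 : 0 < c₀ := Real.exp_pos _
  have hc₀1 : c₀ ≤ 1 := by
    rw [hc₀, Real.exp_le_one_iff]
    have := dsc_finrank_pos K
    have : 0 ≤ 2 * (finrank ℚ K : ℝ) * A := by positivity
    linarith
  set c : ℝ := c₀ / 2 with hcdef
  have hc : 0 < c := by positivity
  have hcc₀ : c < c₀ := by rw [hcdef]; linarith
  have hc1 : c ≤ 1 := by linarith
  obtain ⟨C, hC0, hC⟩ := dscGt_sub_le K hc hc1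
  -- agreement of the truncated function with `dscG` far from the origin
  have hagree : ∀ s : ℝ, ∀ x : mixedSpace K, 1 ≤ ‖x‖ → dscGt K c s x = dscG K s x := by
    intro s x hx
    by_cases hall : ∀ v, c ≤ normAtPlace v x
    · exact dscGt_eq_dscG K hc s hall
    push Not at hall
    obtain ⟨u, hu⟩ := hall
    obtain ⟨v₁, hv₁⟩ := dsc_exists_normAtPlace_eq_norm K x
    have hG0 : dscG K s x = 0 := by
      by_cases hn : mixedEmbedding.norm x = 0
      · exact dscG_of_norm_eq_zero K s hn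
      rw [dscG, dscW_of_norm_ne_zero K hn]
      by_contra hne
      have hw : dscW0 K (logMap x) ≠ 0 := left_ne_zero_of_mul hne
      have hlam := hA _ hw
      rw [dsc_logMap_eq K hn] at hlam
      have hpos : ∀ v, 0 < normAtPlace v x := fun v =>
        lt_of_le_of_ne (normAtPlace_nonneg v x) (mixedEmbedding.norm_ne_zero_iff.mp hn v).symm
      have := dsc_support_aux K hA0 (fun v => normAtPlace v x) hpos hlam v₁ (by rw [hv₁]; exact hx) u
      rw [← hc₀] at this
      linarith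
    have hGt0 : dscGt K c s x = 0 := by
      rw [dscGt]
      by_contra hne
      have hw : dscW0 K (dscLam K (dscTlog K c x)) ≠ 0 := left_ne_zero_of_mul hne
      have hlam := hA _ hw
      have hpos : ∀ v, 0 < max (normAtPlace v x) c := fun v => lt_of_lt_of_le hc (le_max_right _ _)
      have := dsc_support_aux K hA0 (fun v => max (normAtPlace v x) c) hpos hlam v₁
        (by rw [hv₁]; exact hx.trans (le_max_left _ _)) u
      rw [← hc₀, max_eq_right hu.le] at this
      linarith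
    rw [hG0, hGt0]
  set B : ℝ := Real.exp (-2 * ((finrank ℚ K : ℝ) * Real.log c)) with hB
  refine ⟨max C B, le_max_of_le_left hC0, fun s hs0 hs x y hx hy => ⟨?_, ?_⟩⟩
  · rw [← hagree s x hx, ← hagree s y hy]
    exact (hC s hs0 hs x y).trans (mul_le_mul_of_nonneg_right (le_max_left _ _) (norm_nonneg _))
  · rw [← hagree s x hx, dscGt, abs_mul, abs_of_nonneg (dscW0_nonneg K _),
      abs_of_pos (Real.exp_pos _)]
    refine le_trans ?_ (le_max_right _ _)
    calc dscW0 K (dscLam K (dscTlog K c x)) * Real.exp (-s * dscTN K c x)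
        ≤ 1 * B := mul_le_mul (dscW0_le_one K _) (dsc_exp_le K hc hc1 hs0 hs x)
          (Real.exp_pos _).le zero_le_one
      _ = B := one_mul B

/-- **the key estimate**: Lipschitz bound with the homogeneous decay -/
theorem dscG_sub_le : ∃ C : ℝ, 0 ≤ C ∧ ∀ s : ℝ, 0 ≤ s → s ≤ 2 → ∀ (x y : mixedSpace K) (r : ℝ),
    0 < r → r ≤ ‖x‖ → r ≤ ‖y‖ →
    |dscG K s x - dscG K s y| ≤ C * ‖x - y‖ * r ^ (-((finrank ℚ K : ℝ) * s) - 1) ∧
    |dscG K s x| ≤ C * r ^ (-((finrank ℚ K : ℝ) * s)) := by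
  obtain ⟨C, hC0, hC⟩ := dscG_lipschitz_far K
  refine ⟨C, hC0, fun s hs0 hs x y r hr hx hy => ?_⟩
  have hrinv : 0 < r⁻¹ := inv_pos.mpr hr
  have hx' : 1 ≤ ‖r⁻¹ • x‖ := by
    rw [_root_.norm_smul, Real.norm_eq_abs, abs_of_pos hrinv, inv_mul_eq_div, le_div_iff₀ hr]
    linarith
  have hy' : 1 ≤ ‖r⁻¹ • y‖ := by
    rw [_root_.norm_smul, Real.norm_eq_abs, abs_of_pos hrinv, inv_mul_eq_div, le_div_iff₀ hr]
    linarith
  have hxe : x = r • (r⁻¹ • x) := by rw [smul_smul, mul_inv_cancel₀ hr.ne', one_smul]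
  have hye : y = r • (r⁻¹ • y) := by rw [smul_smul, mul_inv_cancel₀ hr.ne', one_smul]
  obtain ⟨h1, h2⟩ := hC s hs0 hs _ _ hx' hy'
  have hrp : 0 ≤ r ^ (-((finrank ℚ K : ℝ) * s)) := Real.rpow_nonneg hr.le _
  constructor
  · conv_lhs => rw [hxe, hye, dscG_smul K s _ hr, dscG_smul K s _ hr, ← mul_sub, abs_mul,
      abs_of_nonneg hrp]
    have h3 : ‖r⁻¹ • x - r⁻¹ • y‖ = r⁻¹ * ‖x - y‖ := by
      rw [← smul_sub, _root_.norm_smul, Real.norm_eq_abs, abs_of_pos hrinv]
    rw [h3] at h1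
    have h4 : r ^ (-((finrank ℚ K : ℝ) * s) - 1) = r ^ (-((finrank ℚ K : ℝ) * s)) * r⁻¹ := by
      rw [Real.rpow_sub hr, Real.rpow_one, div_eq_mul_inv]
    rw [h4]
    calc r ^ (-((finrank ℚ K : ℝ) * s)) * |dscG K s (r⁻¹ • x) - dscG K s (r⁻¹ • y)|
        ≤ r ^ (-((finrank ℚ K : ℝ) * s)) * (C * (r⁻¹ * ‖x - y‖)) :=
          mul_le_mul_of_nonneg_left h1 hrp
      _ = _ := by ring
  · conv_lhs => rw [hxe, dscG_smul K s _ hr, abs_mul, abs_of_nonneg hrp]
    rw [mul_comm C]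
    exact mul_le_mul_of_nonneg_left h2 hrp

end Fermat.Agent.DS
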