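/-
DS-C (Chebotarev), file 5: sums of `dscG K s` over residue classes of the ring of integers.

`dscZ K I v s = ∑_{α ≡ v (I)} g_s(α)`.  Main results:
* `dscZ_sub_cont` : `dscZ K I v' - dscZ K I v` extends continuously to `[1, 2]`;
* `dscZ_lattice` : `N(I) · dscZ K I v - dscZ K ⊤ 0` extends continuously to `[1, 2]`.
-/
import Fermat.Agent.Lib.DS.Cheb.Lipschitz
import Fermat.Agent.Lib.DS.Cheb.Cont

set_option autoImplicit false
set_option linter.unusedSectionVars false

open NumberField NumberField.mixedEmbedding NumberField.Units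
  NumberField.Units.dirichletUnitTheorem NumberField.InfinitePlace Module

namespace Fermat.Agent.DS

variable (K : Type*) [Field K] [NumberField K]

open scoped Classical

/-- the embedding of the ring of integers in the mixed space -/
noncomputable def dscEmb (α : 𝓞 K) : mixedSpace K := mixedEmbedding K (α : K)

lemma dscEmb_add (α β : 𝓞 K) : dscEmb K (α + β) = dscEmb K α + dscEmb K β := by
  simp [dscEmb]

lemma dscEmb_zero : dscEmb K 0 = 0 := by simp [dscEmb]

lemma dscEmb_injective : Function.Injective (dscEmb K) := fun _ _ h =>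
  RingOfIntegers.coe_injective (mixedEmbedding_injective K h)

lemma dscEmb_norm (α : 𝓞 K) :
    mixedEmbedding.norm (dscEmb K α) = |((Algebra.norm ℤ α : ℤ) : ℝ)| := by
  rw [dscEmb, norm_eq_norm, ← Algebra.coe_norm_int, Rat.cast_abs, Rat.cast_intCast]

lemma dscEmb_one_le_norm {α : 𝓞 K} (h : α ≠ 0) : 1 ≤ mixedEmbedding.norm (dscEmb K α) := by
  rw [dscEmb_norm, ← Int.cast_abs]
  exact_mod_cast Int.one_le_abs (Algebra.norm_ne_zero_iff.mpr h)

lemma dscEmb_norm_ne_zero {α : 𝓞 K} (h : α ≠ 0) : mixedEmbedding.norm (dscEmb K α) ≠ 0 := by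
  have := dscEmb_one_le_norm K h
  intro h0
  rw [h0] at this
  linarith

lemma dscEmb_ne_zero {α : 𝓞 K} (h : α ≠ 0) : dscEmb K α ≠ 0 := by
  intro h0
  exact h (dscEmb_injective K (h0.trans (dscEmb_zero K).symm))

lemma dscG_emb_zero (s : ℝ) : dscG K s (dscEmb K 0) = 0 := by
  rw [dscEmb_zero]
  exact dscG_of_norm_eq_zero K s (map_zero _)

lemma dscG_emb_le_one {s : ℝ} (hs : 0 ≤ s) (α : 𝓞 K) : dscG K s (dscEmb K α) ≤ 1 := by
  by_cases h : α = 0
  · rw [h, dscG_emb_zero]; exact zero_le_one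
  rw [dscG]
  have h1 := dscEmb_one_le_norm K h
  have h2 : mixedEmbedding.norm (dscEmb K α) ^ (-s) ≤ 1 :=
    Real.rpow_le_one_of_one_le_of_nonpos h1 (by linarith)
  calc dscW K (dscEmb K α) * mixedEmbedding.norm (dscEmb K α) ^ (-s) ≤ 1 * 1 :=
      mul_le_mul (dscW_le_one K _) h2 (Real.rpow_nonneg (mixedEmbedding.norm_nonneg _) _)
        zero_le_one
    _ = 1 := one_mul 1

lemma dscG_emb_abs_le_one {s : ℝ} (hs : 0 ≤ s) (α : 𝓞 K) : |dscG K s (dscEmb K α)| ≤ 1 := by
  rw [abs_of_nonneg (dscG_nonneg K s _)]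
  exact dscG_emb_le_one K hs α

/-- the ring of integers as the integer lattice -/
noncomputable def dscLatticeEquiv : 𝓞 K ≃ mixedEmbedding.integerLattice K :=
  Equiv.ofBijective (fun α => ⟨dscEmb K α, ⟨α, rfl⟩⟩)
    ⟨fun _ _ h => dscEmb_injective K (congrArg Subtype.val h), fun ⟨_, ⟨α, hα⟩⟩ =>
      ⟨α, Subtype.ext hα⟩⟩

lemma dsc_finrank_integerLattice :
    finrank ℤ (mixedEmbedding.integerLattice K) = finrank ℚ K := by
  rw [ZLattice.rank ℝ, mixedEmbedding.finrank]

lemma dsc_summable_norm_sub_rpow {r : ℝ} (hr : r < -(finrank ℚ K : ℝ)) (x : mixedSpace K) :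
    Summable fun α : 𝓞 K => ‖dscEmb K α - x‖ ^ r := by
  have h := ZLattice.summable_norm_sub_rpow (mixedEmbedding.integerLattice K) r
    (by rw [dsc_finrank_integerLattice]; exact hr) x
  exact (dscLatticeEquiv K).summable_iff.mpr h

lemma dsc_summable_norm_rpow {r : ℝ} (hr : r < -(finrank ℚ K : ℝ)) :
    Summable fun α : 𝓞 K => ‖dscEmb K α‖ ^ r := by
  simpa using dsc_summable_norm_sub_rpow K hr 0

/-- `g_s` is summable over the integers for `s > 1` -/
lemma dscG_summable {s : ℝ} (hs : 1 < s) (hs2 : s ≤ 2) :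
    Summable fun α : 𝓞 K => dscG K s (dscEmb K α) := by
  obtain ⟨C, hC0, hC⟩ := dscG_sub_le K
  have hd := dsc_finrank_pos K
  have hr : -((finrank ℚ K : ℝ) * s) < -(finrank ℚ K : ℝ) := by nlinarith
  refine Summable.of_nonneg_of_le (fun α => dscG_nonneg K s _) (fun α => ?_)
    ((dsc_summable_norm_rpow K hr).mul_left C)
  by_cases h : α = 0
  · rw [h, dscG_emb_zero]
    exact mul_nonneg hC0 (Real.rpow_nonneg (norm_nonneg _) _)
  have hpos : 0 < ‖dscEmb K α‖ := norm_pos_iff.mpr (dscEmb_ne_zero K h)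
  have := (hC s (by linarith) hs2 (dscEmb K α) (dscEmb K α) ‖dscEmb K α‖ hpos le_rfl le_rfl).2
  rwa [abs_of_nonneg (dscG_nonneg K s _)] at this

lemma dscG_continuous (x : mixedSpace K) : Continuous fun s : ℝ => dscG K s x := by
  by_cases h : mixedEmbedding.norm x = 0
  · have : (fun s : ℝ => dscG K s x) = fun _ => 0 := funext fun s => dscG_of_norm_eq_zero K s h
    rw [this]
    exact continuous_const
  · unfold dscG
    exact continuous_const.mul
      (continuous_const.rpow continuous_neg fun _ => Or.inl h)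

/-- **translate comparison**, the dominating family -/
lemma dscG_translate_bound (δ : 𝓞 K) : ∃ u : 𝓞 K → ℝ, Summable u ∧ ∀ s : ℝ, 1 ≤ s → s ≤ 2 →
    ∀ α : 𝓞 K, |dscG K s (dscEmb K (α + δ)) - dscG K s (dscEmb K α)| ≤ u α := by
  obtain ⟨C, hC0, hC⟩ := dscG_sub_le K
  set d : ℝ := (finrank ℚ K : ℝ) with hd
  have hd0 : 0 < d := dsc_finrank_pos K
  set R : ℝ := 2 * ‖dscEmb K δ‖ + 2 with hR
  have hR0 : 0 < R := by positivity
  set C' : ℝ := max (C * ‖dscEmb K δ‖ * 2 ^ (d + 1)) (2 * R ^ (d + 1)) with hC'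
  have hC'0 : 0 ≤ C' := le_max_of_le_left (by positivity)
  refine ⟨fun α => C' * ‖dscEmb K α‖ ^ (-d - 1) + if α = 0 then 2 else 0, ?_, ?_⟩
  · refine Summable.add ((dsc_summable_norm_rpow K (by linarith)).mul_left C') ?_
    exact (hasSum_ite_eq (0 : 𝓞 K) (2 : ℝ)).summable
  intro s hs1 hs2 α
  show _ ≤ C' * ‖dscEmb K α‖ ^ (-d - 1) + if α = 0 then 2 else 0
  have hs0 : (0 : ℝ) ≤ s := by linarith
  have h2 : |dscG K s (dscEmb K (α + δ)) - dscG K s (dscEmb K α)| ≤ 2 := by
    refine (abs_sub _ _).trans ?_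
    linarith [dscG_emb_abs_le_one K hs0 (α + δ), dscG_emb_abs_le_one K hs0 α]
  by_cases hα : α = 0
  · rw [if_pos hα]
    have : 0 ≤ C' * ‖dscEmb K α‖ ^ (-d - 1) :=
      mul_nonneg hC'0 (Real.rpow_nonneg (norm_nonneg _) _)
    linarith
  rw [if_neg hα, add_zero]
  have hpos : 0 < ‖dscEmb K α‖ := norm_pos_iff.mpr (dscEmb_ne_zero K hα)
  by_cases hbig : R ≤ ‖dscEmb K α‖
  · -- the far range
    set r : ℝ := ‖dscEmb K α‖ / 2 with hr
    have hr1 : 1 ≤ r := by rw [hr]; linarith [norm_nonneg (dscEmb K δ)]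
    have hr0 : 0 < r := by linarith
    have hxr : r ≤ ‖dscEmb K α‖ := by rw [hr]; linarith
    have hyr : r ≤ ‖dscEmb K (α + δ)‖ := by
      rw [dscEmb_add]
      have := norm_sub_norm_le (dscEmb K α) (-dscEmb K δ)
      rw [sub_neg_eq_add, norm_neg] at this
      rw [hr]
      linarith [norm_nonneg (dscEmb K δ)]
    have h3 := (hC s hs0 hs2 (dscEmb K (α + δ)) (dscEmb K α) r hr0 hyr hxr).1
    have h4 : dscEmb K (α + δ) - dscEmb K α = dscEmb K δ := by rw [dscEmb_add]; abel
    rw [h4] at h3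
    refine h3.trans ?_
    have h5 : r ^ (-(d * s) - 1) ≤ r ^ (-d - 1) :=
      Real.rpow_le_rpow_of_exponent_le hr1 (by nlinarith)
    have h6 : r ^ (-d - 1) = 2 ^ (d + 1) * ‖dscEmb K α‖ ^ (-d - 1) := by
      rw [hr, Real.div_rpow hpos.le (by norm_num), div_eq_mul_inv, mul_comm,
        ← Real.rpow_neg (by norm_num)]
      congr 2
      ring
    calc C * ‖dscEmb K δ‖ * r ^ (-(d * s) - 1) ≤ C * ‖dscEmb K δ‖ * r ^ (-d - 1) :=
          mul_le_mul_of_nonneg_left h5 (by positivity)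
      _ = C * ‖dscEmb K δ‖ * 2 ^ (d + 1) * ‖dscEmb K α‖ ^ (-d - 1) := by rw [h6]; ring
      _ ≤ C' * ‖dscEmb K α‖ ^ (-d - 1) :=
          mul_le_mul_of_nonneg_right (le_max_left _ _) (Real.rpow_nonneg hpos.le _)
  · -- the near range
    rw [not_le] at hbig
    refine h2.trans ?_
    have h7 : R ^ (-d - 1) ≤ ‖dscEmb K α‖ ^ (-d - 1) :=
      Real.rpow_le_rpow_of_nonpos hpos hbig.le (by linarith)
    have h8 : R ^ (d + 1) * R ^ (-d - 1) = 1 := by
      rw [← Real.rpow_add hR0]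
      rw [show d + 1 + (-d - 1) = 0 by ring, Real.rpow_zero]
    calc (2 : ℝ) = 2 * R ^ (d + 1) * R ^ (-d - 1) := by rw [mul_assoc, h8, mul_one]
      _ ≤ C' * R ^ (-d - 1) :=
          mul_le_mul_of_nonneg_right (le_max_right _ _) (Real.rpow_nonneg hR0.le _)
      _ ≤ C' * ‖dscEmb K α‖ ^ (-d - 1) := mul_le_mul_of_nonneg_left h7 hC'0

/-- the partial sum of `g_s` over a residue class -/
noncomputable def dscZ (I : Ideal (𝓞 K)) (v : 𝓞 K) (s : ℝ) : ℝ :=
  ∑' α : 𝓞 K, if α - v ∈ I then dscG K s (dscEmb K α) else 0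

lemma dscZ_summable (I : Ideal (𝓞 K)) (v : 𝓞 K) {s : ℝ} (hs : 1 < s) (hs2 : s ≤ 2) :
    Summable fun α : 𝓞 K => if α - v ∈ I then dscG K s (dscEmb K α) else 0 := by
  refine Summable.of_nonneg_of_le (fun α => ?_) (fun α => ?_) (dscG_summable K hs hs2)
  · split_ifs
    · exact dscG_nonneg K s _
    · exact le_rfl
  · split_ifs
    · exact le_rfl
    · exact dscG_nonneg K s _

/-- **translate comparison** -/
theorem dscZ_sub_cont (I : Ideal (𝓞 K)) (v v' : 𝓞 K) :
    DscCont fun s => dscZ K I v' s - dscZ K I v s := by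
  set δ : 𝓞 K := v' - v with hδ
  obtain ⟨u, hu, hbound⟩ := dscG_translate_bound K δ
  refine ⟨fun s => ∑' α : 𝓞 K,
    if α - v ∈ I then dscG K s (dscEmb K (α + δ)) - dscG K s (dscEmb K α) else 0, ?_, ?_⟩
  · refine continuousOn_tsum (u := u) (fun α => ?_) hu fun α s hs => ?_
    · by_cases h : α - v ∈ I
      · simp only [if_pos h]
        exact ((dscG_continuous K _).sub (dscG_continuous K _)).continuousOn
      · simp only [if_neg h]
        exact continuousOn_const
    · split_ifs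
      · rw [Real.norm_eq_abs]
        exact hbound s hs.1 hs.2 α
      · rw [norm_zero]
        exact (abs_nonneg _).trans (hbound s hs.1 hs.2 α)
  · intro s hs
    have h1 := dscZ_summable K I v hs.1 hs.2
    have h2 := dscZ_summable K I v' hs.1 hs.2
    have h3 : dscZ K I v' s =
        ∑' α : 𝓞 K, if α - v ∈ I then dscG K s (dscEmb K (α + δ)) else 0 := by
      rw [dscZ, ← (Equiv.addRight δ).tsum_eq]
      refine tsum_congr fun α => ?_
      have : (Equiv.addRight δ) α - v' = α - v := by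
        simp only [Equiv.coe_addRight, hδ]; ring
      rw [this]
      rfl
    have h2' : Summable fun α : 𝓞 K =>
        if α - v ∈ I then dscG K s (dscEmb K (α + δ)) else 0 := by
      have := (Equiv.addRight δ).summable_iff.mpr h2
      refine this.congr fun α => ?_
      have e : (Equiv.addRight δ) α - v' = α - v := by
        simp only [Equiv.coe_addRight, hδ]; ring
      simp only [Function.comp_apply, e]
      rfl
    show dscZ K I v' s - dscZ K I v s = _
    rw [h3, dscZ, ← h2'.tsum_sub h1]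
    refine tsum_congr fun α => ?_
    split_ifs <;> simp

/-- **the sublattice comparison**: `N(I) · Z(I, v) = Z(𝓞, 0) +` continuous -/
theorem dscZ_lattice (I : Ideal (𝓞 K)) (hI : I ≠ ⊥) (v : 𝓞 K) :
    DscCont fun s => (Ideal.absNorm I : ℝ) * dscZ K I v s - dscZ K ⊤ 0 s := by
  have : Finite (𝓞 K ⧸ I) := Ideal.finiteQuotientOfFreeOfNeBot I hI
  have : Fintype (𝓞 K ⧸ I) := Fintype.ofFinite _
  have hcard : (Ideal.absNorm I : ℝ) = (Fintype.card (𝓞 K ⧸ I) : ℝ) := by
    rw [Ideal.absNorm_apply, Submodule.cardQuot_apply, Nat.card_eq_fintype_card]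
  let rep : 𝓞 K ⧸ I → 𝓞 K := fun t => Quotient.out t
  have hrep : ∀ t, Ideal.Quotient.mk I (rep t) = t := fun t => Quotient.out_eq t
  have hdecomp : ∀ s : ℝ, 1 < s → s ≤ 2 → dscZ K ⊤ 0 s = ∑ t : 𝓞 K ⧸ I, dscZ K I (rep t) s := by
    intro s hs hs2
    simp only [dscZ]
    rw [← Summable.tsum_finsetSum fun t _ => dscZ_summable K I (rep t) hs hs2]
    refine tsum_congr fun α => ?_
    rw [if_pos (Submodule.mem_top)]
    rw [Finset.sum_eq_single (Ideal.Quotient.mk I α)]
    · rw [if_pos]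
      rw [← Ideal.Quotient.eq, hrep]
    · intro t _ ht
      rw [if_neg]
      rw [← Ideal.Quotient.eq, hrep]
      exact fun h => ht h.symm
    · intro h
      exact absurd (Finset.mem_univ _) h
  have h1 : DscCont fun s => ∑ t : 𝓞 K ⧸ I, (dscZ K I v s - dscZ K I (rep t) s) :=
    DscCont.sum Finset.univ fun t _ => dscZ_sub_cont K I (rep t) v
  refine h1.congr fun s hs => ?_
  rw [hdecomp s hs.1 hs.2, Finset.sum_sub_distrib, Finset.sum_const, Finset.card_univ,
    nsmul_eq_mul, hcard]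

end Fermat.Agent.DS
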