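/-
DS-C (Chebotarev), file 6: sums over nonzero principal ideals as weighted sums over generators:
`∑_{α ≠ 0} w(α) F((α)) = |μ_K| · ∑_{J principal, J ≠ 0} F(J)`.
-/
import Fermat.Agent.Lib.DS.Cheb.LatticeSum

set_option autoImplicit false
set_option linter.unusedSectionVars false

open NumberField NumberField.mixedEmbedding NumberField.Units
  NumberField.Units.dirichletUnitTheorem NumberField.InfinitePlace Module

namespace Fermat.Agent.DS

variable (K : Type*) [Field K] [NumberField K]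

open scoped Classical

/-- the nonzero principal ideals -/
abbrev DscPrin := {J : Ideal (𝓞 K) // J ≠ ⊥ ∧ J.IsPrincipal}

/-- the nonzero integers -/
abbrev DscNz := {α : 𝓞 K // α ≠ 0}

/-- the ideal generated by a nonzero integer -/
def dscSpan (α : DscNz K) : DscPrin K :=
  ⟨Ideal.span {α.1}, by
    rw [Ne, Ideal.span_singleton_eq_bot]; exact α.2, ⟨α.1, rfl⟩⟩

lemma dscSpan_surjective : Function.Surjective (dscSpan K) := by
  rintro ⟨J, hJ0, ⟨a, ha⟩⟩
  have ha' : J = Ideal.span {a} := ha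
  refine ⟨⟨a, ?_⟩, Subtype.ext ha'.symm⟩
  rintro rfl
  apply hJ0
  rw [ha']
  simp

lemma dscEmb_unit_mul (u : (𝓞 K)ˣ) (α : 𝓞 K) :
    dscEmb K ((u : 𝓞 K) * α) = u • dscEmb K α := by
  rw [dscEmb, dscEmb, unitSMul_smul]
  simp

/-- the generators of a principal ideal form a torsor under the units -/
noncomputable def dscFiberEquiv (α₀ : DscNz K) :
    (𝓞 K)ˣ ≃ {α : DscNz K // dscSpan K α = dscSpan K α₀} :=
  Equiv.ofBijective
    (fun u => ⟨⟨(u : 𝓞 K) * α₀.1, mul_ne_zero u.ne_zero α₀.2⟩, by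
      apply Subtype.ext
      show Ideal.span {(u : 𝓞 K) * α₀.1} = Ideal.span {α₀.1}
      rw [Ideal.span_singleton_eq_span_singleton]
      exact ⟨u⁻¹, by rw [mul_comm, ← mul_assoc]; simp⟩⟩)
    ⟨fun u u' h => by
      have h1 : (u : 𝓞 K) * α₀.1 = (u' : 𝓞 K) * α₀.1 :=
        congrArg (fun c : {α : DscNz K // dscSpan K α = dscSpan K α₀} => (c.1.1 : 𝓞 K)) h
      exact Units.ext (mul_right_cancel₀ α₀.2 h1),
     fun ⟨α, hα⟩ => by
      have h1 : Ideal.span {α.1} = Ideal.span {α₀.1} := congrArg Subtype.val hα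
      rw [Ideal.span_singleton_eq_span_singleton] at h1
      obtain ⟨u, hu⟩ := h1.symm
      refine ⟨u, ?_⟩
      apply Subtype.ext
      apply Subtype.ext
      show (u : 𝓞 K) * α₀.1 = α.1
      rw [mul_comm]; exact hu⟩

lemma dsc_hasSum_fiber (J : DscPrin K) :
    HasSum (fun c : {α : DscNz K // dscSpan K α = J} => dscW K (dscEmb K c.1.1))
      (torsionOrder K : ℝ) := by
  obtain ⟨α₀, rfl⟩ := dscSpan_surjective K J
  rw [← (dscFiberEquiv K α₀).hasSum_iff]
  have h := dscW_hasSum_units K (dscEmb_norm_ne_zero K α₀.2)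
  refine h.congr_fun fun u => ?_
  show dscW K (dscEmb K ((u : 𝓞 K) * α₀.1)) = _
  rw [dscEmb_unit_mul]

variable {E : Type*} [NormedAddCommGroup E] [NormedSpace ℝ E] [CompleteSpace E]

/-- **sums over principal ideals as sums over generators** -/
theorem dsc_hasSum_generators (F : DscPrin K → E) (hF : Summable fun J => ‖F J‖) :
    HasSum (fun α : DscNz K => dscW K (dscEmb K α.1) • F (dscSpan K α))
      ((torsionOrder K : ℝ) • ∑' J, F J) := by
  let e := Equiv.sigmaFiberEquiv (dscSpan K)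
  have hfib : ∀ J : DscPrin K, HasSum (fun c : {α : DscNz K // dscSpan K α = J} =>
      dscW K (dscEmb K (e ⟨J, c⟩).1) • F (dscSpan K (e ⟨J, c⟩))) ((torsionOrder K : ℝ) • F J) := by
    intro J
    have h := (dsc_hasSum_fiber K J).smul_const (F J)
    refine h.congr_fun fun c => ?_
    have : dscSpan K (e ⟨J, c⟩) = J := c.2
    rw [this]
    rfl
  have hfibn : ∀ J : DscPrin K, HasSum (fun c : {α : DscNz K // dscSpan K α = J} =>
      ‖dscW K (dscEmb K (e ⟨J, c⟩).1) • F (dscSpan K (e ⟨J, c⟩))‖)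
      ((torsionOrder K : ℝ) * ‖F J‖) := by
    intro J
    have h := (dsc_hasSum_fiber K J).mul_right ‖F J‖
    refine h.congr_fun fun c => ?_
    have : dscSpan K (e ⟨J, c⟩) = J := c.2
    rw [this, _root_.norm_smul, Real.norm_eq_abs, abs_of_nonneg (dscW_nonneg K _)]
    rfl
  have hsumm : Summable fun σ : (Σ J : DscPrin K, {α : DscNz K // dscSpan K α = J}) =>
      dscW K (dscEmb K (e σ).1) • F (dscSpan K (e σ)) := by
    refine Summable.of_norm ?_
    refine (summable_sigma_of_nonneg (fun _ => norm_nonneg _)).mpr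
      ⟨fun J => (hfibn J).summable, ?_⟩
    have : (fun J : DscPrin K => ∑' c : {α : DscNz K // dscSpan K α = J},
        ‖dscW K (dscEmb K (e ⟨J, c⟩).1) • F (dscSpan K (e ⟨J, c⟩))‖) =
        fun J => (torsionOrder K : ℝ) * ‖F J‖ := funext fun J => (hfibn J).tsum_eq
    rw [this]
    exact hF.mul_left _
  rw [← e.hasSum_iff]
  exact HasSum.sigma_of_hasSum ((hF.of_norm.hasSum).const_smul _) hfib hsumm

/-- the same for the generators lying in an ideal, as a sum over all integers -/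
theorem dsc_hasSum_generators_of_le (𝔟 : Ideal (𝓞 K)) (F : Ideal (𝓞 K) → E)
    (hF : Summable fun J : DscPrin K => ‖F J.1‖) :
    HasSum (fun α : 𝓞 K => if α ∈ 𝔟 then dscW K (dscEmb K α) • F (Ideal.span {α}) else 0)
      ((torsionOrder K : ℝ) • ∑' J : DscPrin K, if J.1 ≤ 𝔟 then F J.1 else 0) := by
  have hF' : Summable fun J : DscPrin K => ‖(if J.1 ≤ 𝔟 then F J.1 else 0 : E)‖ := by
    refine Summable.of_nonneg_of_le (fun _ => norm_nonneg _) (fun J => ?_) hF
    split_ifs
    · exact le_rfl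
    · rw [norm_zero]; exact norm_nonneg _
  have h := dsc_hasSum_generators K (fun J : DscPrin K => (if J.1 ≤ 𝔟 then F J.1 else 0 : E)) hF'
  have h2 : HasSum (fun α : DscNz K =>
      (if α.1 ∈ 𝔟 then dscW K (dscEmb K α.1) • F (Ideal.span {α.1}) else 0 : E))
      ((torsionOrder K : ℝ) • ∑' J : DscPrin K, if J.1 ≤ 𝔟 then F J.1 else 0) := by
    refine h.congr_fun fun α => ?_
    have : (dscSpan K α).1 ≤ 𝔟 ↔ α.1 ∈ 𝔟 := Ideal.span_singleton_le_iff_mem 𝔟
    by_cases hα : α.1 ∈ 𝔟
    · rw [if_pos hα, if_pos (this.mpr hα)]; rfl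
    · rw [if_neg hα, if_neg (fun h' => hα (this.mp h')), smul_zero]
  rw [← hasSum_subtype_iff_of_support_subset (s := {α : 𝓞 K | α ≠ 0})]
  · exact h2
  · intro α hα
    rw [Function.mem_support] at hα
    show α ≠ 0
    rintro rfl
    apply hα
    split_ifs
    · rw [dscEmb_zero, dscW_of_norm_eq_zero K (map_zero _), zero_smul]
    · rfl

end Fermat.Agent.DS
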