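/-
DS-C (Chebotarev), file 8: the partial `L`-series of `ψ ∘ N` over an ideal class of a totally
complex number field, in terms of the single function `Z₁ = dscZ K ⊤ 0`:

`∑_{I ∈ c} ψ(N I) N I ^ (-s) = ψ(N 𝔟)⁻¹ · S₀ · κ · N 𝔟 ^ (s - 1) · Z₁(s) +` (continuous on `[1, 2]`),

for any integral ideal `𝔟` prime to `m` in the class `c⁻¹` (`dscClassSum_cont`).
-/
import Fermat.Agent.Lib.DS.Cheb.IdealSum
import Fermat.Agent.Lib.DS.Cheb.NormMod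
import Fermat.Agent.Lib.FrobDensity.ZetaPrimes

set_option autoImplicit false
set_option linter.unusedSectionVars false
set_option linter.style.haveILetI false

open NumberField NumberField.mixedEmbedding NumberField.Units Module

namespace Fermat.Agent.DS

open Fermat.Agent.FrobDensity

variable (K : Type*) [Field K] [NumberField K] (m : ℕ) [NeZero m] (ψ : DirichletCharacter ℂ m)

open scoped Classical

/-- the nonzero ideals -/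
abbrev DscIdeal := {I : Ideal (𝓞 K) // I ≠ ⊥}

/-- the character `ψ ∘ N` on ideals -/
noncomputable def dscChi (I : Ideal (𝓞 K)) : ℂ := ψ ((Ideal.absNorm I : ℕ) : ZMod m)

lemma dscChi_mul (I J : Ideal (𝓞 K)) :
    dscChi K m ψ (I * J) = dscChi K m ψ I * dscChi K m ψ J := by
  simp [dscChi, map_mul]

lemma dscChi_norm_le_one (I : Ideal (𝓞 K)) : ‖dscChi K m ψ I‖ ≤ 1 :=
  DirichletCharacter.norm_le_one ψ _

lemma dscChi_ne_zero {𝔟 : Ideal (𝓞 K)} (h : 𝔟 ⊔ Ideal.span {(m : 𝓞 K)} = ⊤) :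
    dscChi K m ψ 𝔟 ≠ 0 := by
  have := dsc_coprime_absNorm K m h
  rw [dscChi]
  exact (((ZMod.isUnit_iff_coprime _ _).mpr this).map ψ).ne_zero

/-- the term `ψ(N I) · N I ^ (-s)` -/
noncomputable def dscTerm (s : ℝ) (I : Ideal (𝓞 K)) : ℂ :=
  dscChi K m ψ I * (((Ideal.absNorm I : ℝ) ^ (-s) : ℝ) : ℂ)

lemma dscTerm_mul (s : ℝ) (I J : Ideal (𝓞 K)) :
    dscTerm K m ψ s (I * J) = dscTerm K m ψ s I * dscTerm K m ψ s J := by
  rw [dscTerm, dscTerm, dscTerm, dscChi_mul, map_mul, Nat.cast_mul,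
    Real.mul_rpow (Nat.cast_nonneg _) (Nat.cast_nonneg _)]
  push_cast
  ring

lemma dscTerm_norm_le (s : ℝ) (I : Ideal (𝓞 K)) :
    ‖dscTerm K m ψ s I‖ ≤ (Ideal.absNorm I : ℝ) ^ (-s) := by
  rw [dscTerm, norm_mul, Complex.norm_real, Real.norm_eq_abs,
    abs_of_nonneg (Real.rpow_nonneg (Nat.cast_nonneg _) _)]
  exact mul_le_of_le_one_left (Real.rpow_nonneg (Nat.cast_nonneg _) _) (dscChi_norm_le_one K m ψ I)

lemma dscTerm_summable {s : ℝ} (hs : 1 < s) :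
    Summable fun I : DscIdeal K => ‖dscTerm K m ψ s I.1‖ :=
  Summable.of_nonneg_of_le (fun _ => norm_nonneg _) (fun I => dscTerm_norm_le K m ψ s I.1)
    (zp_hasSum_ideal_ne_bot K hs).summable

lemma dscTerm_ne_zero {s : ℝ} {𝔟 : Ideal (𝓞 K)} (h𝔟 : 𝔟 ≠ ⊥)
    (h : 𝔟 ⊔ Ideal.span {(m : 𝓞 K)} = ⊤) : dscTerm K m ψ s 𝔟 ≠ 0 := by
  rw [dscTerm]
  refine mul_ne_zero (dscChi_ne_zero K m ψ h) ?_
  rw [Ne, Complex.ofReal_eq_zero]
  have : (0 : ℝ) < (Ideal.absNorm 𝔟 : ℝ) := by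
    have : Ideal.absNorm 𝔟 ≠ 0 := by rwa [Ne, Ideal.absNorm_eq_zero_iff]
    exact_mod_cast Nat.pos_of_ne_zero this
  exact (Real.rpow_pos_of_pos this _).ne'

/-- the class of a nonzero ideal -/
noncomputable def dscCls (I : DscIdeal K) : ClassGroup (𝓞 K) :=
  ClassGroup.mk0 ⟨I.1, mem_nonZeroDivisors_iff_ne_zero.mpr I.2⟩

lemma dscCls_mul (I J : DscIdeal K) :
    dscCls K ⟨I.1 * J.1, mul_ne_zero I.2 J.2⟩ = dscCls K I * dscCls K J := by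
  rw [dscCls, dscCls, dscCls, ← map_mul]
  rfl

lemma dscCls_eq_one_iff (I : DscIdeal K) : dscCls K I = 1 ↔ I.1.IsPrincipal :=
  ClassGroup.mk0_eq_one_iff _

/-- the partial `L`-series over an ideal class -/
noncomputable def dscClassSum (c : ClassGroup (𝓞 K)) (s : ℝ) : ℂ :=
  ∑' I : DscIdeal K, if dscCls K I = c then dscTerm K m ψ s I.1 else 0

/-- nonzero principal ideals as nonzero ideals -/
def dscPrinToIdeal (J : DscPrin K) : DscIdeal K := ⟨J.1, J.2.1⟩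

lemma dscPrinToIdeal_injective : Function.Injective (dscPrinToIdeal K) := fun _ _ h =>
  Subtype.ext (congrArg (fun x : DscIdeal K => x.1) h)

lemma dscTerm_summable_prin {s : ℝ} (hs : 1 < s) :
    Summable fun J : DscPrin K => ‖dscTerm K m ψ s J.1‖ := by
  have h := (dscTerm_summable K m ψ hs).comp_injective (dscPrinToIdeal_injective K)
  exact h

/-- step (i): ideals in the class `[𝔟]⁻¹` and principal ideals divisible by `𝔟` -/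
lemma dscClassSum_mul_term (𝔟 : DscIdeal K) (s : ℝ) :
    dscClassSum K m ψ (dscCls K 𝔟)⁻¹ s * dscTerm K m ψ s 𝔟.1 =
      ∑' J : DscPrin K, if J.1 ≤ 𝔟.1 then dscTerm K m ψ s J.1 else 0 := by
  let f : DscIdeal K → ℂ := fun J =>
    if J.1 ≤ 𝔟.1 ∧ J.1.IsPrincipal then dscTerm K m ψ s J.1 else 0
  let g : DscIdeal K → DscIdeal K := fun I => ⟨I.1 * 𝔟.1, mul_ne_zero I.2 𝔟.2⟩
  have hg : Function.Injective g := by
    intro I I' h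
    have h1 : I.1 * 𝔟.1 = I'.1 * 𝔟.1 := congrArg Subtype.val h
    exact Subtype.ext (mul_left_injective₀ 𝔟.2 h1)
  have hfg : ∀ I : DscIdeal K, f (g I) =
      (if dscCls K I = (dscCls K 𝔟)⁻¹ then dscTerm K m ψ s I.1 else 0) * dscTerm K m ψ s 𝔟.1 := by
    intro I
    have hle : (g I).1 ≤ 𝔟.1 := Ideal.mul_le_right
    have hiff : (g I).1.IsPrincipal ↔ dscCls K I = (dscCls K 𝔟)⁻¹ := by
      rw [← dscCls_eq_one_iff, dscCls_mul, mul_eq_one_iff_eq_inv]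
    by_cases h : dscCls K I = (dscCls K 𝔟)⁻¹
    · rw [if_pos h]
      show (if (g I).1 ≤ 𝔟.1 ∧ (g I).1.IsPrincipal then dscTerm K m ψ s (g I).1 else 0) = _
      rw [if_pos ⟨hle, hiff.mpr h⟩]
      exact dscTerm_mul K m ψ s I.1 𝔟.1
    · rw [if_neg h, zero_mul]
      show (if (g I).1 ≤ 𝔟.1 ∧ (g I).1.IsPrincipal then dscTerm K m ψ s (g I).1 else 0) = _
      rw [if_neg fun h' => h (hiff.mp h'.2)]
  have hsupp : Function.support f ⊆ Set.range g := by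
    intro J hJ
    rw [Function.mem_support] at hJ
    have hJ' : J.1 ≤ 𝔟.1 ∧ J.1.IsPrincipal := by
      by_contra hcon
      exact hJ (if_neg hcon)
    obtain ⟨I, hI⟩ := Ideal.dvd_iff_le.mpr hJ'.1
    have hI0 : I ≠ ⊥ := by
      rintro rfl
      exact J.2 (by rw [hI, Ideal.mul_bot])
    exact ⟨⟨I, hI0⟩, Subtype.ext (by rw [hI, mul_comm])⟩
  have hi₂ := dscPrinToIdeal_injective K
  have hsupp₂ : Function.support f ⊆ Set.range (dscPrinToIdeal K) := by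
    intro J hJ
    rw [Function.mem_support] at hJ
    have hJ' : J.1 ≤ 𝔟.1 ∧ J.1.IsPrincipal := by
      by_contra hcon
      exact hJ (if_neg hcon)
    exact ⟨⟨J.1, J.2, hJ'.2⟩, rfl⟩
  rw [dscClassSum, ← tsum_mul_right, ← tsum_congr hfg, hg.tsum_eq hsupp, ← hi₂.tsum_eq hsupp₂]
  refine tsum_congr fun J => ?_
  show (if J.1 ≤ 𝔟.1 ∧ J.1.IsPrincipal then dscTerm K m ψ s J.1 else 0) = _
  by_cases h : J.1 ≤ 𝔟.1
  · rw [if_pos ⟨h, J.2.2⟩, if_pos h]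
  · rw [if_neg fun h' => h h'.1, if_neg h]

/-- `θ(α) = ψ(N α)` -/
noncomputable def dscTheta (α : 𝓞 K) : ℂ := ψ ((Algebra.norm ℤ α : ℤ) : ZMod m)

lemma dscTheta_congr {α α' : 𝓞 K} (h : α' - α ∈ Ideal.span {(m : 𝓞 K)}) :
    dscTheta K m ψ α' = dscTheta K m ψ α := by
  rw [dscTheta, dscTheta, dsc_norm_congr K m h]

/-- step (iii): the term of a principal ideal -/
lemma dsc_smul_term_span [IsTotallyComplex K] (s : ℝ) (α : 𝓞 K) :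
    dscW K (dscEmb K α) • dscTerm K m ψ s (Ideal.span {α}) =
      dscTheta K m ψ α * ((dscG K s (dscEmb K α) : ℝ) : ℂ) := by
  have hnn := dsc_norm_nonneg K α
  have h1 : ((Ideal.absNorm (Ideal.span {α}) : ℕ) : ZMod m) = ((Algebra.norm ℤ α : ℤ) : ZMod m) := by
    rw [Ideal.absNorm_span_singleton]
    conv_rhs => rw [← Int.natAbs_of_nonneg hnn]
    simp
  have h2 : ((Ideal.absNorm (Ideal.span {α}) : ℕ) : ℝ) = mixedEmbedding.norm (dscEmb K α) := by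
    rw [dscEmb_norm, Ideal.absNorm_span_singleton, Nat.cast_natAbs, Int.cast_abs]
  rw [dscTerm, dscChi, h1, h2, dscTheta, dscG, Complex.real_smul]
  push_cast
  ring

section Residues

variable {K m}
variable {𝔟 : Ideal (𝓞 K)} (hcop : 𝔟 ⊔ Ideal.span {(m : 𝓞 K)} = ⊤)

include hcop in
lemma dsc_exists_rep (u : 𝓞 K ⧸ Ideal.span {(m : 𝓞 K)}) :
    ∃ v : 𝓞 K, v ∈ 𝔟 ∧ Ideal.Quotient.mk (Ideal.span {(m : 𝓞 K)}) v = u := by
  obtain ⟨a, rfl⟩ := Ideal.Quotient.mk_surjective u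
  have h1 : a ∈ 𝔟 ⊔ Ideal.span {(m : 𝓞 K)} := by rw [hcop]; exact Submodule.mem_top
  obtain ⟨b, hb, y, hy, hby⟩ := Submodule.mem_sup.mp h1
  refine ⟨b, hb, ?_⟩
  rw [Ideal.Quotient.eq, ← hby]
  simpa using (Ideal.neg_mem_iff _).mpr hy

/-- representatives in `𝔟` of the residues modulo `m` -/
noncomputable def dscRep (u : 𝓞 K ⧸ Ideal.span {(m : 𝓞 K)}) : 𝓞 K :=
  (dsc_exists_rep hcop u).choose

lemma dscRep_mem (u : 𝓞 K ⧸ Ideal.span {(m : 𝓞 K)}) : dscRep hcop u ∈ 𝔟 :=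
  (dsc_exists_rep hcop u).choose_spec.1

lemma dscRep_mk (u : 𝓞 K ⧸ Ideal.span {(m : 𝓞 K)}) :
    Ideal.Quotient.mk (Ideal.span {(m : 𝓞 K)}) (dscRep hcop u) = u :=
  (dsc_exists_rep hcop u).choose_spec.2

lemma dsc_mem_inf_iff (α : 𝓞 K) (u : 𝓞 K ⧸ Ideal.span {(m : 𝓞 K)}) :
    α - dscRep hcop u ∈ 𝔟 ⊓ Ideal.span {(m : 𝓞 K)} ↔
      α ∈ 𝔟 ∧ Ideal.Quotient.mk (Ideal.span {(m : 𝓞 K)}) α = u := by
  have hq : α - dscRep hcop u ∈ Ideal.span {(m : 𝓞 K)} ↔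
      Ideal.Quotient.mk (Ideal.span {(m : 𝓞 K)}) α = u := by
    rw [← Ideal.Quotient.eq, dscRep_mk]
  rw [Ideal.mem_inf, hq]
  constructor
  · rintro ⟨h1, h2⟩
    refine ⟨?_, h2⟩
    have := 𝔟.add_mem h1 (dscRep_mem hcop u)
    rwa [sub_add_cancel] at this
  · rintro ⟨h1, h2⟩
    exact ⟨𝔟.sub_mem h1 (dscRep_mem hcop u), h2⟩

end Residues

/-- the residue ring modulo `m` is finite -/
noncomputable instance dscFintypeQuot : Fintype (𝓞 K ⧸ Ideal.span {(m : 𝓞 K)}) := by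
  haveI : Finite (𝓞 K ⧸ Ideal.span {(m : 𝓞 K)}) :=
    Ideal.finiteQuotientOfFreeOfNeBot _ (by
      rw [Ne, Ideal.span_singleton_eq_bot]
      exact_mod_cast NeZero.ne m)
  exact Fintype.ofFinite _

/-- `θ` on residues -/
noncomputable def dscThetaBar (u : 𝓞 K ⧸ Ideal.span {(m : 𝓞 K)}) : ℂ :=
  dscTheta K m ψ (Quotient.out u)

lemma dscThetaBar_mk (α : 𝓞 K) :
    dscThetaBar K m ψ (Ideal.Quotient.mk _ α) = dscTheta K m ψ α := by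
  rw [dscThetaBar]
  apply dscTheta_congr
  rw [← Ideal.Quotient.eq]
  exact Quotient.out_eq _

/-- the character sum `S₀ = ∑_{u mod m} ψ(N u)` -/
noncomputable def dscS0 : ℂ := ∑ u : 𝓞 K ⧸ Ideal.span {(m : 𝓞 K)}, dscThetaBar K m ψ u

/-- step (iv): splitting the sum over `𝔟` into residue classes modulo `m` -/
lemma dsc_tsum_theta_eq {𝔟 : Ideal (𝓞 K)} (hcop : 𝔟 ⊔ Ideal.span {(m : 𝓞 K)} = ⊤) {s : ℝ}
    (hs : 1 < s) (hs2 : s ≤ 2) :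
    ∑' α : 𝓞 K, (if α ∈ 𝔟 then dscTheta K m ψ α * ((dscG K s (dscEmb K α) : ℝ) : ℂ) else 0) =
      ∑ u : 𝓞 K ⧸ Ideal.span {(m : 𝓞 K)}, dscThetaBar K m ψ u *
        ((dscZ K (𝔟 ⊓ Ideal.span {(m : 𝓞 K)}) (dscRep hcop u) s : ℝ) : ℂ) := by
  have hsumm : ∀ u : 𝓞 K ⧸ Ideal.span {(m : 𝓞 K)}, Summable fun α : 𝓞 K =>
      dscThetaBar K m ψ u * (((if α - dscRep hcop u ∈ 𝔟 ⊓ Ideal.span {(m : 𝓞 K)} then
        dscG K s (dscEmb K α) else 0 : ℝ)) : ℂ) := fun u =>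
    ((Complex.ofRealCLM.summable (dscZ_summable K _ (dscRep hcop u) hs hs2))).mul_left _
  have hZ : ∀ u : 𝓞 K ⧸ Ideal.span {(m : 𝓞 K)},
      ((dscZ K (𝔟 ⊓ Ideal.span {(m : 𝓞 K)}) (dscRep hcop u) s : ℝ) : ℂ) =
      ∑' α : 𝓞 K, (((if α - dscRep hcop u ∈ 𝔟 ⊓ Ideal.span {(m : 𝓞 K)} then
        dscG K s (dscEmb K α) else 0 : ℝ)) : ℂ) := fun u => by
    rw [dscZ, Complex.ofReal_tsum]
  simp_rw [hZ, ← tsum_mul_left]
  rw [← Summable.tsum_finsetSum fun u _ => hsumm u]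
  refine tsum_congr fun α => ?_
  by_cases hα : α ∈ 𝔟
  · rw [if_pos hα, Finset.sum_eq_single (Ideal.Quotient.mk (Ideal.span {(m : 𝓞 K)}) α)]
    · rw [if_pos ((dsc_mem_inf_iff hcop α _).mpr ⟨hα, rfl⟩), dscThetaBar_mk]
    · intro u _ hu
      rw [if_neg fun h => hu ((dsc_mem_inf_iff hcop α u).mp h).2.symm]
      simp
    · intro h
      exact absurd (Finset.mem_univ _) h
  · rw [if_neg hα]
    symm
    refine Finset.sum_eq_zero fun u _ => ?_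
    rw [if_neg fun h => hα ((dsc_mem_inf_iff hcop α u).mp h).1]
    simp

/-- the constant `κ = 1 / (|μ_K| · N(m))` -/
noncomputable def dscKappa : ℂ :=
  ((((torsionOrder K : ℝ) * (Ideal.absNorm (Ideal.span {(m : 𝓞 K)}) : ℝ) : ℝ)) : ℂ)⁻¹

/-- the formula for the partial `L`-series over a class, for `s > 1` -/
lemma dscClassSum_eq [IsTotallyComplex K] (𝔟 : DscIdeal K)
    (hcop : 𝔟.1 ⊔ Ideal.span {(m : 𝓞 K)} = ⊤) {s : ℝ} (hs : 1 < s) (hs2 : s ≤ 2) :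
    dscClassSum K m ψ (dscCls K 𝔟)⁻¹ s =
      (dscTerm K m ψ s 𝔟.1)⁻¹ * ((torsionOrder K : ℝ) : ℂ)⁻¹ *
        ∑ u : 𝓞 K ⧸ Ideal.span {(m : 𝓞 K)}, dscThetaBar K m ψ u *
          ((dscZ K (𝔟.1 ⊓ Ideal.span {(m : 𝓞 K)}) (dscRep hcop u) s : ℝ) : ℂ) := by
  have hT := dscTerm_ne_zero K m ψ (s := s) 𝔟.2 hcop
  have hμ : ((torsionOrder K : ℝ) : ℂ) ≠ 0 := by
    rw [Ne, Complex.ofReal_eq_zero]
    exact_mod_cast torsionOrder_ne_zero K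
  have h1 := dscClassSum_mul_term K m ψ 𝔟 s
  have hsummP := dscTerm_summable_prin K m ψ hs
  have h2 := (dsc_hasSum_generators_of_le K 𝔟.1 (dscTerm K m ψ s) hsummP).tsum_eq
  have h3 : ∀ α : 𝓞 K, (if α ∈ 𝔟.1 then
      dscW K (dscEmb K α) • dscTerm K m ψ s (Ideal.span {α}) else 0) =
      if α ∈ 𝔟.1 then dscTheta K m ψ α * ((dscG K s (dscEmb K α) : ℝ) : ℂ) else 0 := by
    intro α
    split_ifs
    · exact dsc_smul_term_span K m ψ s α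
    · rfl
  rw [tsum_congr h3, dsc_tsum_theta_eq K m ψ hcop hs hs2, ← h1, Complex.real_smul] at h2
  rw [h2]
  field_simp

/-- **the class sum theorem** -/
theorem dscClassSum_cont [IsTotallyComplex K] (𝔟 : DscIdeal K)
    (hcop : 𝔟.1 ⊔ Ideal.span {(m : 𝓞 K)} = ⊤) :
    DscCont fun s => dscClassSum K m ψ (dscCls K 𝔟)⁻¹ s -
      (dscChi K m ψ 𝔟.1)⁻¹ * dscS0 K m ψ * dscKappa K m *
        (((Ideal.absNorm 𝔟.1 : ℝ) ^ (s - 1) : ℝ) : ℂ) * ((dscZ K ⊤ 0 s : ℝ) : ℂ) := by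
  set 𝔠 : Ideal (𝓞 K) := 𝔟.1 ⊓ Ideal.span {(m : 𝓞 K)} with h𝔠
  have hm0 : Ideal.span {(m : 𝓞 K)} ≠ ⊥ := by
    rw [Ne, Ideal.span_singleton_eq_bot]
    exact_mod_cast NeZero.ne m
  have h𝔠mul : 𝔠 = 𝔟.1 * Ideal.span {(m : 𝓞 K)} :=
    (Ideal.mul_eq_inf_of_isCoprime (Ideal.isCoprime_iff_sup_eq.mpr hcop)).symm
  have h𝔠0 : 𝔠 ≠ ⊥ := by rw [h𝔠mul]; exact mul_ne_zero 𝔟.2 hm0
  have hN𝔠 : (Ideal.absNorm 𝔠 : ℝ) =
      (Ideal.absNorm 𝔟.1 : ℝ) * (Ideal.absNorm (Ideal.span {(m : 𝓞 K)}) : ℝ) := by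
    rw [h𝔠mul, map_mul, Nat.cast_mul]
  have hN𝔟 : (0 : ℝ) < (Ideal.absNorm 𝔟.1 : ℝ) := by
    have : Ideal.absNorm 𝔟.1 ≠ 0 := by rw [Ne, Ideal.absNorm_eq_zero_iff]; exact 𝔟.2
    exact_mod_cast Nat.pos_of_ne_zero this
  have hNm : (0 : ℝ) < (Ideal.absNorm (Ideal.span {(m : 𝓞 K)}) : ℝ) := by
    have : Ideal.absNorm (Ideal.span {(m : 𝓞 K)}) ≠ 0 := by
      rw [Ne, Ideal.absNorm_eq_zero_iff]; exact hm0
    exact_mod_cast Nat.pos_of_ne_zero this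
  have hμ : (0 : ℝ) < (torsionOrder K : ℝ) := by exact_mod_cast torsionOrder_pos K
  -- the continuous remainder
  have hcontpow : DscCont fun s : ℝ => (((Ideal.absNorm 𝔟.1 : ℝ) ^ (s - 1) : ℝ) : ℂ) := by
    refine DscCont.of_continuousOn (Continuous.continuousOn ?_)
    exact Complex.continuous_ofReal.comp
      (continuous_const.rpow (continuous_id.sub continuous_const) fun _ => Or.inl hN𝔟.ne')
  have hrem : DscCont fun s : ℝ => (dscChi K m ψ 𝔟.1)⁻¹ * dscKappa K m *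
      (((Ideal.absNorm 𝔟.1 : ℝ) ^ (s - 1) : ℝ) : ℂ) *
      ∑ u : 𝓞 K ⧸ Ideal.span {(m : 𝓞 K)}, dscThetaBar K m ψ u *
        (((Ideal.absNorm 𝔠 : ℝ) * dscZ K 𝔠 (dscRep hcop u) s - dscZ K ⊤ 0 s : ℝ) : ℂ) := by
    refine ((dscCont_const _).mul hcontpow).mul (DscCont.sum _ fun u _ => ?_)
    exact ((dscZ_lattice K 𝔠 h𝔠0 (dscRep hcop u)).ofReal).const_mul _
  refine hrem.congr fun s hs => ?_
  have hsum : ∑ u : 𝓞 K ⧸ Ideal.span {(m : 𝓞 K)}, dscThetaBar K m ψ u *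
      (((Ideal.absNorm 𝔠 : ℝ) * dscZ K 𝔠 (dscRep hcop u) s - dscZ K ⊤ 0 s : ℝ) : ℂ) =
      ((Ideal.absNorm 𝔠 : ℝ) : ℂ) * (∑ u : 𝓞 K ⧸ Ideal.span {(m : 𝓞 K)}, dscThetaBar K m ψ u *
        ((dscZ K 𝔠 (dscRep hcop u) s : ℝ) : ℂ)) - dscS0 K m ψ * ((dscZ K ⊤ 0 s : ℝ) : ℂ) := by
    rw [dscS0, Finset.mul_sum, Finset.sum_mul, ← Finset.sum_sub_distrib]
    refine Finset.sum_congr rfl fun u _ => ?_
    push_cast
    ring
  rw [dscClassSum_eq K m ψ 𝔟 hcop hs.1 hs.2, hsum, dscTerm, dscKappa, hN𝔠]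
  have hχ := dscChi_ne_zero K m ψ hcop
  have hpow1 : (Ideal.absNorm 𝔟.1 : ℝ) ^ (s - 1) =
      ((Ideal.absNorm 𝔟.1 : ℝ) ^ (-s))⁻¹ * (Ideal.absNorm 𝔟.1 : ℝ)⁻¹ := by
    rw [← Real.rpow_neg hN𝔟.le, neg_neg, Real.rpow_sub hN𝔟, Real.rpow_one, div_eq_mul_inv]
  rw [hpow1]
  have h1 : ((torsionOrder K : ℝ) : ℂ) ≠ 0 := by
    rw [Ne, Complex.ofReal_eq_zero]; exact hμ.ne'
  have h2 : ((Ideal.absNorm 𝔟.1 : ℝ) : ℂ) ≠ 0 := by
    rw [Ne, Complex.ofReal_eq_zero]; exact hN𝔟.ne'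
  have h3 : ((Ideal.absNorm (Ideal.span {(m : 𝓞 K)}) : ℝ) : ℂ) ≠ 0 := by
    rw [Ne, Complex.ofReal_eq_zero]; exact hNm.ne'
  have h4 : (((Ideal.absNorm 𝔟.1 : ℝ) ^ (-s) : ℝ) : ℂ) ≠ 0 := by
    rw [Ne, Complex.ofReal_eq_zero]; exact (Real.rpow_pos_of_pos hN𝔟 _).ne'
  push_cast at h1 h2 h3 ⊢
  generalize (∑ u : 𝓞 K ⧸ Ideal.span {(m : 𝓞 K)}, dscThetaBar K m ψ u *
        ((dscZ K 𝔠 (dscRep hcop u) s : ℝ) : ℂ)) = A
  generalize dscS0 K m ψ = S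
  generalize ((dscZ K ⊤ 0 s : ℝ) : ℂ) = Z
  generalize hx : dscChi K m ψ 𝔟.1 = x at hχ
  generalize hp : (((Ideal.absNorm 𝔟.1 : ℝ) ^ (-s) : ℝ) : ℂ) = p at h4
  generalize ((Ideal.absNorm 𝔟.1 : ℕ) : ℂ) = b at h2
  generalize ((Ideal.absNorm (Ideal.span {(m : 𝓞 K)}) : ℕ) : ℂ) = n at h3
  generalize ((torsionOrder K : ℕ) : ℂ) = t at h1
  field_simp

end Fermat.Agent.DS
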