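/-
DS-C (Chebotarev density theorem, Dirichlet-density form), file 0: interface definitions.

* `dscNormGroup F m` : the subgroup of `(ZMod m)ˣ` generated by the classes of the norms of the
  ideals of `𝓞 F` (those norms which are units modulo `m`);
* `dscPrimeSum F m a s` : `∑_{l prime, l ≡ a (m)} #{ideals of 𝓞 F of norm l} · l ^ (-s)`.
-/
import Fermat.Agent.Lib.FrobDensity.ZetaPrimes

set_option autoImplicit false

open NumberField

namespace Fermat.Agent.DS

open Fermat.Agent.FrobDensity

/-- the subgroup of `(ZMod m)ˣ` generated by the norms of ideals of `𝓞 F` -/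
noncomputable def dscNormGroup (F : Type*) [Field F] [NumberField F] (m : ℕ) :
    Subgroup (ZMod m)ˣ :=
  Subgroup.closure {u : (ZMod m)ˣ | ∃ I : Ideal (𝓞 F), (u : ZMod m) = (Ideal.absNorm I : ZMod m)}

/-- `∑_{l prime, l ≡ a (m)} #{ideals of norm l} · l ^ (-s)` -/
noncomputable def dscPrimeSum (F : Type*) [Field F] [NumberField F] (m : ℕ) (a : ZMod m)
    (s : ℝ) : ℝ :=
  ∑' l : Nat.Primes, if ((l : ℕ) : ZMod m) = a then
    (idealCount F (l : ℕ) : ℝ) * ((l : ℕ) : ℝ) ^ (-s) else 0

end Fermat.Agent.DS
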