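/-
DS-C (Chebotarev), file 11: the complex Euler product over a free commutative monoid.

For `a : P → ℂ` with `‖a p‖ ≤ 1/2` and `Summable (‖a ·‖)`:
`∑' v : P →₀ ℕ, ∏ p, a p ^ v p = exp (∑' p, -log (1 - a p))` (`dsc_tsum_monomial`), and
`‖∑' p, -log (1 - a p) - ∑' p, a p‖ ≤ ∑' p, ‖a p‖ ^ 2` (`dsc_norm_tsum_log_sub_le`).
-/
import Fermat.Agent.Lib.FrobDensity.ZetaPrimes

set_option autoImplicit false
set_option linter.unusedSectionVars false

open Finset Filter Topology

namespace Fermat.Agent.DS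

open Fermat.Agent.FrobDensity

variable {P : Type*} (a : P → ℂ)

/-- the complex monomial `∏ p, a p ^ v p` -/
noncomputable def dscMonomial (v : P →₀ ℕ) : ℂ := v.prod fun q e => a q ^ e

lemma dscMonomial_norm (v : P →₀ ℕ) : ‖dscMonomial a v‖ = feMonomial (fun p => ‖a p‖) v := by
  rw [dscMonomial, feMonomial, Finsupp.prod, Finsupp.prod, norm_prod]
  exact Finset.prod_congr rfl fun p _ => norm_pow _ _

lemma dscMonomial_eq_prod_of_subset {F : Finset P} {v : P →₀ ℕ} (h : v.support ⊆ F) :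
    dscMonomial a v = ∏ p ∈ F, a p ^ v p :=
  Finsupp.prod_of_support_subset v h _ fun _ _ => pow_zero _

/-- the finite box identity -/
lemma dsc_sum_box (F : Finset P) (M : ℕ) :
    ∑ v ∈ F.finsupp (fun _ => Finset.range (M + 1)), dscMonomial a v =
      ∏ p ∈ F, ∑ e ∈ Finset.range (M + 1), a p ^ e := by
  classical
  rw [Finset.prod_sum, Finset.finsupp, Finset.sum_map]
  refine Finset.sum_congr rfl fun u hu => ?_
  have hsupp : (Finsupp.indicator F u).support ⊆ F := Finsupp.support_indicator_subset F u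
  show dscMonomial a (Finsupp.indicator F u) = _
  rw [dscMonomial_eq_prod_of_subset a hsupp, ← Finset.prod_attach]
  refine Finset.prod_congr rfl fun p _ => ?_
  rw [Finsupp.indicator_of_mem p.2]

omit a in
lemma dsc_box_mono {F F' : Finset P} {M M' : ℕ} (hF : F ⊆ F') (hM : M ≤ M') :
    F.finsupp (fun _ => Finset.range (M + 1)) ⊆ F'.finsupp (fun _ => Finset.range (M' + 1)) := by
  classical
  intro v hv
  rw [Finset.mem_finsupp_iff] at hv ⊢
  refine ⟨hv.1.trans hF, fun p _ => ?_⟩
  rw [Finset.mem_range]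
  by_cases hp : p ∈ F
  · have := Finset.mem_range.mp (hv.2 p hp)
    omega
  · have : v p = 0 := by
      rw [← Finsupp.notMem_support_iff]
      exact fun h => hp (hv.1 h)
    omega

variable (h1 : ∀ p, ‖a p‖ ≤ 1 / 2) (hs : Summable fun p => ‖a p‖)

include h1 hs

lemma dscMonomial_summable_norm : Summable fun v => ‖dscMonomial a v‖ := by
  have := fe_summable_monomial (fun p => ‖a p‖) (fun p => norm_nonneg _) h1 hs
  exact this.congr fun v => (dscMonomial_norm a v).symm

omit hs in
lemma dsc_one_sub_ne_zero (p : P) : 1 - a p ≠ 0 := by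
  intro h
  have h2 : a p = 1 := (sub_eq_zero.mp h).symm
  have := h1 p
  rw [h2, norm_one] at this
  norm_num at this

lemma dsc_summable_neg_log : Summable fun p => -Complex.log (1 - a p) := by
  refine Summable.neg (Summable.of_norm_bounded (g := fun p => 3 / 2 * ‖a p‖) (hs.mul_left _)
    fun p => ?_)
  have := Complex.norm_log_one_add_half_le_self (z := -a p) (by rw [norm_neg]; exact h1 p)
  rwa [norm_neg, ← sub_eq_add_neg] at this

omit hs in
lemma dsc_prod_inv_eq_exp (F : Finset P) :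
    ∏ p ∈ F, (1 - a p)⁻¹ = Complex.exp (∑ p ∈ F, -Complex.log (1 - a p)) := by
  rw [Complex.exp_sum]
  refine Finset.prod_congr rfl fun p _ => ?_
  rw [Complex.exp_neg, Complex.exp_log (dsc_one_sub_ne_zero a h1 p)]

/-- the partial Euler products converge to the sum of the monomials -/
lemma dsc_tendsto_prod_inv :
    Tendsto (fun F : Finset P => ∏ p ∈ F, (1 - a p)⁻¹) atTop (𝓝 (∑' v, dscMonomial a v)) := by
  classical
  have hsum : HasSum (dscMonomial a) (∑' v, dscMonomial a v) :=
    (dscMonomial_summable_norm a h1 hs).of_norm.hasSum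
  rw [Metric.tendsto_atTop]
  intro ε hε
  have hev := (Metric.tendsto_atTop.mp hsum) (ε / 2) (half_pos hε)
  obtain ⟨U₀, hU₀⟩ := hev
  obtain ⟨F₀, M₀, hbox⟩ := fe_exists_box U₀
  refine ⟨F₀, fun F hF => ?_⟩
  have hlim : Tendsto (fun M : ℕ => ∏ p ∈ F, ∑ e ∈ Finset.range (M + 1), a p ^ e) atTop
      (𝓝 (∏ p ∈ F, (1 - a p)⁻¹)) := by
    refine tendsto_finsetProd F fun p _ => ?_
    have h := (hasSum_geometric_of_norm_lt_one
      (lt_of_le_of_lt (h1 p) (by norm_num : (1 / 2 : ℝ) < 1))).tendsto_sum_nat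
    exact (tendsto_add_atTop_iff_nat 1).mpr h
  have hle : dist (∏ p ∈ F, (1 - a p)⁻¹) (∑' v, dscMonomial a v) ≤ ε / 2 := by
    refine le_of_tendsto ((continuous_id.dist continuous_const).continuousAt.tendsto.comp hlim) ?_
    filter_upwards [eventually_ge_atTop M₀] with M hM
    simp only [Function.comp_apply, id]
    rw [← dsc_sum_box]
    exact (hU₀ _ (hbox.trans (dsc_box_mono hF hM))).le
  linarith

/-- **the complex Euler product**, logarithmic form -/
theorem dsc_tsum_monomial :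
    ∑' v, dscMonomial a v = Complex.exp (∑' p, -Complex.log (1 - a p)) := by
  have h2 : Tendsto (fun F : Finset P => ∏ p ∈ F, (1 - a p)⁻¹) atTop
      (𝓝 (Complex.exp (∑' p, -Complex.log (1 - a p)))) := by
    have := (Complex.continuous_exp.tendsto _).comp (dsc_summable_neg_log a h1 hs).hasSum
    refine this.congr fun F => ?_
    simp only [Function.comp_apply]
    rw [dsc_prod_inv_eq_exp a h1 F]
  exact tendsto_nhds_unique (dsc_tendsto_prod_inv a h1 hs) h2

/-- `∑ -log (1 - a p)` and `∑ a p` differ by at most `∑ ‖a p‖ ^ 2` -/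
theorem dsc_norm_tsum_log_sub_le :
    ‖∑' p, -Complex.log (1 - a p) - ∑' p, a p‖ ≤ ∑' p, ‖a p‖ ^ 2 := by
  have hsq : Summable fun p => ‖a p‖ ^ 2 := by
    refine Summable.of_nonneg_of_le (fun p => sq_nonneg _) (fun p => ?_) hs
    have := h1 p; have := norm_nonneg (a p); nlinarith
  have hsa : Summable a := hs.of_norm
  rw [← (dsc_summable_neg_log a h1 hs).tsum_sub hsa]
  have hterm : ∀ p, ‖-Complex.log (1 - a p) - a p‖ ≤ ‖a p‖ ^ 2 := by
    intro p
    have hlt : ‖-a p‖ < 1 := by rw [norm_neg]; exact lt_of_le_of_lt (h1 p) (by norm_num)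
    have h := Complex.norm_log_one_add_sub_self_le hlt
    rw [norm_neg, ← sub_eq_add_neg, sub_neg_eq_add] at h
    have e : -Complex.log (1 - a p) - a p = -(Complex.log (1 - a p) + a p) := by ring
    rw [e, norm_neg]
    refine h.trans ?_
    have h2 : (1 - ‖a p‖)⁻¹ ≤ 2 := by
      rw [inv_le_comm₀ (by linarith [h1 p]) (by norm_num)]
      linarith [h1 p]
    have h3 : 0 ≤ ‖a p‖ ^ 2 := sq_nonneg _
    calc ‖a p‖ ^ 2 * (1 - ‖a p‖)⁻¹ / 2 ≤ ‖a p‖ ^ 2 * 2 / 2 := by
          apply div_le_div_of_nonneg_right _ (by norm_num : (0 : ℝ) ≤ 2)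
          exact mul_le_mul_of_nonneg_left h2 h3
      _ = ‖a p‖ ^ 2 := by ring
  have hsummn : Summable fun p => ‖-Complex.log (1 - a p) - a p‖ :=
    Summable.of_nonneg_of_le (fun _ => norm_nonneg _) hterm hsq
  refine (norm_tsum_le_tsum_norm hsummn).trans ?_
  exact hsummn.tsum_le_tsum hterm hsq

end Fermat.Agent.DS
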