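/-
DS-C (Chebotarev), file 12: the Euler product of `L_K(s, ψ ∘ N)` and its logarithm.

* `dscE K m ψ s = ∑_𝔭 -log (1 - ψ(N𝔭) N𝔭^{-s})`, `exp (dscE s) = dscL s` (`dsc_exp_dscE`);
* `dscP1 K m ψ s = ∑_{l prime} ψ(l) · #{ideals of norm l} · l^{-s}`, `‖dscE s - dscP1 s‖ ≤ C`
  uniformly in `s ∈ (1, 2]` (`dscE_sub_dscP1_bounded`);
* orthogonality: `∑_ψ ψ(a)⁻¹ dscP1 ψ s = φ(m) · dscPrimeSum K m a s` (`dsc_sum_inv_mul_dscP1`).
-/
import Fermat.Agent.Lib.DS.Cheb.LContMain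
import Fermat.Agent.Lib.DS.Cheb.EulerC
import Fermat.Agent.Lib.DS.Cheb.Defs

set_option autoImplicit false
set_option linter.unusedSectionVars false
set_option linter.style.haveILetI false

open NumberField IsDedekindDomain Filter Topology

namespace Fermat.Agent.DS

open Fermat.Agent.FrobDensity

variable (K : Type*) [Field K] [NumberField K] (m : ℕ) [NeZero m] (ψ : DirichletCharacter ℂ m)

open scoped Classical

lemma dscTerm_top (s : ℝ) : dscTerm K m ψ s ⊤ = 1 := by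
  simp [dscTerm, dscChi]

lemma dscTerm_one (s : ℝ) : dscTerm K m ψ s 1 = 1 := by
  rw [Ideal.one_eq_top]; exact dscTerm_top K m ψ s

lemma dscTerm_pow (s : ℝ) (I : Ideal (𝓞 K)) (n : ℕ) :
    dscTerm K m ψ s (I ^ n) = dscTerm K m ψ s I ^ n := by
  induction n with
  | zero => rw [pow_zero, pow_zero, dscTerm_one]
  | succ n ih => rw [pow_succ, pow_succ, dscTerm_mul, ih]

lemma dscTerm_prod {ι : Type*} (s : ℝ) (t : Finset ι) (f : ι → Ideal (𝓞 K)) :
    dscTerm K m ψ s (∏ i ∈ t, f i) = ∏ i ∈ t, dscTerm K m ψ s (f i) := by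
  induction t using Finset.induction_on with
  | empty => rw [Finset.prod_empty, Finset.prod_empty, dscTerm_one]
  | insert j t hj ih => rw [Finset.prod_insert hj, Finset.prod_insert hj, dscTerm_mul, ih]

/-- the local term `ψ(N𝔭) N𝔭^{-s}` -/
noncomputable def dscLocal (s : ℝ) (p : HeightOneSpectrum (𝓞 K)) : ℂ :=
  dscTerm K m ψ s p.asIdeal

lemma dscLocal_norm_le (s : ℝ) (p : HeightOneSpectrum (𝓞 K)) :
    ‖dscLocal K m ψ s p‖ ≤ zpX K s p := dscTerm_norm_le K m ψ s p.asIdeal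

lemma dscLocal_norm_le_half {s : ℝ} (hs : 1 ≤ s) (p : HeightOneSpectrum (𝓞 K)) :
    ‖dscLocal K m ψ s p‖ ≤ 1 / 2 := (dscLocal_norm_le K m ψ s p).trans (zpX_le_half K hs p)

lemma dscLocal_summable {s : ℝ} (hs : 1 < s) : Summable fun p => ‖dscLocal K m ψ s p‖ :=
  Summable.of_nonneg_of_le (fun _ => norm_nonneg _) (dscLocal_norm_le K m ψ s) (zpX_summable K hs)

lemma dscTerm_ifProd (s : ℝ) (v : HeightOneSpectrum (𝓞 K) →₀ ℕ) :
    dscTerm K m ψ s (ifProd v) = dscMonomial (dscLocal K m ψ s) v := by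
  rw [ifProd, Finsupp.prod, dscTerm_prod, dscMonomial, Finsupp.prod]
  exact Finset.prod_congr rfl fun p _ => dscTerm_pow K m ψ s p.asIdeal _

/-- the logarithm of the Euler product -/
noncomputable def dscE (s : ℝ) : ℂ := ∑' p, -Complex.log (1 - dscLocal K m ψ s p)

/-- the sum over the prime ideals -/
noncomputable def dscP (s : ℝ) : ℂ := ∑' p, dscLocal K m ψ s p

/-- **the Euler product** -/
theorem dsc_exp_dscE {s : ℝ} (hs : 1 < s) : Complex.exp (dscE K m ψ s) = dscL K m ψ s := by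
  rw [dscE, ← dsc_tsum_monomial _ (dscLocal_norm_le_half K m ψ hs.le) (dscLocal_summable K m ψ hs),
    dscL, ← (ifEquiv (R := 𝓞 K)).tsum_eq]
  refine tsum_congr fun v => ?_
  rw [← dscTerm_ifProd]
  rfl

lemma dscE_sub_dscP_le {s : ℝ} (hs : 1 < s) :
    ‖dscE K m ψ s - dscP K m ψ s‖ ≤ ∑' p, zpX K 2 p := by
  refine (dsc_norm_tsum_log_sub_le _ (dscLocal_norm_le_half K m ψ hs.le)
    (dscLocal_summable K m ψ hs)).trans ?_
  have hle : ∀ p, ‖dscLocal K m ψ s p‖ ^ 2 ≤ zpX K 2 p := fun p =>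
    (pow_le_pow_left₀ (norm_nonneg _) (dscLocal_norm_le K m ψ s p) 2).trans (zpX_sq_le K hs.le p)
  exact Summable.tsum_le_tsum hle
    (Summable.of_nonneg_of_le (fun _ => sq_nonneg _) hle (zpX_summable K one_lt_two))
    (zpX_summable K one_lt_two)

/-- the sum over the primes of degree one, grouped by the prime number below -/
noncomputable def dscP1 (s : ℝ) : ℂ :=
  ∑' l : Nat.Primes, ψ ((l : ℕ) : ZMod m) *
    (((idealCount K (l : ℕ) : ℝ) * ((l : ℕ) : ℝ) ^ (-s) : ℝ) : ℂ)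

lemma dscLocal_degOne (s : ℝ) (p : zpDegOne K) :
    dscLocal K m ψ s p.1 = ψ (((zpNormPrime K p : Nat.Primes) : ℕ) : ZMod m) *
      ((zpX K s p.1 : ℝ) : ℂ) := rfl

lemma dscP1_hasSum {s : ℝ} (hs : 1 < s) :
    HasSum (fun l : Nat.Primes => ψ ((l : ℕ) : ZMod m) *
      (((idealCount K (l : ℕ) : ℝ) * ((l : ℕ) : ℝ) ^ (-s) : ℝ) : ℂ))
      (∑' p : zpDegOne K, dscLocal K m ψ s p.1) := by
  have hsub : Summable fun p : zpDegOne K => dscLocal K m ψ s p.1 :=
    ((dscLocal_summable K m ψ hs).of_norm).subtype _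
  let e := Equiv.sigmaFiberEquiv (zpNormPrime K)
  have hfib : ∀ l : Nat.Primes,
      HasSum (fun c : {p : zpDegOne K // zpNormPrime K p = l} => dscLocal K m ψ s (e ⟨l, c⟩).1)
      (ψ ((l : ℕ) : ZMod m) * (((idealCount K (l : ℕ) : ℝ) * ((l : ℕ) : ℝ) ^ (-s) : ℝ) : ℂ)) := by
    intro l
    have hfin : Finite {p : zpDegOne K // zpNormPrime K p = l} := by
      haveI : Finite {I : Ideal (𝓞 K) // Ideal.absNorm I = l} :=
        Ideal.finite_setOfPred_absNorm_eq (l : ℕ)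
      exact Finite.of_equiv _ (zpFiberEquiv K l).symm
    haveI := Fintype.ofFinite {p : zpDegOne K // zpNormPrime K p = l}
    have hconst : (fun c : {p : zpDegOne K // zpNormPrime K p = l} =>
        dscLocal K m ψ s (e ⟨l, c⟩).1) =
        fun _ => ψ ((l : ℕ) : ZMod m) * ((((l : ℕ) : ℝ) ^ (-s) : ℝ) : ℂ) := by
      funext c
      have h1 : Ideal.absNorm c.1.1.asIdeal = l := congrArg Subtype.val c.2
      show dscTerm K m ψ s c.1.1.asIdeal = _
      rw [dscTerm, dscChi, h1]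
    rw [hconst]
    have hcard : (idealCount K l : ℝ) = Fintype.card {p : zpDegOne K // zpNormPrime K p = l} := by
      rw [idealCount, ← Nat.card_congr (zpFiberEquiv K l), Nat.card_eq_fintype_card]
    have := hasSum_fintype (fun _ : {p : zpDegOne K // zpNormPrime K p = l} =>
      ψ ((l : ℕ) : ZMod m) * ((((l : ℕ) : ℝ) ^ (-s) : ℝ) : ℂ))
    rw [Finset.sum_const, Finset.card_univ, nsmul_eq_mul] at this
    convert this using 1
    rw [hcard]
    push_cast
    ring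
  have hsig : Summable fun σ : (Σ l, {p : zpDegOne K // zpNormPrime K p = l}) =>
      dscLocal K m ψ s (e σ).1 :=
    (e.summable_iff (f := fun p : zpDegOne K => dscLocal K m ψ s p.1)).mpr hsub
  have h1 : ∑' p : zpDegOne K, dscLocal K m ψ s p.1 = ∑' σ, dscLocal K m ψ s (e σ).1 :=
    (e.tsum_eq (fun p : zpDegOne K => dscLocal K m ψ s p.1)).symm
  have h4 : HasSum (fun l : Nat.Primes =>
      ∑' c : {p : zpDegOne K // zpNormPrime K p = l}, dscLocal K m ψ s (e ⟨l, c⟩).1)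
      (∑' p : zpDegOne K, dscLocal K m ψ s p.1) := by
    rw [h1]
    exact hsig.hasSum.sigma fun l => (hfib l).summable.hasSum
  refine h4.congr_fun fun l => ?_
  exact (hfib l).tsum_eq.symm

lemma dscP_sub_dscP1_le {s : ℝ} (hs : 1 < s) : ‖dscP K m ψ s - dscP1 K m ψ s‖ ≤ zpC K := by
  have hsumm : Summable fun p => dscLocal K m ψ s p := (dscLocal_summable K m ψ hs).of_norm
  have hsplit := hsumm.tsum_subtype_add_tsum_subtype_compl (zpDegOne K)
  rw [dscP, dscP1, (dscP1_hasSum K m ψ hs).tsum_eq, ← hsplit, add_sub_cancel_left]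
  have hn : Summable fun p : ↑(zpDegOne K)ᶜ => ‖dscLocal K m ψ s p.1‖ :=
    (dscLocal_summable K m ψ hs).subtype _
  refine (norm_tsum_le_tsum_norm hn).trans ?_
  refine le_trans ?_ (zp_tsum_compl_le K hs)
  exact hn.tsum_le_tsum (fun p => dscLocal_norm_le K m ψ s p.1) ((zpX_summable K hs).subtype _)

/-- `E = P₁ + O(1)` uniformly -/
theorem dscE_sub_dscP1_bounded : ∃ C : ℝ, ∀ s : ℝ, 1 < s →
    ‖dscE K m ψ s - dscP1 K m ψ s‖ ≤ C := by
  refine ⟨(∑' p, zpX K 2 p) + zpC K, fun s hs => ?_⟩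
  have h1 := dscE_sub_dscP_le K m ψ hs
  have h2 := dscP_sub_dscP1_le K m ψ hs
  calc ‖dscE K m ψ s - dscP1 K m ψ s‖
      = ‖(dscE K m ψ s - dscP K m ψ s) + (dscP K m ψ s - dscP1 K m ψ s)‖ := by
        congr 1; ring
    _ ≤ _ := (norm_add_le _ _).trans (add_le_add h1 h2)

/-- **orthogonality** -/
theorem dsc_sum_inv_mul_dscP1 (a : (ZMod m)ˣ) {s : ℝ} (hs : 1 < s) :
    ∑ χ : DirichletCharacter ℂ m, χ ((a : ZMod m)⁻¹) * dscP1 K m χ s =
      (m.totient : ℂ) * ((dscPrimeSum K m (a : ZMod m) s : ℝ) : ℂ) := by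
  have hsumm : ∀ χ : DirichletCharacter ℂ m, Summable fun l : Nat.Primes =>
      χ ((a : ZMod m)⁻¹) * (χ ((l : ℕ) : ZMod m) *
        (((idealCount K (l : ℕ) : ℝ) * ((l : ℕ) : ℝ) ^ (-s) : ℝ) : ℂ)) := fun χ =>
    ((dscP1_hasSum K m χ hs).summable).mul_left _
  simp only [dscP1, ← tsum_mul_left]
  rw [← Summable.tsum_finsetSum fun χ _ => hsumm χ, dscPrimeSum, Complex.ofReal_tsum,
    ← tsum_mul_left]
  refine tsum_congr fun l => ?_
  have horth := DirichletCharacter.sum_char_inv_mul_char_eq ℂ a.isUnit ((l : ℕ) : ZMod m)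
  simp_rw [← mul_assoc, ← Finset.sum_mul, horth]
  by_cases h : (a : ZMod m) = ((l : ℕ) : ZMod m)
  · rw [if_pos h, if_pos h.symm]
  · rw [if_neg h, if_neg (fun h' => h h'.symm)]
    simp

end Fermat.Agent.DS
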