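/-
DS-C (Chebotarev), file 13: the characters `ψ` modulo `m` which are trivial on the norm group
`dscNormGroup K m` (`dscTriv`): there are `φ(m) / |H|` of them (`dsc_card_triv_mul`), for them
`dscP1 K m ψ s = log (1 / (s - 1)) + O(1)` uniformly on `(1, 2]` (`dscP1_triv_bounded`), and for the
others `ψ ∘ N` is a nontrivial character on ideals (`dsc_nontrivial_of_not_triv`).
-/
import Fermat.Agent.Lib.DS.Cheb.DirichletF1

set_option autoImplicit false
set_option linter.unusedSectionVars false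
set_option linter.style.haveILetI false

open NumberField IsDedekindDomain Filter Topology

namespace Fermat.Agent.DS

open Fermat.Agent.FrobDensity

section Analysis

/-- from `O(1)` near `1` to a uniform bound on `(1, 2]` -/
lemma dsc_bounded_of_isBigO (f : ℝ → ℝ)
    (hO : (fun s : ℝ => f s + Real.log (s - 1)) =O[𝓝[>] 1] fun _ => (1 : ℝ))
    (hanti : ∀ s t : ℝ, 1 < s → s ≤ t → f t ≤ f s) (hnn : ∀ s : ℝ, 1 < s → 0 ≤ f s) :
    ∃ C : ℝ, ∀ s : ℝ, 1 < s → s ≤ 2 → |f s - Real.log (1 / (s - 1))| ≤ C := by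
  obtain ⟨c, hc⟩ := hO.bound
  obtain ⟨u, hu1, hu⟩ := mem_nhdsGT_iff_exists_Ioo_subset.mp hc
  have hu1' : (1 : ℝ) < u := hu1
  set δ : ℝ := min u 2 - 1 with hδ
  have hδ0 : 0 < δ := by
    rw [hδ]; have : (1 : ℝ) < min u 2 := lt_min hu1' one_lt_two; linarith
  set s₀ : ℝ := 1 + δ / 2 with hs₀
  have hs₀1 : 1 < s₀ := by rw [hs₀]; linarith
  refine ⟨max c (f s₀ + |Real.log (δ / 2)|), fun s hs hs2 => ?_⟩
  have hlog : Real.log (1 / (s - 1)) = -Real.log (s - 1) := by
    rw [one_div, Real.log_inv]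
  rw [hlog, sub_neg_eq_add]
  by_cases hsmall : s < s₀
  · have hmem : s ∈ Set.Ioo 1 u := by
      refine ⟨hs, lt_of_lt_of_le hsmall ?_⟩
      rw [hs₀, hδ]
      have : min u 2 ≤ u := min_le_left _ _
      linarith
    have := hu hmem
    simp only [Set.mem_ofPred_eq, norm_one, mul_one, Real.norm_eq_abs] at this
    exact this.trans (le_max_left _ _)
  · rw [not_lt] at hsmall
    refine le_trans ?_ (le_max_right _ _)
    refine (abs_add_le _ _).trans (add_le_add ?_ ?_)
    · rw [abs_of_nonneg (hnn s hs)]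
      exact hanti s₀ s hs₀1 hsmall
    · have h1 : δ / 2 ≤ s - 1 := by rw [hs₀] at hsmall; linarith
      have h2 : s - 1 ≤ 1 := by linarith
      have h3 : Real.log (δ / 2) ≤ Real.log (s - 1) := Real.log_le_log (by linarith) h1
      have h4 : Real.log (s - 1) ≤ 0 := Real.log_nonpos (by linarith) h2
      rw [abs_of_nonpos h4, abs_of_nonpos (h3.trans h4)]
      linarith

end Analysis

variable (K : Type*) [Field K] [NumberField K] (m : ℕ) [NeZero m] (ψ : DirichletCharacter ℂ m)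

open scoped Classical

/-- the terms `#{ideals of norm l} · l ^ (-s)` -/
noncomputable def dscT (s : ℝ) (l : Nat.Primes) : ℝ :=
  (idealCount K (l : ℕ) : ℝ) * ((l : ℕ) : ℝ) ^ (-s)

lemma dscT_nonneg (s : ℝ) (l : Nat.Primes) : 0 ≤ dscT K s l :=
  mul_nonneg (Nat.cast_nonneg _) (Real.rpow_nonneg (Nat.cast_nonneg _) _)

lemma dscT_anti {s t : ℝ} (hst : s ≤ t) (l : Nat.Primes) : dscT K t l ≤ dscT K s l := by
  refine mul_le_mul_of_nonneg_left ?_ (Nat.cast_nonneg _)
  have h1 : (1 : ℝ) ≤ ((l : ℕ) : ℝ) := by exact_mod_cast l.2.one_lt.le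
  exact Real.rpow_le_rpow_of_exponent_le h1 (by linarith)

lemma dscT_le (s : ℝ) (hs : 0 ≤ s) (l : Nat.Primes) : dscT K s l ≤ (idealCount K (l : ℕ) : ℝ) := by
  refine mul_le_of_le_one_right (Nat.cast_nonneg _) ?_
  have h1 : (1 : ℝ) ≤ ((l : ℕ) : ℝ) := by exact_mod_cast l.2.one_lt.le
  exact Real.rpow_le_one_of_one_le_of_nonpos h1 (by linarith)

lemma dscT_summable {s : ℝ} (hs : 1 < s) : Summable (dscT K s) := zp_summable_primes K hs

/-- the sum over the primes not dividing `m` -/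
noncomputable def dscP0 (s : ℝ) : ℝ :=
  ∑' l : Nat.Primes, if IsUnit (((l : ℕ) : ZMod m)) then dscT K s l else 0

/-- the primes dividing `m` -/
noncomputable def dscBadPrimes : Finset Nat.Primes := (m.primeFactors).subtype Nat.Prime

lemma dsc_not_isUnit_iff (l : Nat.Primes) :
    ¬ IsUnit (((l : ℕ) : ZMod m)) ↔ l ∈ dscBadPrimes m := by
  rw [ZMod.isUnit_iff_coprime, l.2.coprime_iff_not_dvd, not_not, dscBadPrimes]
  constructor
  · intro h
    exact Finset.mem_subtype.mpr (Nat.mem_primeFactors.mpr ⟨l.2, h, NeZero.ne m⟩)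
  · intro h
    exact (Nat.mem_primeFactors.mp (Finset.mem_subtype.mp h)).2.1

/-- uniform asymptotics of the full prime sum -/
lemma dsc_full_bounded : ∃ C : ℝ, ∀ s : ℝ, 1 < s → s ≤ 2 →
    |(∑' l : Nat.Primes, dscT K s l) - Real.log (1 / (s - 1))| ≤ C := by
  refine dsc_bounded_of_isBigO _ (zp_primes_isBigO K) (fun s t hs hst => ?_) fun s _ => ?_
  · exact (dscT_summable K (lt_of_lt_of_le hs hst)).tsum_le_tsum (fun l => dscT_anti K hst l)
      (dscT_summable K hs)
  · exact tsum_nonneg fun l => dscT_nonneg K s l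

lemma dscP0_bounded : ∃ C : ℝ, ∀ s : ℝ, 1 < s → s ≤ 2 →
    |dscP0 K m s - Real.log (1 / (s - 1))| ≤ C := by
  obtain ⟨C, hC⟩ := dsc_full_bounded K
  refine ⟨C + ∑ l ∈ dscBadPrimes m, (idealCount K (l : ℕ) : ℝ), fun s hs hs2 => ?_⟩
  have hsumm := dscT_summable K hs
  have hgood : Summable fun l : Nat.Primes =>
      if IsUnit (((l : ℕ) : ZMod m)) then dscT K s l else 0 := by
    refine Summable.of_nonneg_of_le (fun l => ?_) (fun l => ?_) hsumm
    · split_ifs
      · exact dscT_nonneg K s l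
      · exact le_rfl
    · split_ifs
      · exact le_rfl
      · exact dscT_nonneg K s l
  have hbad : ∑' l : Nat.Primes, (if IsUnit (((l : ℕ) : ZMod m)) then 0 else dscT K s l) =
      ∑ l ∈ dscBadPrimes m, dscT K s l := by
    rw [tsum_eq_sum (s := dscBadPrimes m)]
    · refine Finset.sum_congr rfl fun l hl => ?_
      rw [if_neg ((dsc_not_isUnit_iff m l).mpr hl)]
    · intro l hl
      rw [if_pos]
      by_contra h
      exact hl ((dsc_not_isUnit_iff m l).mp h)
  have hbadS : Summable fun l : Nat.Primes =>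
      if IsUnit (((l : ℕ) : ZMod m)) then 0 else dscT K s l := by
    refine summable_of_ne_finset_zero (s := dscBadPrimes m) fun l hl => ?_
    rw [if_pos]
    by_contra h
    exact hl ((dsc_not_isUnit_iff m l).mp h)
  have hsplit : (∑' l : Nat.Primes, dscT K s l) =
      dscP0 K m s + ∑ l ∈ dscBadPrimes m, dscT K s l := by
    rw [dscP0, ← hbad, ← hgood.tsum_add hbadS]
    refine tsum_congr fun l => ?_
    split_ifs <;> simp
  have h1 := hC s hs hs2
  rw [hsplit] at h1
  have h2 : 0 ≤ ∑ l ∈ dscBadPrimes m, dscT K s l :=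
    Finset.sum_nonneg fun l _ => dscT_nonneg K s l
  have h3 : ∑ l ∈ dscBadPrimes m, dscT K s l ≤ ∑ l ∈ dscBadPrimes m, (idealCount K (l : ℕ) : ℝ) :=
    Finset.sum_le_sum fun l _ => dscT_le K s (by linarith) l
  rw [abs_le] at h1 ⊢
  constructor <;> linarith [h1.1, h1.2]

/-- `ψ` is trivial on the norm group -/
def dscTriv : Prop := ∀ u ∈ dscNormGroup K m, ψ ((u : (ZMod m)ˣ) : ZMod m) = 1

lemma dsc_nontrivial_of_not_triv (h : ¬ dscTriv K m ψ) :
    ∃ I : Ideal (𝓞 K), dscChi K m ψ I ≠ 0 ∧ dscChi K m ψ I ≠ 1 := by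
  by_contra hcon
  push Not at hcon
  apply h
  intro u hu
  have hle : dscNormGroup K m ≤ (MulChar.toUnitHom ψ).ker := by
    rw [dscNormGroup, Subgroup.closure_le]
    rintro v ⟨I, hI⟩
    rw [SetLike.mem_coe, MonoidHom.mem_ker, Units.ext_iff, MulChar.coe_toUnitHom, Units.val_one]
    have h0 : dscChi K m ψ I ≠ 0 := by
      rw [dscChi, ← hI]
      exact (v.isUnit.map ψ).ne_zero
    have := hcon I h0
    rwa [dscChi, ← hI] at this
  have := hle hu
  rw [MonoidHom.mem_ker, Units.ext_iff, MulChar.coe_toUnitHom, Units.val_one] at this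
  exact this

lemma dsc_triv_apply_prime (h : dscTriv K m ψ) (l : Nat.Primes) (hl : idealCount K (l : ℕ) ≠ 0) :
    ψ (((l : ℕ) : ZMod m)) = if IsUnit (((l : ℕ) : ZMod m)) then 1 else 0 := by
  split_ifs with hu
  · obtain ⟨u, hu'⟩ := hu
    rw [← hu']
    apply h
    apply Subgroup.subset_closure
    have hne : Nonempty {I : Ideal (𝓞 K) // Ideal.absNorm I = (l : ℕ)} := by
      by_contra hemp
      rw [not_nonempty_iff] at hemp
      apply hl
      rw [idealCount]
      exact Nat.card_of_isEmpty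
    obtain ⟨⟨I, hI⟩⟩ := hne
    exact ⟨I, by rw [hu', hI]⟩
  · exact MulChar.map_nonunit ψ hu

lemma dscP1_triv (h : dscTriv K m ψ) (s : ℝ) :
    dscP1 K m ψ s = ((dscP0 K m s : ℝ) : ℂ) := by
  rw [dscP1, dscP0, Complex.ofReal_tsum]
  refine tsum_congr fun l => ?_
  by_cases hl : idealCount K (l : ℕ) = 0
  · rw [dscT, hl]
    simp
  · rw [dsc_triv_apply_prime K m ψ h l hl]
    split_ifs
    · rw [one_mul]; rfl
    · rw [zero_mul]; simp

theorem dscP1_triv_bounded (h : dscTriv K m ψ) : ∃ C : ℝ, ∀ s : ℝ, 1 < s → s ≤ 2 →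
    ‖dscP1 K m ψ s - ((Real.log (1 / (s - 1)) : ℝ) : ℂ)‖ ≤ C := by
  obtain ⟨C, hC⟩ := dscP0_bounded K m
  refine ⟨C, fun s hs hs2 => ?_⟩
  rw [dscP1_triv K m ψ h, ← Complex.ofReal_sub, Complex.norm_real, Real.norm_eq_abs]
  exact hC s hs hs2

/-- the sum of a character over the norm group -/
lemma dsc_sum_normGroup :
    ∑ u : dscNormGroup K m, ψ (((u : (ZMod m)ˣ)) : ZMod m) =
      if dscTriv K m ψ then (Nat.card (dscNormGroup K m) : ℂ) else 0 := by
  split_ifs with h
  · rw [Finset.sum_congr rfl fun u _ => h u.1 u.2, Finset.sum_const, Finset.card_univ,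
      nsmul_eq_mul, mul_one, Nat.card_eq_fintype_card]
  · have hex : ∃ u₀ : dscNormGroup K m, ψ (((u₀ : (ZMod m)ˣ)) : ZMod m) ≠ 1 := by
      by_contra hcon
      push Not at hcon
      exact h fun u hu => hcon ⟨u, hu⟩
    obtain ⟨u₀, hu₀⟩ := hex
    have hshift : ∑ u : dscNormGroup K m, ψ (((u : (ZMod m)ˣ)) : ZMod m) =
        ψ (((u₀ : (ZMod m)ˣ)) : ZMod m) * ∑ u : dscNormGroup K m, ψ (((u : (ZMod m)ˣ)) : ZMod m) := by
      rw [Finset.mul_sum, ← Equiv.sum_comp (Equiv.mulLeft u₀)]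
      refine Finset.sum_congr rfl fun u _ => ?_
      rw [Equiv.coe_mulLeft, Subgroup.coe_mul, Units.val_mul, map_mul]
    have h2 : (1 - ψ (((u₀ : (ZMod m)ˣ)) : ZMod m)) *
        ∑ u : dscNormGroup K m, ψ (((u : (ZMod m)ˣ)) : ZMod m) = 0 := by
      rw [sub_mul, one_mul, ← hshift, sub_self]
    rcases mul_eq_zero.mp h2 with h3 | h3
    · exact absurd (sub_eq_zero.mp h3).symm hu₀
    · exact h3

/-- **counting the trivial characters**: `#{ψ trivial on H} · |H| = φ(m)` -/
theorem dsc_card_triv_mul :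
    ((Finset.univ.filter fun χ : DirichletCharacter ℂ m => dscTriv K m χ).card : ℂ) *
      (Nat.card (dscNormGroup K m) : ℂ) = (m.totient : ℂ) := by
  have h1 : ∑ u : dscNormGroup K m, ∑ χ : DirichletCharacter ℂ m, χ (((u : (ZMod m)ˣ)) : ZMod m) =
      (m.totient : ℂ) := by
    rw [Finset.sum_eq_single (1 : dscNormGroup K m)]
    · rw [DirichletCharacter.sum_characters_eq, if_pos]
      simp
    · intro u _ hu
      rw [DirichletCharacter.sum_characters_eq, if_neg]
      intro h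
      apply hu
      exact Subtype.ext (Units.ext h)
    · intro h
      exact absurd (Finset.mem_univ _) h
  rw [Finset.sum_comm] at h1
  rw [← h1, Finset.sum_congr rfl fun χ _ => dsc_sum_normGroup K m χ, ← Finset.sum_filter,
    Finset.sum_const, nsmul_eq_mul]

end Fermat.Agent.DS
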