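/-
DS-C (Chebotarev), file 14: the logarithm `dscE` of a character `ψ` which is not trivial on the norm
group stays bounded on `(1, 2]` (`dscE_bounded_of_not_triv`), under the lower bound `hLB` for the
primes in the class of `1`.  This is the non-vanishing `L(1, ψ) ≠ 0` together with a continuity
argument for the imaginary part (`dsc_log_bounded`).
-/
import Fermat.Agent.Lib.DS.Cheb.DirichletF2

set_option autoImplicit false
set_option linter.unusedSectionVars false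
set_option linter.style.haveILetI false

open NumberField IsDedekindDomain Filter Topology

namespace Fermat.Agent.DS

open Fermat.Agent.FrobDensity

section Analysis

/-- an interval of length `≥ π` contains a zero of the cosine -/
lemma dsc_exists_cos_eq_zero (x y : ℝ) (h : x + Real.pi ≤ y) :
    ∃ z : ℝ, x ≤ z ∧ z ≤ y ∧ Real.cos z = 0 := by
  have hpi := Real.pi_pos
  set k : ℤ := ⌈(x - Real.pi / 2) / Real.pi⌉ with hk
  refine ⟨(2 * (k : ℝ) + 1) * Real.pi / 2, ?_, ?_, Real.cos_eq_zero_iff.mpr ⟨k, rfl⟩⟩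
  · have h1 : (x - Real.pi / 2) / Real.pi ≤ (k : ℝ) := Int.le_ceil _
    rw [div_le_iff₀ hpi] at h1
    linarith
  · have h1 : (k : ℝ) < (x - Real.pi / 2) / Real.pi + 1 := Int.ceil_lt_add_one _
    rw [← sub_lt_iff_lt_add, lt_div_iff₀ hpi] at h1
    linarith

/-- a continuous function on an interval whose cosine does not vanish moves by less than `π` -/
lemma dsc_abs_sub_le_pi (θ : ℝ → ℝ) (a b : ℝ) (hθ : ContinuousOn θ (Set.Ioc a b))
    (hcos : ∀ s ∈ Set.Ioc a b, Real.cos (θ s) ≠ 0) (s : ℝ) (hs : s ∈ Set.Ioc a b) :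
    |θ s - θ b| ≤ Real.pi := by
  by_contra hcon
  rw [not_le] at hcon
  have hsub : Set.uIcc s b ⊆ Set.Ioc a b := by
    rw [Set.uIcc_of_le hs.2]
    exact fun t ht => ⟨lt_of_lt_of_le hs.1 ht.1, ht.2⟩
  have hivt := intermediate_value_uIcc (hθ.mono hsub)
  obtain ⟨z, hz1, hz2, hz0⟩ : ∃ z : ℝ, min (θ s) (θ b) ≤ z ∧ z ≤ max (θ s) (θ b) ∧
      Real.cos z = 0 := by
    apply dsc_exists_cos_eq_zero
    rcases le_total (θ s) (θ b) with h | h
    · rw [min_eq_left h, max_eq_right h]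
      rw [abs_sub_comm, abs_of_nonneg (sub_nonneg.mpr h)] at hcon
      linarith
    · rw [min_eq_right h, max_eq_left h]
      rw [abs_of_nonneg (sub_nonneg.mpr h)] at hcon
      linarith
  obtain ⟨t, ht, rfl⟩ := hivt (Set.mem_uIcc.mpr (by
    rcases le_total (θ s) (θ b) with h | h
    · left; rw [min_eq_left h] at hz1; rw [max_eq_right h] at hz2; exact ⟨hz1, hz2⟩
    · right; rw [min_eq_right h] at hz1; rw [max_eq_left h] at hz2; exact ⟨hz1, hz2⟩))
  exact hcos t (hsub ht) hz0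

/-- **a continuous logarithm of a function with a non-zero limit stays bounded** -/
theorem dsc_log_bounded (E g : ℝ → ℂ) (hE : ContinuousOn E (Set.Ioc 1 2))
    (hg : ContinuousOn g (Set.Icc 1 2))
    (hexp : ∀ s ∈ Set.Ioc (1 : ℝ) 2, Complex.exp (E s) = g s) (h1 : g 1 ≠ 0) :
    ∃ C : ℝ, ∀ s ∈ Set.Ioc (1 : ℝ) 2, ‖E s‖ ≤ C := by
  have hn1 : 0 < ‖g 1‖ := norm_pos_iff.mpr h1
  -- a neighbourhood of `1` on which `g` is close to `g 1`
  have hcw : ContinuousWithinAt g (Set.Icc 1 2) 1 := hg 1 (Set.left_mem_Icc.mpr one_le_two)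
  obtain ⟨δ, hδ, hδg⟩ := Metric.continuousWithinAt_iff.mp hcw (‖g 1‖ / 2) (by positivity)
  set s₀ : ℝ := min 2 (1 + δ / 2) with hs₀
  have hs₀1 : 1 < s₀ := lt_min one_lt_two (by linarith)
  have hs₀2 : s₀ ≤ 2 := min_le_left _ _
  have hs₀mem : s₀ ∈ Set.Ioc (1 : ℝ) s₀ := ⟨hs₀1, le_rfl⟩
  have hsub : Set.Ioc 1 s₀ ⊆ Set.Ioc (1 : ℝ) 2 := fun t ht => ⟨ht.1, ht.2.trans hs₀2⟩
  have hclose : ∀ s ∈ Set.Ioc 1 s₀, ‖g s - g 1‖ < ‖g 1‖ / 2 := by
    intro s hs
    have h := hδg (x := s) ⟨hs.1.le, hs.2.trans hs₀2⟩ (by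
      rw [Real.dist_eq, abs_of_pos (sub_pos.mpr hs.1)]
      have : s₀ ≤ 1 + δ / 2 := min_le_right _ _
      linarith [hs.2])
    rwa [dist_eq_norm] at h
  set ℓ₀ : ℂ := Complex.log (g 1) with hℓ₀
  have hexp0 : Complex.exp ℓ₀ = g 1 := Complex.exp_log h1
  -- the quotient `w = g s / g 1 = exp (E s - ℓ₀)`
  have hw : ∀ s ∈ Set.Ioc 1 s₀, Complex.exp (E s - ℓ₀) = g s / g 1 := by
    intro s hs
    rw [Complex.exp_sub, hexp s (hsub hs), hexp0]
  have hw1 : ∀ s ∈ Set.Ioc 1 s₀, ‖g s / g 1 - 1‖ < 1 / 2 := by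
    intro s hs
    have e : g s / g 1 - 1 = (g s - g 1) / g 1 := by field_simp
    rw [e, norm_div, div_lt_iff₀ hn1]
    linarith [hclose s hs]
  -- the real part
  have hre : ∀ s ∈ Set.Ioc 1 s₀, |(E s).re - ℓ₀.re| ≤ Real.log 2 := by
    intro s hs
    have h2 := hw1 s hs
    have hnorm : ‖g s / g 1‖ = Real.exp ((E s).re - ℓ₀.re) := by
      rw [← hw s hs, Complex.norm_exp, Complex.sub_re]
    have hup : ‖g s / g 1‖ ≤ 2 := by
      have := norm_le_insert' (g s / g 1) 1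
      rw [norm_one] at this
      linarith
    have hlow : 1 / 2 ≤ ‖g s / g 1‖ := by
      have := norm_sub_norm_le (1 : ℂ) (g s / g 1)
      rw [norm_one, norm_sub_rev] at this
      linarith
    rw [hnorm] at hup hlow
    rw [abs_le]
    constructor
    · have := Real.log_le_log (by norm_num) hlow
      rw [Real.log_exp, one_div, Real.log_inv] at this
      exact this
    · have := Real.log_le_log (Real.exp_pos _) hup
      rwa [Real.log_exp] at this
  -- the imaginary part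
  have hcos : ∀ s ∈ Set.Ioc 1 s₀, Real.cos ((E s).im - ℓ₀.im) ≠ 0 := by
    intro s hs hzero
    have h2 := hw1 s hs
    have hre0 : (g s / g 1).re = 0 := by
      rw [← hw s hs, Complex.exp_re, Complex.sub_im, hzero, mul_zero]
    have h3 : |(g s / g 1 - 1).re| ≤ ‖g s / g 1 - 1‖ := Complex.abs_re_le_norm _
    rw [Complex.sub_re, hre0, Complex.one_re, zero_sub, abs_neg, abs_one] at h3
    linarith
  have hθc : ContinuousOn (fun s => (E s).im - ℓ₀.im) (Set.Ioc 1 s₀) :=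
    ((Complex.continuous_im.comp_continuousOn hE).mono hsub).sub continuousOn_const
  have him : ∀ s ∈ Set.Ioc 1 s₀, |(E s).im - (E s₀).im| ≤ Real.pi := by
    intro s hs
    have := dsc_abs_sub_le_pi (fun s => (E s).im - ℓ₀.im) 1 s₀ hθc hcos s hs
    simpa using this
  -- the compact part
  obtain ⟨C₁, hC₁⟩ := (isCompact_Icc (a := s₀) (b := 2)).exists_bound_of_continuousOn
    (hE.mono fun t ht => ⟨lt_of_lt_of_le hs₀1 ht.1, ht.2⟩)
  refine ⟨max C₁ ((|ℓ₀.re| + Real.log 2) + (|(E s₀).im| + Real.pi)), fun s hs => ?_⟩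
  by_cases hss : s ≤ s₀
  · refine le_trans ?_ (le_max_right _ _)
    have hmem : s ∈ Set.Ioc 1 s₀ := ⟨hs.1, hss⟩
    refine (Complex.norm_le_abs_re_add_abs_im _).trans (add_le_add ?_ ?_)
    · have := hre s hmem
      calc |(E s).re| = |((E s).re - ℓ₀.re) + ℓ₀.re| := by rw [sub_add_cancel]
        _ ≤ |(E s).re - ℓ₀.re| + |ℓ₀.re| := abs_add_le _ _
        _ ≤ _ := by linarith
    · have := him s hmem
      calc |(E s).im| = |((E s).im - (E s₀).im) + (E s₀).im| := by rw [sub_add_cancel]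
        _ ≤ |(E s).im - (E s₀).im| + |(E s₀).im| := abs_add_le _ _
        _ ≤ _ := by linarith
  · rw [not_le] at hss
    exact (hC₁ s ⟨hss.le, hs.2⟩).trans (le_max_left _ _)

end Analysis

variable (K : Type*) [Field K] [NumberField K] (m : ℕ) [NeZero m] (ψ : DirichletCharacter ℂ m)

open scoped Classical

lemma dscLocal_continuous (p : HeightOneSpectrum (𝓞 K)) :
    Continuous fun s : ℝ => dscLocal K m ψ s p := by
  have hne : ((Ideal.absNorm p.asIdeal : ℕ) : ℝ) ≠ 0 := by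
    rw [Nat.cast_ne_zero, Ne, Ideal.absNorm_eq_zero_iff]
    exact p.ne_bot
  unfold dscLocal dscTerm
  exact continuous_const.mul
    (Complex.continuous_ofReal.comp ((Real.continuous_const_rpow hne).comp continuous_neg))

lemma dscE_term_norm_le {s : ℝ} (hs : 1 ≤ s) (p : HeightOneSpectrum (𝓞 K)) :
    ‖-Complex.log (1 - dscLocal K m ψ s p)‖ ≤ 3 / 2 * zpX K s p := by
  have h1 := dscLocal_norm_le_half K m ψ hs p
  have h2 := Complex.norm_log_one_add_half_le_self (z := -dscLocal K m ψ s p)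
    (by rw [norm_neg]; exact h1)
  rw [norm_neg, ← sub_eq_add_neg] at h2
  rw [norm_neg]
  exact h2.trans (mul_le_mul_of_nonneg_left (dscLocal_norm_le K m ψ s p) (by norm_num))

/-- the logarithm of the Euler product is continuous on `(1, ∞)` -/
lemma dscE_continuousOn : ContinuousOn (dscE K m ψ) (Set.Ioi 1) := by
  intro s hs
  have hs' : (1 : ℝ) < s := hs
  have hs1 : (1 : ℝ) < (1 + s) / 2 := by linarith
  have hcont : ContinuousOn (dscE K m ψ) (Set.Ici ((1 + s) / 2)) := by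
    show ContinuousOn (fun t : ℝ => ∑' p, -Complex.log (1 - dscLocal K m ψ t p))
      (Set.Ici ((1 + s) / 2))
    refine continuousOn_tsum (u := fun p => 3 / 2 * zpX K ((1 + s) / 2) p) (fun p => ?_)
      ((zpX_summable K hs1).mul_left _) fun p t ht => ?_
    · refine ContinuousOn.neg (ContinuousOn.clog ?_ fun t ht => ?_)
      · exact (continuous_const.sub (dscLocal_continuous K m ψ p)).continuousOn
      · have ht1 : (1 : ℝ) ≤ t := hs1.le.trans ht
        have hlt : ‖-dscLocal K m ψ t p‖ < 1 := by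
          rw [norm_neg]
          exact lt_of_le_of_lt (dscLocal_norm_le_half K m ψ ht1 p) (by norm_num)
        have := Complex.mem_slitPlane_of_norm_lt_one hlt
        rwa [← sub_eq_add_neg] at this
    · have ht1 : (1 : ℝ) ≤ t := hs1.le.trans ht
      exact (dscE_term_norm_le K m ψ ht1 p).trans
        (mul_le_mul_of_nonneg_left (zpX_anti K ht p) (by norm_num))
  exact (hcont.continuousAt (Ici_mem_nhds (by linarith))).continuousWithinAt

lemma dscE_re {s : ℝ} (hs : 1 < s) : (dscE K m ψ s).re = Real.log ‖dscL K m ψ s‖ := by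
  rw [← dsc_exp_dscE K m ψ hs, Complex.norm_exp, Real.log_exp]

/-- (N1) the logarithm of a non-trivial character is bounded above -/
lemma dscE_re_le_of_not_triv [IsTotallyComplex K] (h : ¬ dscTriv K m ψ) :
    ∃ C : ℝ, ∀ s : ℝ, 1 < s → s ≤ 2 → (dscE K m ψ s).re ≤ C := by
  obtain ⟨g, hg, hgL⟩ := dscL_cont K m ψ (dsc_nontrivial_of_not_triv K m ψ h)
  obtain ⟨C, hC⟩ := isCompact_Icc.exists_bound_of_continuousOn hg
  refine ⟨C, fun s hs hs2 => ?_⟩
  have h1 : ‖dscL K m ψ s‖ ≤ C := by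
    rw [hgL s ⟨hs, hs2⟩]
    exact hC s ⟨hs.le, hs2⟩
  rw [← dsc_exp_dscE K m ψ hs, Complex.norm_exp] at h1
  linarith [Real.add_one_le_exp (dscE K m ψ s).re]

/-- (N3) the logarithm of a trivial character is at most `log (1 / (s - 1)) + O(1)` -/
lemma dscE_re_le_of_triv (h : dscTriv K m ψ) :
    ∃ C : ℝ, ∀ s : ℝ, 1 < s → s ≤ 2 → (dscE K m ψ s).re ≤ Real.log (1 / (s - 1)) + C := by
  obtain ⟨C₁, hC₁⟩ := dscE_sub_dscP1_bounded K m ψ
  obtain ⟨C₂, hC₂⟩ := dscP1_triv_bounded K m ψ h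
  refine ⟨C₁ + C₂, fun s hs hs2 => ?_⟩
  have h1 := hC₁ s hs
  have h2 := hC₂ s hs hs2
  have h3 : ‖dscE K m ψ s - ((Real.log (1 / (s - 1)) : ℝ) : ℂ)‖ ≤ C₁ + C₂ := by
    calc ‖dscE K m ψ s - ((Real.log (1 / (s - 1)) : ℝ) : ℂ)‖
        = ‖(dscE K m ψ s - dscP1 K m ψ s) +
            (dscP1 K m ψ s - ((Real.log (1 / (s - 1)) : ℝ) : ℂ))‖ := by congr 1; ring
      _ ≤ _ := (norm_add_le _ _).trans (add_le_add h1 h2)
  have h4 := (Complex.abs_re_le_norm _).trans h3
  rw [Complex.sub_re, Complex.ofReal_re, abs_le] at h4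
  linarith [h4.2]

/-- (N2) the sum of all the logarithms dominates the primes in the class of `1` -/
lemma dsc_sum_re_dscE_ge : ∃ C : ℝ, ∀ s : ℝ, 1 < s →
    (m.totient : ℝ) * dscPrimeSum K m 1 s - C ≤
      ∑ χ : DirichletCharacter ℂ m, (dscE K m χ s).re := by
  choose C hC using fun χ : DirichletCharacter ℂ m => dscE_sub_dscP1_bounded K m χ
  refine ⟨∑ χ, C χ, fun s hs => ?_⟩
  have horth := dsc_sum_inv_mul_dscP1 K m 1 hs
  have hone : (1 : ZMod m)⁻¹ = 1 := ZMod.inv_one m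
  simp only [Units.val_one, hone, map_one, one_mul] at horth
  have hre : ∑ χ : DirichletCharacter ℂ m, (dscP1 K m χ s).re =
      (m.totient : ℝ) * dscPrimeSum K m 1 s := by
    have := congrArg Complex.re horth
    rw [Complex.re_sum] at this
    rw [this, ← Complex.ofReal_natCast, ← Complex.ofReal_mul, Complex.ofReal_re]
  rw [← hre, ← Finset.sum_sub_distrib]
  refine Finset.sum_le_sum fun χ _ => ?_
  have h1 := (Complex.abs_re_le_norm _).trans (hC χ s hs)
  rw [Complex.sub_re, abs_le] at h1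
  linarith [h1.1]

/-- (N4), (N5): the real part of the logarithm of a non-trivial character is bounded -/
theorem dscE_re_bounded_of_not_triv [IsTotallyComplex K]
    (hLB : ∃ C : ℝ, ∀ s : ℝ, 1 < s → s ≤ 2 →
      (Nat.card (dscNormGroup K m) : ℝ)⁻¹ * Real.log (1 / (s - 1)) - C ≤ dscPrimeSum K m 1 s)
    (h : ¬ dscTriv K m ψ) :
    ∃ C : ℝ, ∀ s : ℝ, 1 < s → s ≤ 2 → |(dscE K m ψ s).re| ≤ C := by
  obtain ⟨C₀, hC₀⟩ := hLB
  obtain ⟨C₂, hC₂⟩ := dsc_sum_re_dscE_ge K m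
  have hU : ∀ χ : DirichletCharacter ℂ m, ∃ C : ℝ, ∀ s : ℝ, 1 < s → s ≤ 2 →
      (dscE K m χ s).re ≤ (if dscTriv K m χ then Real.log (1 / (s - 1)) else 0) + C := by
    intro χ
    by_cases hχ : dscTriv K m χ
    · obtain ⟨C, hC⟩ := dscE_re_le_of_triv K m χ hχ
      exact ⟨C, fun s hs hs2 => by rw [if_pos hχ]; exact hC s hs hs2⟩
    · obtain ⟨C, hC⟩ := dscE_re_le_of_not_triv K m χ hχ
      exact ⟨C, fun s hs hs2 => by rw [if_neg hχ, zero_add]; exact hC s hs hs2⟩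
  choose U hU using hU
  set T : ℝ :=
    ((Finset.univ.filter fun χ : DirichletCharacter ℂ m => dscTriv K m χ).card : ℝ) with hT
  have hcard : (m.totient : ℝ) * (Nat.card (dscNormGroup K m) : ℝ)⁻¹ = T := by
    have h1 := dsc_card_triv_mul K m
    have h2 : T * (Nat.card (dscNormGroup K m) : ℝ) = (m.totient : ℝ) := by
      rw [hT]; exact_mod_cast h1
    have h3 : (Nat.card (dscNormGroup K m) : ℝ) ≠ 0 := by
      have : 0 < Nat.card (dscNormGroup K m) := Nat.card_pos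
      positivity
    rw [← h2, mul_assoc, mul_inv_cancel₀ h3, mul_one]
  refine ⟨|U ψ| + |(m.totient : ℝ) * C₀ + C₂ + ∑ χ ∈ Finset.univ.erase ψ, U χ|,
    fun s hs hs2 => ?_⟩
  set L := Real.log (1 / (s - 1)) with hL
  have hup : (dscE K m ψ s).re ≤ U ψ := by
    have := hU ψ s hs hs2
    rwa [if_neg h, zero_add] at this
  have hite : ∑ χ ∈ Finset.univ.erase ψ, (if dscTriv K m χ then L else 0) = T * L := by
    have h1 : ∑ χ : DirichletCharacter ℂ m, (if dscTriv K m χ then L else 0) =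
        (if dscTriv K m ψ then L else 0) +
          ∑ χ ∈ Finset.univ.erase ψ, if dscTriv K m χ then L else 0 :=
      (Finset.add_sum_erase _ _ (Finset.mem_univ ψ)).symm
    rw [if_neg h, zero_add] at h1
    rw [← h1, ← Finset.sum_filter, Finset.sum_const, nsmul_eq_mul]
  have hsum : ∑ χ : DirichletCharacter ℂ m, (dscE K m χ s).re ≤
      (dscE K m ψ s).re + (T * L + ∑ χ ∈ Finset.univ.erase ψ, U χ) := by
    rw [← Finset.add_sum_erase Finset.univ _ (Finset.mem_univ ψ)]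
    refine add_le_add le_rfl ?_
    calc ∑ χ ∈ Finset.univ.erase ψ, (dscE K m χ s).re
        ≤ ∑ χ ∈ Finset.univ.erase ψ, ((if dscTriv K m χ then L else 0) + U χ) :=
          Finset.sum_le_sum fun χ _ => hU χ s hs hs2
      _ = T * L + ∑ χ ∈ Finset.univ.erase ψ, U χ := by rw [Finset.sum_add_distrib, hite]
  have hlow := hC₂ s hs
  have hlb := hC₀ s hs hs2
  have hφ : (0 : ℝ) ≤ m.totient := Nat.cast_nonneg _
  have hmul : (m.totient : ℝ) * ((Nat.card (dscNormGroup K m) : ℝ)⁻¹ * L - C₀) ≤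
      (m.totient : ℝ) * dscPrimeSum K m 1 s := mul_le_mul_of_nonneg_left hlb hφ
  rw [mul_sub, ← mul_assoc, hcard] at hmul
  rw [abs_le]
  constructor
  · have h1 := le_abs_self ((m.totient : ℝ) * C₀ + C₂ + ∑ χ ∈ Finset.univ.erase ψ, U χ)
    have h2 := abs_nonneg (U ψ)
    linarith
  · have h1 := le_abs_self (U ψ)
    have h2 := abs_nonneg ((m.totient : ℝ) * C₀ + C₂ + ∑ χ ∈ Finset.univ.erase ψ, U χ)
    linarith

/-- **the logarithm of a non-trivial character is bounded** (in particular `L(1, ψ) ≠ 0`) -/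
theorem dscE_bounded_of_not_triv [IsTotallyComplex K]
    (hLB : ∃ C : ℝ, ∀ s : ℝ, 1 < s → s ≤ 2 →
      (Nat.card (dscNormGroup K m) : ℝ)⁻¹ * Real.log (1 / (s - 1)) - C ≤ dscPrimeSum K m 1 s)
    (h : ¬ dscTriv K m ψ) :
    ∃ C : ℝ, ∀ s : ℝ, 1 < s → s ≤ 2 → ‖dscE K m ψ s‖ ≤ C := by
  obtain ⟨g, hg, hgL⟩ := dscL_cont K m ψ (dsc_nontrivial_of_not_triv K m ψ h)
  obtain ⟨R, hR⟩ := dscE_re_bounded_of_not_triv K m ψ hLB h
  have hge : ∀ s ∈ Set.Ioc (1 : ℝ) 2, Real.exp (-R) ≤ ‖g s‖ := by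
    intro s hs
    rw [← hgL s hs, ← dsc_exp_dscE K m ψ hs.1, Complex.norm_exp]
    exact Real.exp_le_exp.mpr (by linarith [(abs_le.mp (hR s hs.1 hs.2)).1])
  have hg1 : g 1 ≠ 0 := by
    have hcw : ContinuousWithinAt g (Set.Ioc 1 2) 1 :=
      (hg 1 (Set.left_mem_Icc.mpr one_le_two)).mono Set.Ioc_subset_Icc_self
    haveI := left_nhdsWithin_Ioc_neBot (one_lt_two : (1 : ℝ) < 2)
    have hle : Real.exp (-R) ≤ ‖g 1‖ :=
      ge_of_tendsto hcw.tendsto.norm (eventually_nhdsWithin_of_forall hge)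
    intro h0
    rw [h0, norm_zero] at hle
    exact absurd hle (not_le.mpr (Real.exp_pos _))
  obtain ⟨C, hC⟩ := dsc_log_bounded (dscE K m ψ) g
    ((dscE_continuousOn K m ψ).mono fun s hs => hs.1) hg
    (fun s hs => by rw [dsc_exp_dscE K m ψ hs.1, hgL s hs]) hg1
  exact ⟨C, fun s hs hs2 => hC s ⟨hs, hs2⟩⟩

theorem dscP1_bounded_of_not_triv [IsTotallyComplex K]
    (hLB : ∃ C : ℝ, ∀ s : ℝ, 1 < s → s ≤ 2 →
      (Nat.card (dscNormGroup K m) : ℝ)⁻¹ * Real.log (1 / (s - 1)) - C ≤ dscPrimeSum K m 1 s)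
    (h : ¬ dscTriv K m ψ) :
    ∃ C : ℝ, ∀ s : ℝ, 1 < s → s ≤ 2 → ‖dscP1 K m ψ s‖ ≤ C := by
  obtain ⟨C₁, hC₁⟩ := dscE_bounded_of_not_triv K m ψ hLB h
  obtain ⟨C₂, hC₂⟩ := dscE_sub_dscP1_bounded K m ψ
  refine ⟨C₁ + C₂, fun s hs hs2 => ?_⟩
  calc ‖dscP1 K m ψ s‖ = ‖dscE K m ψ s - (dscE K m ψ s - dscP1 K m ψ s)‖ := by
        congr 1; ring
    _ ≤ _ := (norm_sub_le _ _).trans (add_le_add (hC₁ s hs hs2) (hC₂ s hs))

end Fermat.Agent.DS
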