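/-
DS-C (Chebotarev), file 15: **(C5) the Dirichlet-density form of the theorem on primes in the norm
classes** (`dsc_dirichlet`): if the primes `l ≡ 1 (mod m)` (counted with the number of prime ideals
of `F` of norm `l`) have the full density `1 / |H|`, `H = dscNormGroup F m` the group generated by
the norms of ideals, then so do the primes `l ≡ a (mod m)`, for every `a ∈ H`.
-/
import Fermat.Agent.Lib.DS.Cheb.DirichletF3

set_option autoImplicit false
set_option linter.unusedSectionVars false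
set_option linter.style.haveILetI false

open NumberField IsDedekindDomain Filter Topology

namespace Fermat.Agent.DS

open Fermat.Agent.FrobDensity

open scoped Classical

lemma dsc_triv_inv (K : Type*) [Field K] [NumberField K] (m : ℕ) [NeZero m]
    (χ : DirichletCharacter ℂ m) (hχ : dscTriv K m χ) (a : (ZMod m)ˣ)
    (ha : a ∈ dscNormGroup K m) : χ ((a : ZMod m)⁻¹) = 1 := by
  rw [ZMod.inv_coe_unit]
  exact hχ a⁻¹ (inv_mem ha)

/-- **(C5)** Dirichlet's theorem for the norm classes, in the Dirichlet-density form. -/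
theorem dsc_dirichlet (F : Type*) [Field F] [NumberField F] [IsTotallyComplex F] (m : ℕ) [NeZero m]
    (hLB : ∃ C : ℝ, ∀ s : ℝ, 1 < s → s ≤ 2 →
      (Nat.card (dscNormGroup F m) : ℝ)⁻¹ * Real.log (1 / (s - 1)) - C ≤ dscPrimeSum F m 1 s)
    (a : (ZMod m)ˣ) (ha : a ∈ dscNormGroup F m) :
    ∃ C : ℝ, ∀ s : ℝ, 1 < s → s ≤ 2 →
      |dscPrimeSum F m (a : ZMod m) s -
        (Nat.card (dscNormGroup F m) : ℝ)⁻¹ * Real.log (1 / (s - 1))| ≤ C := by
  have hB : ∀ χ : DirichletCharacter ℂ m, ∃ C : ℝ, ∀ s : ℝ, 1 < s → s ≤ 2 →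
      ‖χ ((a : ZMod m)⁻¹) * dscP1 F m χ s -
        (if dscTriv F m χ then ((Real.log (1 / (s - 1)) : ℝ) : ℂ) else 0)‖ ≤ C := by
    intro χ
    by_cases hχ : dscTriv F m χ
    · obtain ⟨C, hC⟩ := dscP1_triv_bounded F m χ hχ
      refine ⟨C, fun s hs hs2 => ?_⟩
      rw [if_pos hχ, dsc_triv_inv F m χ hχ a ha, one_mul]
      exact hC s hs hs2
    · obtain ⟨C, hC⟩ := dscP1_bounded_of_not_triv F m χ hLB hχ
      refine ⟨C, fun s hs hs2 => ?_⟩
      rw [if_neg hχ, sub_zero, norm_mul]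
      calc ‖χ ((a : ZMod m)⁻¹)‖ * ‖dscP1 F m χ s‖ ≤ 1 * ‖dscP1 F m χ s‖ :=
            mul_le_mul_of_nonneg_right (DirichletCharacter.norm_le_one χ _) (norm_nonneg _)
        _ = ‖dscP1 F m χ s‖ := one_mul _
        _ ≤ C := hC s hs hs2
  choose B hB using hB
  set T : ℝ :=
    ((Finset.univ.filter fun χ : DirichletCharacter ℂ m => dscTriv F m χ).card : ℝ) with hT
  have hH : (Nat.card (dscNormGroup F m) : ℝ) ≠ 0 := by
    have : 0 < Nat.card (dscNormGroup F m) := Nat.card_pos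
    positivity
  have hcard : T * (Nat.card (dscNormGroup F m) : ℝ) = (m.totient : ℝ) := by
    have h1 := dsc_card_triv_mul F m
    rw [hT]
    exact_mod_cast h1
  have hφpos : 0 < (m.totient : ℝ) := Nat.cast_pos.mpr (Nat.totient_pos.mpr (NeZero.pos m))
  refine ⟨(∑ χ, B χ) / m.totient, fun s hs hs2 => ?_⟩
  set L := Real.log (1 / (s - 1)) with hL
  have horth := dsc_sum_inv_mul_dscP1 F m a hs
  have hid : (((m.totient : ℝ) * dscPrimeSum F m (a : ZMod m) s - T * L : ℝ) : ℂ) =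
      ∑ χ : DirichletCharacter ℂ m, (χ ((a : ZMod m)⁻¹) * dscP1 F m χ s -
        (if dscTriv F m χ then ((L : ℝ) : ℂ) else 0)) := by
    rw [Finset.sum_sub_distrib, horth, ← Finset.sum_filter, Finset.sum_const, nsmul_eq_mul, hT]
    push_cast
    rfl
  have hnorm : |(m.totient : ℝ) * dscPrimeSum F m (a : ZMod m) s - T * L| ≤ ∑ χ, B χ := by
    rw [← Real.norm_eq_abs, ← Complex.norm_real, hid]
    exact (norm_sum_le _ _).trans (Finset.sum_le_sum fun χ _ => hB χ s hs hs2)
  have hdiv : dscPrimeSum F m (a : ZMod m) s - (Nat.card (dscNormGroup F m) : ℝ)⁻¹ * L =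
      ((m.totient : ℝ) * dscPrimeSum F m (a : ZMod m) s - T * L) / m.totient := by
    rw [← hcard]
    have hT0 : T * (Nat.card (dscNormGroup F m) : ℝ) ≠ 0 := by rw [hcard]; exact hφpos.ne'
    have hT1 : T ≠ 0 := left_ne_zero_of_mul hT0
    field_simp
  rw [hdiv, abs_div, abs_of_pos hφpos]
  exact div_le_div_of_nonneg_right hnorm hφpos.le

end Fermat.Agent.DS
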