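/-
DS-C (Chebotarev), file 9: **the interface theorem**.  For a totally complex number field `K`, a
modulus `m` and a Dirichlet character `ψ` modulo `m` such that `ψ ∘ N` is a nontrivial character on
the ideals of `𝓞 K`, the `L`-series `dscL K m ψ s = ∑_I ψ(N I) N I ^ (-s)` extends continuously to
`[1, 2]` (`dscL_cont`).
-/
import Fermat.Agent.Lib.DS.Cheb.ClassSum

set_option autoImplicit false
set_option linter.unusedSectionVars false
set_option linter.style.haveILetI false

open NumberField NumberField.mixedEmbedding NumberField.Units Module Filter Topology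

namespace Fermat.Agent.DS

open Fermat.Agent.FrobDensity

variable (K : Type*) [Field K] [NumberField K] (m : ℕ) [NeZero m] (ψ : DirichletCharacter ℂ m)

open scoped Classical

/-- the `L`-series of `ψ ∘ N` -/
noncomputable def dscL (s : ℝ) : ℂ := ∑' I : DscIdeal K, dscTerm K m ψ s I.1

/-- splitting into ideal classes -/
lemma dscL_eq_sum_classSum {s : ℝ} (hs : 1 < s) :
    dscL K m ψ s = ∑ c : ClassGroup (𝓞 K), dscClassSum K m ψ c s := by
  have hsumm : ∀ c : ClassGroup (𝓞 K), Summable fun I : DscIdeal K =>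
      if dscCls K I = c then dscTerm K m ψ s I.1 else 0 := by
    intro c
    refine Summable.of_norm (Summable.of_nonneg_of_le (fun _ => norm_nonneg _) (fun I => ?_)
      (dscTerm_summable K m ψ hs))
    split_ifs
    · exact le_rfl
    · rw [norm_zero]; exact norm_nonneg _
  simp only [dscL, dscClassSum]
  rw [← Summable.tsum_finsetSum fun c _ => hsumm c]
  refine tsum_congr fun I => ?_
  rw [Finset.sum_ite_eq Finset.univ (dscCls K I) fun _ => dscTerm K m ψ s I.1]
  simp

/-- representatives, prime to `m`, of the inverses of the ideal classes -/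
lemma dsc_exists_rep_inv (c : ClassGroup (𝓞 K)) :
    ∃ 𝔟 : DscIdeal K, (dscCls K 𝔟)⁻¹ = c ∧ 𝔟.1 ⊔ Ideal.span {(m : 𝓞 K)} = ⊤ := by
  obtain ⟨𝔟, h𝔟, hc, hcop⟩ := dsc_exists_coprime_rep K m c⁻¹
  exact ⟨⟨𝔟, h𝔟⟩, by rw [dscCls, hc, inv_inv], hcop⟩

/-- the chosen representative of `c⁻¹` -/
noncomputable def dscClsRep (c : ClassGroup (𝓞 K)) : DscIdeal K := (dsc_exists_rep_inv K m c).choose

lemma dscClsRep_cls (c : ClassGroup (𝓞 K)) : (dscCls K (dscClsRep K m c))⁻¹ = c :=
  (dsc_exists_rep_inv K m c).choose_spec.1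

lemma dscClsRep_coprime (c : ClassGroup (𝓞 K)) :
    (dscClsRep K m c).1 ⊔ Ideal.span {(m : 𝓞 K)} = ⊤ :=
  (dsc_exists_rep_inv K m c).choose_spec.2

lemma dscClsRep_norm_pos (c : ClassGroup (𝓞 K)) :
    (0 : ℝ) < (Ideal.absNorm (dscClsRep K m c).1 : ℝ) := by
  have : Ideal.absNorm (dscClsRep K m c).1 ≠ 0 := by
    rw [Ne, Ideal.absNorm_eq_zero_iff]; exact (dscClsRep K m c).2
  exact_mod_cast Nat.pos_of_ne_zero this

/-- the coefficient function `A(s) = ∑_c a_c · N 𝔟_c ^ (s - 1)` -/
noncomputable def dscA (s : ℝ) : ℂ :=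
  ∑ c : ClassGroup (𝓞 K), (dscChi K m ψ (dscClsRep K m c).1)⁻¹ * dscS0 K m ψ * dscKappa K m *
    (((Ideal.absNorm (dscClsRep K m c).1 : ℝ) ^ (s - 1) : ℝ) : ℂ)

/-- `L = A · Z₁ +` continuous -/
theorem dscL_sub_cont [IsTotallyComplex K] :
    DscCont fun s => dscL K m ψ s - dscA K m ψ s * ((dscZ K ⊤ 0 s : ℝ) : ℂ) := by
  have h : DscCont fun s => ∑ c : ClassGroup (𝓞 K), (dscClassSum K m ψ c s -
      (dscChi K m ψ (dscClsRep K m c).1)⁻¹ * dscS0 K m ψ * dscKappa K m *
      (((Ideal.absNorm (dscClsRep K m c).1 : ℝ) ^ (s - 1) : ℝ) : ℂ) *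
        ((dscZ K ⊤ 0 s : ℝ) : ℂ)) := by
    refine DscCont.sum _ fun c _ => ?_
    have := dscClassSum_cont K m ψ (dscClsRep K m c) (dscClsRep_coprime K m c)
    rw [dscClsRep_cls] at this
    exact this
  refine h.congr fun s hs => ?_
  rw [dscL_eq_sum_classSum K m ψ hs.1, dscA, Finset.sum_mul, ← Finset.sum_sub_distrib]

lemma dscA_differentiable : Differentiable ℝ (dscA K m ψ) := by
  unfold dscA
  refine Differentiable.fun_sum fun c _ => ?_
  refine (differentiable_const _).mul ?_
  have h1 : Differentiable ℝ fun s : ℝ => (Ideal.absNorm (dscClsRep K m c).1 : ℝ) ^ (s - 1) :=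
    (differentiable_const _).rpow (differentiable_id.sub_const 1)
      fun _ => (dscClsRep_norm_pos K m c).ne'
  exact Complex.ofRealCLM.differentiable.comp h1

/-- if `A(1) = 0` then `A(s) = (s - 1) · B(s)` with `B` continuous -/
lemma dscA_eq_mul (h1 : dscA K m ψ 1 = 0) :
    ∃ B : ℝ → ℂ, Continuous B ∧ ∀ s, dscA K m ψ s = ((s - 1 : ℝ) : ℂ) * B s := by
  refine ⟨dslope (dscA K m ψ) 1, ?_, fun s => ?_⟩
  · have := (continuousOn_dslope (f := dscA K m ψ) (a := (1 : ℝ)) (s := Set.univ)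
      Filter.univ_mem).mpr
      ⟨(dscA_differentiable K m ψ).continuous.continuousOn, (dscA_differentiable K m ψ) 1⟩
    exact continuousOn_univ.mp this
  · have := sub_smul_dslope (dscA K m ψ) 1 s
    rw [h1, sub_zero] at this
    rw [← this, Complex.real_smul]

/-- division by a continuous nonvanishing function -/
lemma DscCont.div_continuous {f g : ℝ → ℂ} (hf : DscCont f) (hg : Continuous g)
    (hg0 : ∀ s, g s ≠ 0) : DscCont fun s => f s / g s := by
  obtain ⟨f', hf', hff'⟩ := hf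
  refine ⟨fun s => f' s / g s, hf'.div hg.continuousOn fun s _ => hg0 s, fun s hs => ?_⟩
  simp only [hff' s hs]

/-- `(s - 1) ζ_K(s)` extends continuously to `[1, 2]` -/
theorem dsc_zeta_cont : DscCont fun s : ℝ => (s - 1) * (dedekindZeta K s).re := by
  set G : ℝ → ℝ := fun s => if s = 1 then dedekindZeta_residue K else
    (s - 1) * (dedekindZeta K s).re with hG
  have hzc : ∀ s₀ : ℝ, 1 < s₀ → ContinuousAt (fun s : ℝ => (dedekindZeta K s).re) s₀ := by
    intro s₀ hs₀
    have hab : LSeries.abscissaOfAbsConv (fun n => ((idealCount K n : ℝ) : ℂ)) ≤ (1 : ℝ) :=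
      LSeries.abscissaOfAbsConv_le_of_forall_lt_LSeriesSummable fun y hy =>
        zp_lseriesSummable K (s := (y : ℂ)) (by simpa using hy)
    have hmem : (s₀ : ℂ) ∈ {s : ℂ | LSeries.abscissaOfAbsConv
        (fun n => ((idealCount K n : ℝ) : ℂ)) < s.re} := by
      show LSeries.abscissaOfAbsConv (fun n => ((idealCount K n : ℝ) : ℂ)) < ((s₀ : ℂ).re : EReal)
      rw [Complex.ofReal_re]
      exact lt_of_le_of_lt hab (by exact_mod_cast hs₀)
    have hopen : IsOpen {s : ℂ | LSeries.abscissaOfAbsConv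
        (fun n => ((idealCount K n : ℝ) : ℂ)) < s.re} :=
      isOpen_lt continuous_const (EReal.continuous_coe_iff.mpr Complex.continuous_re)
    have hd := ((LSeries_differentiableOn (fun n => ((idealCount K n : ℝ) : ℂ))).differentiableAt
      (hopen.mem_nhds hmem)).continuousAt
    have hfun : (fun s : ℝ => (dedekindZeta K s).re) =
        fun s : ℝ => (LSeries (fun n => ((idealCount K n : ℝ) : ℂ)) (s : ℂ)).re := by
      funext s; rw [zp_dedekindZeta_eq]
    rw [hfun]
    exact Complex.continuous_re.continuousAt.comp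
      (ContinuousAt.comp (f := fun s : ℝ => (s : ℂ)) hd Complex.continuous_ofReal.continuousAt)
  refine ⟨G, fun s₀ hs₀ => ?_, fun s hs => ?_⟩
  · rcases eq_or_lt_of_le hs₀.1 with h1 | h1
    · -- continuity at `1`
      subst h1
      have h2 : ContinuousWithinAt G (Set.Ioi 1) 1 := by
        show Tendsto G (𝓝[>] 1) (𝓝 (G 1))
        have hG1 : G 1 = dedekindZeta_residue K := if_pos rfl
        rw [hG1]
        refine (zp_tendsto_re K).congr' ?_
        filter_upwards [self_mem_nhdsWithin] with s hs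
        have : s ≠ 1 := ne_of_gt hs
        simp only [hG, if_neg this]
      exact (continuousWithinAt_Ioi_iff_Ici.mp h2).mono Set.Icc_subset_Ici_self
    · -- continuity at `s₀ > 1`
      have h3 : ContinuousAt (fun s : ℝ => (s - 1) * (dedekindZeta K s).re) s₀ :=
        ((continuous_id.sub continuous_const).continuousAt).mul (hzc s₀ h1)
      have h4 : G =ᶠ[𝓝 s₀] fun s : ℝ => (s - 1) * (dedekindZeta K s).re := by
        filter_upwards [lt_mem_nhds h1] with s hs
        have : s ≠ 1 := ne_of_gt hs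
        simp only [hG, if_neg this]
      exact (h3.congr h4.symm).continuousWithinAt
  · have : s ≠ 1 := ne_of_gt hs.1
    simp only [hG, if_neg this]

section Zeta

lemma dscChi_one (I : Ideal (𝓞 K)) : dscChi K 1 (1 : DirichletCharacter ℂ 1) I = 1 := by
  rw [dscChi]
  exact MulChar.one_apply (isUnit_of_subsingleton _)

lemma dscL_one {s : ℝ} (hs : 1 < s) :
    dscL K 1 (1 : DirichletCharacter ℂ 1) s = (((dedekindZeta K s).re : ℝ) : ℂ) := by
  rw [dscL, ← (zp_hasSum_ideal_ne_bot K hs).tsum_eq, Complex.ofReal_tsum]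
  refine tsum_congr fun I => ?_
  rw [dscTerm, dscChi_one, one_mul]

lemma dscS0_one_ne_zero : dscS0 K 1 (1 : DirichletCharacter ℂ 1) ≠ 0 := by
  have h : ∀ u, dscThetaBar K 1 (1 : DirichletCharacter ℂ 1) u = 1 := fun u => by
    rw [dscThetaBar, dscTheta]
    exact MulChar.one_apply (isUnit_of_subsingleton _)
  rw [dscS0, Finset.sum_congr rfl fun u _ => h u, Finset.sum_const, Finset.card_univ,
    nsmul_eq_mul, mul_one]
  exact_mod_cast Fintype.card_ne_zero

lemma dscKappa_ne_zero : dscKappa K m ≠ 0 := by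
  rw [dscKappa]
  apply inv_ne_zero
  rw [Ne, Complex.ofReal_eq_zero]
  have h1 : (torsionOrder K : ℝ) ≠ 0 := by exact_mod_cast torsionOrder_ne_zero K
  have h2 : (Ideal.absNorm (Ideal.span {(m : 𝓞 K)}) : ℝ) ≠ 0 := by
    have : Ideal.absNorm (Ideal.span {(m : 𝓞 K)}) ≠ 0 := by
      rw [Ne, Ideal.absNorm_eq_zero_iff, Ideal.span_singleton_eq_bot]
      exact_mod_cast NeZero.ne m
    exact_mod_cast this
  exact mul_ne_zero h1 h2

lemma dscA_one_ne_zero (s : ℝ) : dscA K 1 (1 : DirichletCharacter ℂ 1) s ≠ 0 := by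
  have h : dscA K 1 (1 : DirichletCharacter ℂ 1) s =
      dscS0 K 1 (1 : DirichletCharacter ℂ 1) * dscKappa K 1 *
        ((∑ c : ClassGroup (𝓞 K), (Ideal.absNorm (dscClsRep K 1 c).1 : ℝ) ^ (s - 1) : ℝ) : ℂ) := by
    rw [dscA, Complex.ofReal_sum, Finset.mul_sum]
    refine Finset.sum_congr rfl fun c _ => ?_
    rw [dscChi_one, inv_one, one_mul]
  rw [h]
  refine mul_ne_zero (mul_ne_zero (dscS0_one_ne_zero K) (dscKappa_ne_zero K 1)) ?_
  rw [Ne, Complex.ofReal_eq_zero]
  refine (Finset.sum_pos (fun c _ => Real.rpow_pos_of_pos (dscClsRep_norm_pos K 1 c) _)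
    Finset.univ_nonempty).ne'

/-- `(s - 1) Z₁(s)` extends continuously to `[1, 2]` -/
theorem dscZ1_cont [IsTotallyComplex K] :
    DscCont fun s : ℝ => ((((s - 1) * dscZ K ⊤ 0 s : ℝ)) : ℂ) := by
  have h := dscL_sub_cont K 1 (1 : DirichletCharacter ℂ 1)
  have hs1 : DscCont fun s : ℝ => ((s - 1 : ℝ) : ℂ) :=
    DscCont.of_continuousOn
      (Complex.continuous_ofReal.comp (continuous_id.sub continuous_const)).continuousOn
  have h2 := ((dsc_zeta_cont K).ofReal).sub (hs1.mul h)
  have h3 : DscCont fun s : ℝ => dscA K 1 (1 : DirichletCharacter ℂ 1) s *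
      ((((s - 1) * dscZ K ⊤ 0 s : ℝ)) : ℂ) := by
    refine h2.congr fun s hs => ?_
    rw [dscL_one K hs.1]
    push_cast
    ring
  have h4 := h3.div_continuous (dscA_differentiable K 1 1).continuous (dscA_one_ne_zero K)
  refine h4.congr fun s _ => ?_
  rw [mul_div_cancel_left₀ _ (dscA_one_ne_zero K s)]

end Zeta

/-- **the interface theorem**, in terms of the vanishing of the leading coefficient -/
theorem dscL_cont_of_A [IsTotallyComplex K] (hA : dscA K m ψ 1 = 0) : DscCont (dscL K m ψ) := by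
  obtain ⟨B, hB, hAB⟩ := dscA_eq_mul K m ψ hA
  have h1 := dscL_sub_cont K m ψ
  have h2 := (DscCont.of_continuousOn hB.continuousOn).mul (dscZ1_cont K)
  refine (h1.add h2).congr fun s _ => ?_
  rw [hAB s]
  push_cast
  ring

end Fermat.Agent.DS
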