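/-
DS-C (Chebotarev), file 10: the leading coefficient `dscA K m ψ 1` vanishes as soon as `ψ ∘ N` is a
nontrivial character on ideals; hence **the interface theorem** `dscL_cont`.
-/
import Fermat.Agent.Lib.DS.Cheb.LCont

set_option autoImplicit false
set_option linter.unusedSectionVars false
set_option linter.style.haveILetI false

open NumberField NumberField.mixedEmbedding NumberField.Units Module Filter Topology

namespace Fermat.Agent.DS

open Fermat.Agent.FrobDensity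

variable (K : Type*) [Field K] [NumberField K] (m : ℕ) [NeZero m] (ψ : DirichletCharacter ℂ m)

open scoped Classical

lemma dscTheta_mul (α β : 𝓞 K) :
    dscTheta K m ψ (α * β) = dscTheta K m ψ α * dscTheta K m ψ β := by
  simp [dscTheta, map_mul]

lemma dscChi_span [IsTotallyComplex K] (α : 𝓞 K) :
    dscChi K m ψ (Ideal.span {α}) = dscTheta K m ψ α := by
  have hnn := dsc_norm_nonneg K α
  rw [dscChi, dscTheta, Ideal.absNorm_span_singleton]
  conv_rhs => rw [← Int.natAbs_of_nonneg hnn]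
  simp

/-- an integer whose norm is prime to `m` is invertible modulo `m` -/
lemma dsc_exists_inverse_mod {α : 𝓞 K} (h : dscTheta K m ψ α ≠ 0) :
    ∃ β : 𝓞 K, α * β - 1 ∈ Ideal.span {(m : 𝓞 K)} := by
  have hunit : IsUnit (((Algebra.norm ℤ α : ℤ)) : ZMod m) := by
    by_contra hcon
    exact h (MulChar.map_nonunit ψ hcon)
  -- the norm is a multiple of `α`
  have hmem : (((Algebra.norm ℤ α).natAbs : ℕ) : 𝓞 K) ∈ Ideal.span {α} := by
    rw [← Ideal.absNorm_span_singleton]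
    exact Ideal.absNorm_mem _
  obtain ⟨γ, hγ⟩ := Ideal.mem_span_singleton'.mp hmem
  have hunit' : IsUnit ((((Algebra.norm ℤ α).natAbs : ℕ)) : ZMod m) := by
    rcases Int.natAbs_eq (Algebra.norm ℤ α) with h3 | h3
    · have : ((((Algebra.norm ℤ α).natAbs : ℕ)) : ZMod m) = ((Algebra.norm ℤ α : ℤ) : ZMod m) := by
        conv_rhs => rw [h3]
        simp
      rw [this]; exact hunit
    · have : ((((Algebra.norm ℤ α).natAbs : ℕ)) : ZMod m) = -((Algebra.norm ℤ α : ℤ) : ZMod m) := by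
        conv_rhs => rw [h3]
        simp
      rw [this]; exact hunit.neg
  set N : ℕ := (Algebra.norm ℤ α).natAbs with hN
  obtain ⟨w, hw⟩ := hunit'
  set k : ℕ := ((w⁻¹ : (ZMod m)ˣ) : ZMod m).val with hk
  have hNk : ((N * k : ℕ) : ZMod m) = 1 := by
    rw [Nat.cast_mul, hk, ZMod.natCast_zmod_val, ← hw, ← Units.val_mul, mul_inv_cancel,
      Units.val_one]
  have hdvd : (m : ℤ) ∣ ((N * k : ℕ) : ℤ) - 1 := by
    rw [← ZMod.intCast_zmod_eq_zero_iff_dvd]
    push_cast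
    have : ((N : ZMod m)) * (k : ZMod m) = 1 := by exact_mod_cast hNk
    rw [this, sub_self]
  obtain ⟨t, ht⟩ := hdvd
  refine ⟨γ * (k : 𝓞 K), ?_⟩
  rw [Ideal.mem_span_singleton']
  refine ⟨(t : 𝓞 K), ?_⟩
  have h1 : α * (γ * (k : 𝓞 K)) = ((N * k : ℕ) : 𝓞 K) := by
    rw [Nat.cast_mul, ← hγ]; ring
  rw [h1]
  have h2 : (((N * k : ℕ) : ℤ) : 𝓞 K) - 1 = ((m : ℤ) : 𝓞 K) * (t : 𝓞 K) := by
    have := congrArg (fun z : ℤ => (z : 𝓞 K)) ht
    simpa using this
  rw [mul_comm]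
  simpa using h2.symm

lemma dscThetaBar_mul_mk (u : 𝓞 K ⧸ Ideal.span {(m : 𝓞 K)}) (α : 𝓞 K) :
    dscThetaBar K m ψ (u * Ideal.Quotient.mk _ α) = dscThetaBar K m ψ u * dscTheta K m ψ α := by
  obtain ⟨a, rfl⟩ := Ideal.Quotient.mk_surjective u
  rw [← map_mul, dscThetaBar_mk, dscThetaBar_mk, dscTheta_mul]

/-- if `S₀ ≠ 0` then `ψ ∘ N` is trivial on the integers prime to `m` -/
lemma dscTheta_eq_one_of_S0 (hS : dscS0 K m ψ ≠ 0) {α : 𝓞 K} (h : dscTheta K m ψ α ≠ 0) :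
    dscTheta K m ψ α = 1 := by
  obtain ⟨β, hβ⟩ := dsc_exists_inverse_mod K m ψ h
  have hαβ : Ideal.Quotient.mk (Ideal.span {(m : 𝓞 K)}) α * Ideal.Quotient.mk _ β = 1 := by
    rw [← map_mul, ← map_one (Ideal.Quotient.mk (Ideal.span {(m : 𝓞 K)})), Ideal.Quotient.eq]
    exact hβ
  let e : (𝓞 K ⧸ Ideal.span {(m : 𝓞 K)}) ≃ (𝓞 K ⧸ Ideal.span {(m : 𝓞 K)}) :=
    { toFun := fun u => u * Ideal.Quotient.mk _ α
      invFun := fun u => u * Ideal.Quotient.mk _ β
      left_inv := fun u => by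
        show u * Ideal.Quotient.mk _ α * Ideal.Quotient.mk _ β = u
        rw [mul_assoc, hαβ, mul_one]
      right_inv := fun u => by
        show u * Ideal.Quotient.mk _ β * Ideal.Quotient.mk _ α = u
        rw [mul_assoc, mul_comm (Ideal.Quotient.mk _ β), hαβ, mul_one] }
  have h1 : dscS0 K m ψ = dscS0 K m ψ * dscTheta K m ψ α := by
    conv_lhs => rw [dscS0, ← Equiv.sum_comp e]
    rw [dscS0, Finset.sum_mul]
    exact Finset.sum_congr rfl fun u _ => dscThetaBar_mul_mk K m ψ u α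
  have h2 : dscS0 K m ψ * (dscTheta K m ψ α - 1) = 0 := by
    rw [mul_sub, mul_one, ← h1, sub_self]
  rcases mul_eq_zero.mp h2 with h3 | h3
  · exact absurd h3 hS
  · exact sub_eq_zero.mp h3

/-- if `S₀ ≠ 0` then `ψ ∘ N` is a class function on the ideals prime to `m` -/
lemma dscChi_eq_of_cls [IsTotallyComplex K] (hS : dscS0 K m ψ ≠ 0) {I I' : DscIdeal K}
    (hcls : dscCls K I = dscCls K I') (hI : dscChi K m ψ I.1 ≠ 0) (hI' : dscChi K m ψ I'.1 ≠ 0) :
    dscChi K m ψ I.1 = dscChi K m ψ I'.1 := by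
  obtain ⟨𝔟, h𝔟, hcop⟩ := dsc_exists_rep_inv K m (dscCls K I)
  have hχ𝔟 := dscChi_ne_zero K m ψ hcop
  have key : ∀ J : DscIdeal K, dscCls K J = dscCls K I → dscChi K m ψ J.1 ≠ 0 →
      dscChi K m ψ J.1 * dscChi K m ψ 𝔟.1 = 1 := by
    intro J hJ hχJ
    have hprin : (J.1 * 𝔟.1).IsPrincipal := by
      have := dscCls_mul K J 𝔟
      rw [hJ, ← h𝔟, inv_mul_cancel] at this
      exact (dscCls_eq_one_iff K ⟨J.1 * 𝔟.1, mul_ne_zero J.2 𝔟.2⟩).mp this
    obtain ⟨γ, hγ⟩ := hprin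
    have hγ' : J.1 * 𝔟.1 = Ideal.span {γ} := hγ
    rw [← dscChi_mul, hγ', dscChi_span]
    apply dscTheta_eq_one_of_S0 K m ψ hS
    rw [← dscChi_span, ← hγ', dscChi_mul]
    exact mul_ne_zero hχJ hχ𝔟
  have h1 := key I rfl hI
  have h2 := key I' hcls.symm hI'
  exact mul_right_cancel₀ hχ𝔟 (h1.trans h2.symm)

/-- the leading coefficient vanishes for a nontrivial character -/
theorem dscA_one_eq_zero [IsTotallyComplex K]
    (hψ : ∃ I : Ideal (𝓞 K), dscChi K m ψ I ≠ 0 ∧ dscChi K m ψ I ≠ 1) :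
    dscA K m ψ 1 = 0 := by
  have hA : dscA K m ψ 1 = dscS0 K m ψ * dscKappa K m *
      ∑ c : ClassGroup (𝓞 K), (dscChi K m ψ (dscClsRep K m c).1)⁻¹ := by
    rw [dscA, Finset.mul_sum]
    refine Finset.sum_congr rfl fun c _ => ?_
    rw [sub_self, Real.rpow_zero]
    push_cast
    ring
  rw [hA]
  by_cases hS : dscS0 K m ψ = 0
  · rw [hS, zero_mul, zero_mul]
  obtain ⟨I₀, h0, h1⟩ := hψ
  have hI₀ : I₀ ≠ ⊥ := by
    rintro rfl
    rw [dscChi, Ideal.absNorm_bot, Nat.cast_zero] at h0 h1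
    by_cases hu : IsUnit (0 : ZMod m)
    · haveI : Subsingleton (ZMod m) := subsingleton_of_zero_eq_one (by
        have := hu.mul_val_inv
        rw [zero_mul] at this
        exact this)
      apply h1
      rw [Subsingleton.elim (0 : ZMod m) 1, map_one]
    · exact h0 (MulChar.map_nonunit ψ hu)
  set c₀ : ClassGroup (𝓞 K) := dscCls K ⟨I₀, hI₀⟩ with hc₀
  have hshift : ∀ c : ClassGroup (𝓞 K), dscChi K m ψ (dscClsRep K m c).1 * dscChi K m ψ I₀ =
      dscChi K m ψ (dscClsRep K m (c * c₀⁻¹)).1 := by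
    intro c
    rw [← dscChi_mul]
    have hne1 : dscChi K m ψ ((dscClsRep K m c).1 * I₀) ≠ 0 := by
      rw [dscChi_mul]
      exact mul_ne_zero (dscChi_ne_zero K m ψ (dscClsRep_coprime K m c)) h0
    have hne2 := dscChi_ne_zero K m ψ (dscClsRep_coprime K m (c * c₀⁻¹))
    refine dscChi_eq_of_cls K m ψ hS
      (I := ⟨(dscClsRep K m c).1 * I₀, mul_ne_zero (dscClsRep K m c).2 hI₀⟩)
      (I' := dscClsRep K m (c * c₀⁻¹)) ?_ hne1 hne2
    have e1 := dscCls_mul K (dscClsRep K m c) ⟨I₀, hI₀⟩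
    have e2 := dscClsRep_cls K m c
    have e3 := dscClsRep_cls K m (c * c₀⁻¹)
    rw [e1, ← hc₀, ← inv_inj, e3, mul_inv, e2, mul_comm]
  have hsum : (∑ c : ClassGroup (𝓞 K), (dscChi K m ψ (dscClsRep K m c).1)⁻¹) *
      (dscChi K m ψ I₀)⁻¹ = ∑ c : ClassGroup (𝓞 K), (dscChi K m ψ (dscClsRep K m c).1)⁻¹ := by
    rw [Finset.sum_mul]
    rw [← Equiv.sum_comp (Equiv.mulRight c₀⁻¹)
      (fun c => (dscChi K m ψ (dscClsRep K m c).1)⁻¹)]
    refine Finset.sum_congr rfl fun c _ => ?_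
    rw [Equiv.coe_mulRight, ← hshift c, mul_inv]
  have h2 : (∑ c : ClassGroup (𝓞 K), (dscChi K m ψ (dscClsRep K m c).1)⁻¹) *
      ((dscChi K m ψ I₀)⁻¹ - 1) = 0 := by
    rw [mul_sub, mul_one, hsum, sub_self]
  rcases mul_eq_zero.mp h2 with h3 | h3
  · rw [h3, mul_zero]
  · exfalso
    apply h1
    have := sub_eq_zero.mp h3
    rw [inv_eq_one] at this
    exact this

/-- **the interface theorem**: the `L`-series of a nontrivial character `ψ ∘ N` of a totally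
complex number field extends continuously to `[1, 2]` -/
theorem dscL_cont [IsTotallyComplex K]
    (hψ : ∃ I : Ideal (𝓞 K), dscChi K m ψ I ≠ 0 ∧ dscChi K m ψ I ≠ 1) :
    DscCont (dscL K m ψ) :=
  dscL_cont_of_A K m ψ (dscA_one_eq_zero K m ψ hψ)

end Fermat.Agent.DS
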