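/-
DS-C (Chebotarev), file 7: the norm of integers of a totally complex number field:
* `dsc_norm_nonneg` : it is nonnegative;
* `dsc_norm_add_mul` : it is periodic modulo `m`;
* ideals prime to `m` and representatives of ideal classes prime to `m`.
-/
import Mathlib

set_option autoImplicit false
set_option linter.unusedSectionVars false

open NumberField

namespace Fermat.Agent.DS

variable (K : Type*) [Field K] [NumberField K]

/-- the norm of a totally complex field is nonnegative -/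
theorem dsc_norm_rat_nonneg [IsTotallyComplex K] (x : K) : 0 ≤ Algebra.norm ℚ x := by
  classical
  by_cases hx : x = 0
  · rw [hx, Algebra.norm_zero]
  have h := Algebra.norm_eq_prod_embeddings ℚ ℂ x
  rw [← Fintype.prod_equiv (RingHom.equivRatAlgHom K ℂ) (fun φ : K →+* ℂ => φ x)
    (fun σ : K →ₐ[ℚ] ℂ => σ x) (fun φ => by simp [RingHom.equivRatAlgHom_apply])] at h
  have hne : ∀ φ : K →+* ℂ, φ x ≠ 0 := fun φ => (map_ne_zero φ).mpr hx
  -- the unit parts multiply to one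
  have hunit : ∏ φ : K →+* ℂ, (φ x / ((‖φ x‖ : ℝ) : ℂ)) = 1 := by
    refine Finset.prod_involution (fun φ _ => ComplexEmbedding.conjugate φ) ?_ ?_
      (fun _ _ => Finset.mem_univ _) ?_
    · intro φ _
      have hn : ((‖φ x‖ : ℝ) : ℂ) ≠ 0 := by
        rw [Ne, Complex.ofReal_eq_zero, norm_eq_zero]; exact hne φ
      rw [ComplexEmbedding.conjugate_coe_eq, Complex.norm_conj, div_mul_div_comm,
        Complex.mul_conj, Complex.normSq_eq_norm_sq]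
      push_cast
      field_simp
    · intro φ _ _
      exact IsTotallyComplex.complexEmbedding_not_isReal φ
    · intro φ _
      exact star_star φ
  have hprod : ∏ φ : K →+* ℂ, φ x = ((∏ φ : K →+* ℂ, ‖φ x‖ : ℝ) : ℂ) := by
    have h1 : ∀ φ : K →+* ℂ, φ x = ((‖φ x‖ : ℝ) : ℂ) * (φ x / ((‖φ x‖ : ℝ) : ℂ)) := by
      intro φ
      have hn : ((‖φ x‖ : ℝ) : ℂ) ≠ 0 := by
        rw [Ne, Complex.ofReal_eq_zero, norm_eq_zero]; exact hne φ
      field_simp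
    rw [Finset.prod_congr rfl fun φ _ => h1 φ, Finset.prod_mul_distrib, hunit, mul_one]
    push_cast
    rfl
  rw [hprod] at h
  have h2 : ((Algebra.norm ℚ x : ℚ) : ℝ) = ∏ φ : K →+* ℂ, ‖φ x‖ := by
    have : ((((Algebra.norm ℚ x : ℚ) : ℝ)) : ℂ) = ((∏ φ : K →+* ℂ, ‖φ x‖ : ℝ) : ℂ) := by
      rw [← h]; simp
    exact_mod_cast this
  have h3 : (0 : ℝ) ≤ ((Algebra.norm ℚ x : ℚ) : ℝ) := by
    rw [h2]; exact Finset.prod_nonneg fun φ _ => norm_nonneg _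
  exact_mod_cast h3

theorem dsc_norm_nonneg [IsTotallyComplex K] (α : 𝓞 K) : 0 ≤ Algebra.norm ℤ α := by
  have h := dsc_norm_rat_nonneg K (α : K)
  rw [← Algebra.coe_norm_int] at h
  exact_mod_cast h

/-- the norm is periodic modulo `m` -/
theorem dsc_norm_add_mul (m : ℕ) (α β : 𝓞 K) :
    ((Algebra.norm ℤ (α + (m : 𝓞 K) * β) : ℤ) : ZMod m) = ((Algebra.norm ℤ α : ℤ) : ZMod m) := by
  classical
  let b := Module.Free.chooseBasis ℤ (𝓞 K)
  rw [Algebra.norm_eq_matrix_det b, Algebra.norm_eq_matrix_det b]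
  show (Int.castRingHom (ZMod m)) _ = (Int.castRingHom (ZMod m)) _
  rw [RingHom.map_det, RingHom.map_det]
  congr 1
  rw [map_add, map_mul, map_add, map_mul]
  have : (Int.castRingHom (ZMod m)).mapMatrix (Algebra.leftMulMatrix b ((m : ℕ) : 𝓞 K)) = 0 := by
    rw [show ((m : ℕ) : 𝓞 K) = algebraMap ℤ (𝓞 K) (m : ℤ) by simp, AlgHom.commutes]
    ext i j
    rw [RingHom.mapMatrix_apply, Matrix.map_apply, Matrix.algebraMap_matrix_apply]
    split_ifs <;> simp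
  rw [this, zero_mul, add_zero]

theorem dsc_norm_congr (m : ℕ) {α α' : 𝓞 K} (h : α' - α ∈ Ideal.span {(m : 𝓞 K)}) :
    ((Algebra.norm ℤ α' : ℤ) : ZMod m) = ((Algebra.norm ℤ α : ℤ) : ZMod m) := by
  obtain ⟨β, hβ⟩ := Ideal.mem_span_singleton'.mp h
  have : α' = α + (m : 𝓞 K) * β := by rw [mul_comm, hβ]; ring
  rw [this, dsc_norm_add_mul]

/-- an ideal prime to `m` has norm prime to `m` -/
theorem dsc_coprime_absNorm (m : ℕ) {𝔟 : Ideal (𝓞 K)}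
    (h : 𝔟 ⊔ Ideal.span {(m : 𝓞 K)} = ⊤) : Nat.Coprime (Ideal.absNorm 𝔟) m := by
  have h1 : (1 : 𝓞 K) ∈ 𝔟 ⊔ Ideal.span {(m : 𝓞 K)} := by rw [h]; exact Submodule.mem_top
  obtain ⟨b, hb, y, hy, hby⟩ := Submodule.mem_sup.mp h1
  have hcong : ((Algebra.norm ℤ b : ℤ) : ZMod m) = 1 := by
    have : (1 : 𝓞 K) - b ∈ Ideal.span {(m : 𝓞 K)} := by
      rw [← hby]; simpa using hy
    have h2 := dsc_norm_congr K m this
    rw [← h2]
    simp
  have hdvd : Ideal.absNorm 𝔟 ∣ (Algebra.norm ℤ b).natAbs := by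
    rw [← Ideal.absNorm_span_singleton]
    exact Ideal.absNorm_dvd_absNorm_of_le ((Ideal.span_singleton_le_iff_mem 𝔟).mpr hb)
  have hunit : IsUnit (((Algebra.norm ℤ b).natAbs : ℕ) : ZMod m) := by
    rcases Int.natAbs_eq (Algebra.norm ℤ b) with h3 | h3
    · have : (((Algebra.norm ℤ b).natAbs : ℕ) : ZMod m) = 1 := by
        rw [← hcong]
        conv_rhs => rw [h3]
        simp
      rw [this]; exact isUnit_one
    · have : (((Algebra.norm ℤ b).natAbs : ℕ) : ZMod m) = -1 := by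
        rw [← hcong]
        conv_rhs => rw [h3]
        simp
      rw [this]; exact isUnit_one.neg
  obtain ⟨k, hk⟩ := hdvd
  rw [hk, Nat.cast_mul] at hunit
  exact (ZMod.isUnit_iff_coprime _ _).mp (isUnit_of_mul_isUnit_left hunit)

/-- every ideal class contains an integral ideal prime to `m` -/
theorem dsc_exists_coprime_rep (m : ℕ) [NeZero m] (c : ClassGroup (𝓞 K)) :
    ∃ (𝔟 : Ideal (𝓞 K)) (h𝔟 : 𝔟 ≠ ⊥),
      ClassGroup.mk0 ⟨𝔟, mem_nonZeroDivisors_iff_ne_zero.mpr h𝔟⟩ = c ∧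
        𝔟 ⊔ Ideal.span {(m : 𝓞 K)} = ⊤ := by
  have hm0 : Ideal.span {(m : 𝓞 K)} ≠ ⊥ := by
    rw [Ne, Ideal.span_singleton_eq_bot]
    exact_mod_cast NeZero.ne m
  obtain ⟨⟨𝔠, h𝔠⟩, hc⟩ := ClassGroup.mk0_surjective (R := 𝓞 K) c⁻¹
  have h𝔠0 : 𝔠 ≠ ⊥ := mem_nonZeroDivisors_iff_ne_zero.mp h𝔠
  have hI0 : Ideal.span {(m : 𝓞 K)} * 𝔠 ≠ 0 := mul_ne_zero hm0 h𝔠0
  obtain ⟨a, ha⟩ := IsDedekindDomain.exists_sup_span_eq
    (Ideal.mul_le_right : Ideal.span {(m : 𝓞 K)} * 𝔠 ≤ 𝔠) hI0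
  have ha𝔠 : Ideal.span {a} ≤ 𝔠 := by rw [← ha]; exact le_sup_right
  obtain ⟨𝔟, h𝔟⟩ := Ideal.dvd_iff_le.mpr ha𝔠
  by_cases ha0 : a = 0
  · -- then `m` is a unit and every representative works
    rw [ha0, Ideal.span_singleton_zero, sup_bot_eq] at ha
    have htop : Ideal.span {(m : 𝓞 K)} = ⊤ := by
      have : Ideal.span {(m : 𝓞 K)} * 𝔠 = ⊤ * 𝔠 := by rw [ha, Ideal.top_mul]
      exact mul_left_injective₀ h𝔠0 this
    obtain ⟨⟨𝔡, h𝔡⟩, hd⟩ := ClassGroup.mk0_surjective (R := 𝓞 K) c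
    exact ⟨𝔡, mem_nonZeroDivisors_iff_ne_zero.mp h𝔡, hd, by rw [htop, sup_top_eq]⟩
  have h𝔟0 : 𝔟 ≠ ⊥ := by
    rintro rfl
    rw [Ideal.mul_bot, Ideal.span_singleton_eq_bot] at h𝔟
    exact ha0 h𝔟
  refine ⟨𝔟, h𝔟0, ?_, ?_⟩
  · have hprin : ClassGroup.mk0 ⟨Ideal.span {a}, mem_nonZeroDivisors_iff_ne_zero.mpr (by
        rw [Ne, Ideal.zero_eq_bot, Ideal.span_singleton_eq_bot]; exact ha0)⟩ =
          (1 : ClassGroup (𝓞 K)) := by
      rw [ClassGroup.mk0_eq_one_iff]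
      exact ⟨a, rfl⟩
    have hmul : ClassGroup.mk0 ⟨𝔠, h𝔠⟩ *
        ClassGroup.mk0 ⟨𝔟, mem_nonZeroDivisors_iff_ne_zero.mpr h𝔟0⟩ = (1 : ClassGroup (𝓞 K)) := by
      rw [← map_mul, ← hprin]
      congr 1
      exact Subtype.ext h𝔟.symm
    rw [hc] at hmul
    exact (inv_mul_eq_one.mp hmul).symm
  · have : 𝔠 * (Ideal.span {(m : 𝓞 K)} ⊔ 𝔟) = 𝔠 * ⊤ := by
      rw [Ideal.mul_sup, ← h𝔟, mul_comm 𝔠, ha, Ideal.mul_top]
    rw [sup_comm]
    exact mul_right_injective₀ h𝔠0 this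

end Fermat.Agent.DS
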